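import Fermat.Agent.S16.A_Dual

/-!
# S16, part A3: assembly from THM-U and THM-L
-/

set_option autoImplicit false

open ModularCurve CuspForm ModularFormClass

namespace Fermat.Agent.S16Aux

variable (p : ℕ) [Fact p.Prime]

theorem eisensteinNumerator_pos : 0 < eisensteinNumerator p := by
  unfold eisensteinNumerator
  have hp : 0 < p - 1 := by
    have := (Fact.out : p.Prime).two_le
    omega
  exact Nat.div_pos (Nat.le_of_dvd hp (Nat.gcd_dvd_left _ _)) (Nat.gcd_pos_of_pos_left _ hp)

omit [Fact p.Prime] in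
theorem sub_C_eps_mem (P : HeckeAlg) : P - MvPolynomial.C (eps p P) ∈ eisensteinIdeal p := by
  unfold eisensteinIdeal
  rw [mem_eigenIdeal_iff, map_sub, MvPolynomial.aeval_C]
  exact sub_self _

theorem main_of (hU : ThmU p) (hL : ThmL p) :
    Nat.card (↥(heckeLatticeAlgebra p ∅) ⧸ Ideal.map (phi p) (eisensteinIdeal p)) =
      eisensteinNumerator p := by
  set J := Ideal.map (phi p) (eisensteinIdeal p) with hJ
  set m := ringChar (↥(heckeLatticeAlgebra p ∅) ⧸ J) with hm
  have : CharP (↥(heckeLatticeAlgebra p ∅) ⧸ J) m := ringChar.charP _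
  -- `φ P ≡ eps P` mod `J`
  have hmk : ∀ P : HeckeAlg, Ideal.Quotient.mk J (phi p P)
      = ((eps p P : ℤ) : ↥(heckeLatticeAlgebra p ∅) ⧸ J) := by
    intro P
    have h1 : phi p (P - MvPolynomial.C (eps p P)) ∈ J :=
      Ideal.mem_map_of_mem _ (sub_C_eps_mem p P)
    rw [map_sub] at h1
    have h2 : phi p (MvPolynomial.C (eps p P)) = ((eps p P : ℤ) : ↥(heckeLatticeAlgebra p ∅)) := by
      have h4 : (MvPolynomial.C (eps p P) : HeckeAlg) = ((eps p P : ℤ) : HeckeAlg) := by
        simp
      rw [h4, map_intCast (phi p)]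
    rw [h2] at h1
    have h3 := (Ideal.Quotient.eq (I := J)).2 h1
    rw [h3, map_intCast]
  let c : ZMod m →+* (↥(heckeLatticeAlgebra p ∅) ⧸ J) := ZMod.castHom (dvd_refl m) _
  have hcinj : Function.Injective c := ZMod.castHom_injective _
  have hcsurj : Function.Surjective c := by
    intro x
    obtain ⟨t, rfl⟩ := Ideal.Quotient.mk_surjective x
    obtain ⟨P, rfl⟩ := phi_surjective p t
    exact ⟨((eps p P : ℤ) : ZMod m), by rw [hmk, map_intCast]⟩
  let e : ZMod m ≃+* (↥(heckeLatticeAlgebra p ∅) ⧸ J) := RingEquiv.ofBijective c ⟨hcinj, hcsurj⟩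
  have hcard : Nat.card (↥(heckeLatticeAlgebra p ∅) ⧸ J) = m := by
    rw [← Nat.card_congr e.toEquiv, Nat.card_zmod]
  rw [hcard]
  -- lower bound
  have hlow : eisensteinNumerator p ∣ m := by
    have h0 : ((m : ℕ) : ↥(heckeLatticeAlgebra p ∅) ⧸ J) = 0 := CharP.cast_eq_zero _ m
    have h1 : ((m : ℕ) : ↥(heckeLatticeAlgebra p ∅)) ∈ J := by
      rw [← Ideal.Quotient.eq_zero_iff_mem, map_natCast, h0]
    rw [hJ, Ideal.mem_map_iff_of_surjective _ (phi_surjective p)] at h1
    obtain ⟨P, hP, hPm⟩ := h1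
    have h2 : phi p (P - (m : HeckeAlg)) = 0 := by
      rw [map_sub, hPm, map_natCast, sub_self]
    have h3 := hL _ ((phi_eq_zero_iff p _).1 h2)
    rw [map_sub, map_natCast] at h3
    unfold eisensteinIdeal at hP
    rw [mem_eigenIdeal_iff] at hP
    rw [hP, zero_sub, dvd_neg] at h3
    exact_mod_cast h3
  -- upper bound
  obtain ⟨F, a, ha, hF⟩ := exists_form_of_hom p m (e.symm.toRingHom.comp (Ideal.Quotient.mk J))
    (fun P => by
      rw [RingHom.comp_apply, hmk]
      exact map_intCast e.symm _)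
  rcases Nat.eq_zero_or_pos m with h0 | hpos
  · exfalso
    have hF' : ∀ k, 0 < k → a k - (sigmaP p k : ℤ) = 0 := by
      intro k hk
      have := hF k hk
      rw [h0] at this
      simpa using this
    have := hU (eisensteinNumerator p + 1) (Nat.succ_pos _) F a ha
      (fun k hk => by rw [hF' k hk]; exact dvd_zero _)
    have h2 := Nat.le_of_dvd (eisensteinNumerator_pos p) this
    omega
  · exact Nat.dvd_antisymm (hU m hpos F a ha hF) hlow

end Fermat.Agent.S16Aux
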