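/-
S16 helper library (U0): valuations on `ℂ` above a rational prime, and Gauss-lemma type facts for
power series.
-/
import Mathlib

set_option autoImplicit false

namespace Fermat.Agent.S16Aux

open PowerSeries

/-- there is a valuation subring of `ℂ` in which the prime `l` is not a unit -/
theorem exists_val (l : ℕ) [Fact l.Prime] :
    ∃ V : ValuationSubring ℂ, V.valuation (l : ℂ) < 1 := by
  let A : Subring ℂ := (Int.castRingHom ℂ).range
  let x : A := ⟨(l : ℂ), ⟨(l : ℤ), by simp⟩⟩
  have hI : Ideal.span {x} ≠ ⊤ := by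
    intro h
    rw [Ideal.span_singleton_eq_top] at h
    obtain ⟨⟨y, ⟨b, hb⟩⟩, hy⟩ := isUnit_iff_exists_inv.1 h
    have h1 : ((l : ℂ)) * y = 1 := congrArg Subtype.val hy
    rw [← hb] at h1
    have h2 : ((l : ℤ)) * b = 1 := by
      have : (((l : ℤ) * b : ℤ) : ℂ) = ((1 : ℤ) : ℂ) := by push_cast; simpa using h1
      exact_mod_cast this
    have h3 : IsUnit (l : ℤ) := IsUnit.of_mul_eq_one _ h2
    rw [Int.isUnit_iff] at h3
    have := (Fact.out : l.Prime).two_le
    omega
  obtain ⟨B, _, hB⟩ := Ideal.image_subset_nonunits_valuationSubring (Ideal.span {x}) hI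
  refine ⟨B, ?_⟩
  have : (l : ℂ) ∈ B.nonunits := hB ⟨x, Ideal.subset_span rfl, rfl⟩
  exact (ValuationSubring.mem_nonunits_iff B).1 this

variable {Γ₀ : Type*} [LinearOrderedCommGroupWithZero Γ₀] (v : Valuation ℂ Γ₀)

theorem val_natCast_le_one (a : ℕ) : v (a : ℂ) ≤ 1 := by
  induction a with
  | zero => simp
  | succ n ih =>
    push_cast
    exact (v.map_add _ _).trans (max_le ih (by simp))

theorem val_intCast_le_one (a : ℤ) : v (a : ℂ) ≤ 1 := by
  obtain ⟨n, rfl | rfl⟩ := a.eq_nat_or_neg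
  · simpa using val_natCast_le_one v n
  · simpa using val_natCast_le_one v n

variable {v}

theorem val_intCast_eq_one {l : ℕ} [Fact l.Prime] (hl : v (l : ℂ) < 1) {a : ℤ}
    (h : ¬ (l : ℤ) ∣ a) : v (a : ℂ) = 1 := by
  have hp : Prime (l : ℤ) := Nat.prime_iff_prime_int.1 Fact.out
  have hc : IsCoprime a (l : ℤ) := ((hp.coprime_iff_not_dvd).2 h).symm
  obtain ⟨x, y, hxy⟩ := hc
  apply le_antisymm (val_intCast_le_one v a)
  by_contra hlt
  push Not at hlt
  have h1 : v (((x * a + y * l : ℤ)) : ℂ) < 1 := by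
    push_cast
    refine (v.map_add _ _).trans_lt (max_lt ?_ ?_)
    · rw [map_mul]
      exact mul_lt_one_of_nonneg_of_lt_one_right (val_intCast_le_one v x) zero_le hlt
    · rw [map_mul]
      exact mul_lt_one_of_nonneg_of_lt_one_right (val_intCast_le_one v y) zero_le hl
  rw [hxy] at h1
  simp at h1

theorem val_natCast_eq_one_of_coprime {l : ℕ} [Fact l.Prime] (hl : v (l : ℂ) < 1) {q : ℕ}
    (h : Nat.Coprime q l) : v (q : ℂ) = 1 := by
  have := val_intCast_eq_one hl (a := (q : ℤ)) (by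
    intro hd
    have hd' : l ∣ q := by exact_mod_cast hd
    have := Nat.dvd_gcd hd' dvd_rfl
    rw [h] at this
    exact (Fact.out : l.Prime).one_lt.ne' (Nat.dvd_one.1 this))
  simpa using this

theorem val_eq_one_of_pow_eq_one {ζ : ℂ} {n : ℕ} (hn : n ≠ 0) (h : ζ ^ n = 1) : v ζ = 1 := by
  have h1 : v ζ ^ n = 1 := by rw [← map_pow, h, map_one]
  exact (pow_eq_one_iff_of_nonneg zero_le hn).1 h1

theorem val_natCast_ne_zero {l : ℕ} [Fact l.Prime] : v (l : ℂ) ≠ 0 := by
  rw [Valuation.ne_zero_iff]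
  exact_mod_cast (Fact.out : l.Prime).ne_zero

theorem val_intCast_le_pow_iff {l : ℕ} [Fact l.Prime] (hl : v (l : ℂ) < 1) (a : ℤ) (s : ℕ) :
    v (a : ℂ) ≤ v (l : ℂ) ^ s ↔ (l : ℤ) ^ s ∣ a := by
  constructor
  · intro h
    induction s generalizing a with
    | zero => simp
    | succ s ih =>
      have hd : (l : ℤ) ∣ a := by
        by_contra hnd
        rw [val_intCast_eq_one hl hnd] at h
        exact absurd h (not_le.2 (pow_lt_one₀ zero_le hl (Nat.succ_ne_zero s)))
      obtain ⟨b, rfl⟩ := hd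
      rw [pow_succ']
      apply mul_dvd_mul_left
      apply ih
      push_cast at h
      rw [map_mul, pow_succ'] at h
      exact (mul_le_mul_iff_right₀ (zero_lt_iff.2 val_natCast_ne_zero)).1 h
  · rintro ⟨b, rfl⟩
    push_cast
    rw [map_mul, map_pow]
    exact mul_le_of_le_one_right' (val_intCast_le_one v b)

/-! ### Power series -/

variable (v)

/-- all coefficients have valuation `≤ c` -/
def LeV (c : Γ₀) (P : PowerSeries ℂ) : Prop := ∀ n, v (coeff n P) ≤ c

/-- all coefficients have valuation `< 1` -/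
def LtV (P : PowerSeries ℂ) : Prop := ∀ n, v (coeff n P) < 1

/-- `P` is integral and its first coefficient which is a unit is the `a`-th one -/
structure OrdV (P : PowerSeries ℂ) (a : ℕ) : Prop where
  int : LeV v 1 P
  lt : ∀ i < a, v (coeff i P) < 1
  eq : v (coeff a P) = 1

variable {v}

theorem LeV.mono {c d : Γ₀} {P : PowerSeries ℂ} (h : LeV v c P) (hcd : c ≤ d) : LeV v d P :=
  fun n => (h n).trans hcd

theorem LtV.leV {P : PowerSeries ℂ} (h : LtV v P) : LeV v 1 P := fun n => (h n).le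

theorem LeV.ltV {c : Γ₀} {P : PowerSeries ℂ} (h : LeV v c P) (hc : c < 1) : LtV v P :=
  fun n => (h n).trans_lt hc

theorem LeV.zero (c : Γ₀) : LeV v c 0 := fun n => by simp

theorem LeV.add {c : Γ₀} {P Q : PowerSeries ℂ} (hP : LeV v c P) (hQ : LeV v c Q) :
    LeV v c (P + Q) := fun n => by
  rw [map_add]; exact (v.map_add _ _).trans (max_le (hP n) (hQ n))

theorem LeV.neg {c : Γ₀} {P : PowerSeries ℂ} (hP : LeV v c P) : LeV v c (-P) := fun n => by
  rw [map_neg, Valuation.map_neg]; exact hP n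

theorem LeV.sub {c : Γ₀} {P Q : PowerSeries ℂ} (hP : LeV v c P) (hQ : LeV v c Q) :
    LeV v c (P - Q) := by
  rw [sub_eq_add_neg]; exact hP.add hQ.neg

theorem LeV.mul {c d : Γ₀} {P Q : PowerSeries ℂ} (hP : LeV v c P) (hQ : LeV v d Q) :
    LeV v (c * d) (P * Q) := fun n => by
  rw [coeff_mul]
  apply Valuation.map_sum_le
  intro i _
  rw [map_mul]
  exact mul_le_mul' (hP _) (hQ _)

theorem LeV.one : LeV v 1 1 := fun n => by
  rw [coeff_one]; split_ifs <;> simp

theorem LeV.pow {P : PowerSeries ℂ} (hP : LeV v 1 P) (n : ℕ) : LeV v 1 (P ^ n) := by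
  induction n with
  | zero => simpa using LeV.one
  | succ n ih => rw [pow_succ]; simpa using ih.mul hP

theorem LeV.C (a : ℂ) : LeV v (v a) (PowerSeries.C a) := fun n => by
  rw [coeff_C]; split_ifs <;> simp

theorem LeV.X : LeV v 1 (PowerSeries.X : PowerSeries ℂ) := fun n => by
  rw [coeff_X]; split_ifs <;> simp

theorem LeV.smul {c : Γ₀} {P : PowerSeries ℂ} (hP : LeV v c P) (a : ℂ) :
    LeV v (v a * c) (a • P) := fun n => by
  rw [coeff_smul, smul_eq_mul, map_mul]
  exact mul_le_mul_right (hP n) _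

theorem LeV.sum {c : Γ₀} {ι : Type*} (s : Finset ι) (P : ι → PowerSeries ℂ)
    (h : ∀ i ∈ s, LeV v c (P i)) : LeV v c (∑ i ∈ s, P i) := fun n => by
  rw [map_sum]
  exact Valuation.map_sum_le v fun i hi => h i hi n

theorem LeV.prod {ι : Type*} (s : Finset ι) (P : ι → PowerSeries ℂ)
    (h : ∀ i ∈ s, LeV v 1 (P i)) : LeV v 1 (∏ i ∈ s, P i) := by
  classical
  induction s using Finset.induction_on with
  | empty => simpa using LeV.one
  | insert a s ha ih =>
    rw [Finset.prod_insert ha]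
    simpa using (h a (Finset.mem_insert_self a s)).mul
      (ih fun i hi => h i (Finset.mem_insert_of_mem hi))

/-- series with integer coefficients are integral -/
theorem LeV.map_int (P : PowerSeries ℤ) : LeV v 1 (P.map (Int.castRingHom ℂ)) := fun n => by
  rw [coeff_map]; exact val_intCast_le_one v _

theorem LtV.add {P Q : PowerSeries ℂ} (hP : LtV v P) (hQ : LtV v Q) : LtV v (P + Q) := fun n => by
  rw [map_add]; exact (v.map_add _ _).trans_lt (max_lt (hP n) (hQ n))

theorem LtV.neg {P : PowerSeries ℂ} (hP : LtV v P) : LtV v (-P) := fun n => by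
  rw [map_neg, Valuation.map_neg]; exact hP n

theorem LtV.sub {P Q : PowerSeries ℂ} (hP : LtV v P) (hQ : LtV v Q) : LtV v (P - Q) := by
  rw [sub_eq_add_neg]; exact hP.add hQ.neg

theorem LtV.mul_right {P Q : PowerSeries ℂ} (hP : LtV v P) (hQ : LeV v 1 Q) :
    LtV v (P * Q) := fun n => by
  rw [coeff_mul]
  apply Valuation.map_sum_lt v one_ne_zero
  intro i _
  rw [map_mul]
  exact mul_lt_one_of_nonneg_of_lt_one_left zero_le (hP _) (hQ _)

theorem LtV.mul_left {P Q : PowerSeries ℂ} (hP : LeV v 1 P) (hQ : LtV v Q) :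
    LtV v (P * Q) := by
  rw [mul_comm]; exact hQ.mul_right hP

theorem OrdV.not_ltV {P : PowerSeries ℂ} {a : ℕ} (h : OrdV v P a) : ¬ LtV v P :=
  fun h' => (h' a).ne h.eq

theorem exists_ordV {P : PowerSeries ℂ} (hP : LeV v 1 P) (h : ¬ LtV v P) : ∃ a, OrdV v P a := by
  classical
  have hex : ∃ n, ¬ v (coeff n P) < 1 := by
    by_contra hne
    push Not at hne
    exact h hne
  refine ⟨Nat.find hex, hP, fun i hi => ?_, ?_⟩
  · by_contra hlt
    exact Nat.find_min hex hi hlt
  · exact le_antisymm (hP _) (not_lt.1 (Nat.find_spec hex))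

theorem OrdV.unique {P : PowerSeries ℂ} {a b : ℕ} (ha : OrdV v P a) (hb : OrdV v P b) : a = b := by
  rcases lt_trichotomy a b with h | h | h
  · exact absurd ha.eq (hb.lt a h).ne
  · exact h
  · exact absurd hb.eq (ha.lt b h).ne

/-- Gauss lemma -/
theorem OrdV.mul {P Q : PowerSeries ℂ} {a b : ℕ} (hP : OrdV v P a) (hQ : OrdV v Q b) :
    OrdV v (P * Q) (a + b) := by
  classical
  refine ⟨by simpa using hP.int.mul hQ.int, fun i hi => ?_, ?_⟩
  · rw [coeff_mul]
    apply Valuation.map_sum_lt v one_ne_zero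
    rintro ⟨x, y⟩ hxy
    rw [Finset.HasAntidiagonal.mem_antidiagonal] at hxy
    simp only at hxy ⊢
    rw [map_mul]
    rcases lt_or_ge x a with hx | hx
    · exact mul_lt_one_of_nonneg_of_lt_one_left zero_le (hP.lt x hx) (hQ.int y)
    · exact mul_lt_one_of_nonneg_of_lt_one_right (hP.int x) zero_le (hQ.lt y (by omega))
  · rw [coeff_mul, ← Finset.add_sum_erase _ _ (Finset.HasAntidiagonal.mem_antidiagonal.2 (rfl : (a, b).1 + (a, b).2
      = a + b))]
    have h1 : v (coeff a P * coeff b Q) = 1 := by rw [map_mul, hP.eq, hQ.eq, one_mul]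
    have h2 : v (∑ x ∈ (Finset.HasAntidiagonal.antidiagonal (a + b)).erase (a, b), coeff x.1 P * coeff x.2 Q)
        < 1 := by
      apply Valuation.map_sum_lt v one_ne_zero
      rintro ⟨x, y⟩ hxy
      rw [Finset.mem_erase, Finset.HasAntidiagonal.mem_antidiagonal] at hxy
      obtain ⟨hne, hxy⟩ := hxy
      simp only at hxy ⊢
      rw [map_mul]
      rcases lt_or_ge x a with hx | hx
      · exact mul_lt_one_of_nonneg_of_lt_one_left zero_le (hP.lt x hx) (hQ.int y)
      · have hy : y < b := by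
          rcases Nat.lt_or_ge y b with hy | hy
          · exact hy
          · exfalso
            apply hne
            have hx' : x = a := by omega
            have hy' : y = b := by omega
            rw [hx', hy']
        exact mul_lt_one_of_nonneg_of_lt_one_right (hP.int x) zero_le (hQ.lt y hy)
    rw [Valuation.map_add_eq_of_lt_left v (by rw [h1]; exact h2), h1]

theorem OrdV.one : OrdV v 1 0 :=
  ⟨LeV.one, fun i hi => absurd hi (Nat.not_lt_zero i), by simp⟩

theorem OrdV.pow {P : PowerSeries ℂ} {a : ℕ} (hP : OrdV v P a) (n : ℕ) :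
    OrdV v (P ^ n) (n * a) := by
  induction n with
  | zero => simpa using OrdV.one
  | succ n ih =>
    rw [pow_succ, Nat.succ_mul]
    exact ih.mul hP

theorem OrdV.prod {ι : Type*} (s : Finset ι) (P : ι → PowerSeries ℂ) (a : ι → ℕ)
    (h : ∀ i ∈ s, OrdV v (P i) (a i)) : OrdV v (∏ i ∈ s, P i) (∑ i ∈ s, a i) := by
  classical
  induction s using Finset.induction_on with
  | empty => simpa using OrdV.one
  | insert b s hb ih =>
    rw [Finset.prod_insert hb, Finset.sum_insert hb]
    exact (h b (Finset.mem_insert_self b s)).mul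
      (ih fun i hi => h i (Finset.mem_insert_of_mem hi))

/-- adding a series in `𝔪[[q]]` does not change `OrdV` -/
theorem OrdV.add_ltV {P Q : PowerSeries ℂ} {a : ℕ} (hP : OrdV v P a) (hQ : LtV v Q) :
    OrdV v (P + Q) a :=
  ⟨hP.int.add hQ.leV, fun i hi => by
    rw [map_add]; exact (v.map_add _ _).trans_lt (max_lt (hP.lt i hi) (hQ i)), by
    rw [map_add, Valuation.map_add_eq_of_lt_left v (by rw [hP.eq]; exact hQ a), hP.eq]⟩

/-- multiplying by a unit constant does not change `OrdV` -/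
theorem OrdV.smul {P : PowerSeries ℂ} {a : ℕ} (hP : OrdV v P a) {c : ℂ} (hc : v c = 1) :
    OrdV v (c • P) a :=
  ⟨by simpa [hc] using hP.int.smul c, fun i hi => by
    rw [coeff_smul, smul_eq_mul, map_mul, hc, one_mul]; exact hP.lt i hi, by
    rw [coeff_smul, smul_eq_mul, map_mul, hc, one_mul, hP.eq]⟩

end Fermat.Agent.S16Aux
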