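/-
S16 helper library (U1): the Sturm bound in level one modulo the maximal ideal of a valuation.
-/
import Fermat.Agent.S16.Val
import Fermat.Agent.Lib.S23_LevelOne
import Fermat.Agent.Lib.Dim_Level1

set_option autoImplicit false

namespace Fermat.Agent.S16Aux

open UpperHalfPlane ModularForm EisensteinSeries ModularFormClass PowerSeries
open scoped Manifold MatrixGroups
open Fermat.Agent.S23Aux Fermat.Agent.DimAux

variable {Γ₀ : Type*} [LinearOrderedCommGroupWithZero Γ₀] {v : Valuation ℂ Γ₀}

/-- members of `intSeries` are integral for every valuation -/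
theorem LeV.of_mem_intSeries {P : PowerSeries ℂ} (h : P ∈ intSeries) : LeV v 1 P := by
  obtain ⟨Q, rfl⟩ := h
  exact LeV.map_int Q

/-- division by a series `q + ...` -/
theorem coeff_of_eq_mul {D g h : PowerSeries ℂ} (h0 : coeff 0 D = 0) (h1 : coeff 1 D = 1)
    (hg : g = D * h) (i : ℕ) :
    coeff i h = coeff (i + 1) g - ∑ k ∈ Finset.range i, coeff (k + 2) D * coeff (i - 1 - k) h := by
  rw [hg, coeff_mul,
    Finset.Nat.sum_antidiagonal_eq_sum_range_succ (fun x y => coeff x D * coeff y h),
    Finset.sum_range_succ', Finset.sum_range_succ', h0, h1]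
  simp only [zero_add, Nat.add_sub_cancel, one_mul, zero_mul, add_zero]
  have hs : ∑ k ∈ Finset.range i, coeff (k + 1 + 1) D * coeff (i + 1 - (k + 1 + 1)) h =
      ∑ k ∈ Finset.range i, coeff (k + 2) D * coeff (i - 1 - k) h := by
    refine Finset.sum_congr rfl fun k hk => ?_
    have := Finset.mem_range.1 hk
    congr 3
    omega
  rw [hs]
  ring

theorem val_coeff_le_of_eq_mul {D g h : PowerSeries ℂ} (h0 : coeff 0 D = 0) (h1 : coeff 1 D = 1)
    (hD : LeV v 1 D) (hg : g = D * h) (c : Γ₀) (n : ℕ) (H : ∀ i ≤ n + 1, v (coeff i g) ≤ c) :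
    ∀ i ≤ n, v (coeff i h) ≤ c := by
  intro i
  induction i using Nat.strong_induction_on with
  | _ i ih =>
    intro hi
    rw [coeff_of_eq_mul h0 h1 hg i]
    refine (Valuation.map_sub v _ _).trans (max_le (H _ (by omega)) ?_)
    apply Valuation.map_sum_le
    intro k hk
    have := Finset.mem_range.1 hk
    rw [map_mul]
    exact (mul_le_mul' (hD _) (ih (i - 1 - k) (by omega) (by omega))).trans (by rw [one_mul])

theorem val_coeff_lt_of_eq_mul {D g h : PowerSeries ℂ} (h0 : coeff 0 D = 0) (h1 : coeff 1 D = 1)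
    (hD : LeV v 1 D) (hg : g = D * h) (n : ℕ) (H : ∀ i ≤ n + 1, v (coeff i g) < 1) :
    ∀ i ≤ n, v (coeff i h) < 1 := by
  intro i
  induction i using Nat.strong_induction_on with
  | _ i ih =>
    intro hi
    rw [coeff_of_eq_mul h0 h1 hg i]
    refine (Valuation.map_sub v _ _).trans_lt (max_lt (H _ (by omega)) ?_)
    apply Valuation.map_sum_lt v one_ne_zero
    intro k hk
    have := Finset.mem_range.1 hk
    rw [map_mul]
    exact mul_lt_one_of_nonneg_of_lt_one_right (hD _) zero_le (ih (i - 1 - k) (by omega) (by omega))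

theorem discriminant_coeff_zero : (qExpansion 1 ModularForm.discriminant).coeff 0 = 0 := by
  have := CuspFormClass.qExpansion_coeff_zero CuspForm.discriminant one_pos
    one_mem_strictPeriods_SL
  simpa using this

theorem leV_discriminant : LeV v 1 (qExpansion 1 ModularForm.discriminant) :=
  LeV.of_mem_intSeries discriminant_qExpansion_mem

theorem leV_E4 : LeV v 1 (qExpansion 1 E₄) := LeV.of_mem_intSeries ⟨_, E4_qExpansion_eq.symm⟩

theorem leV_E6 : LeV v 1 (qExpansion 1 E₆) := LeV.of_mem_intSeries ⟨_, E6_qExpansion_eq.symm⟩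

theorem ordV_discriminant : OrdV v (qExpansion 1 ModularForm.discriminant) 1 :=
  ⟨leV_discriminant, fun i hi => by
    obtain rfl : i = 0 := by omega
    rw [discriminant_coeff_zero]; simp, by
    rw [discriminant_qExpansion_coeff_one]; simp⟩

theorem levelOne_sturm_val_aux (n : ℕ) : ∀ k : ℤ, k < 12 * n → ∀ f : ModularForm 𝒮ℒ k,
    LeV v 1 (qExpansion 1 f) → (∀ i : ℕ, (i : ℤ) ≤ k / 12 → v ((qExpansion 1 f).coeff i) < 1) →
    LtV v (qExpansion 1 f) := by
  have hzero : ∀ (k : ℤ) (f : ModularForm 𝒮ℒ k), f = 0 → LtV v (qExpansion 1 f) := by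
    intro k f hf i
    rw [hf, FunLike.coe_zero, qExpansion_zero]
    simp
  induction n with
  | zero =>
    intro k hk f _ _
    exact hzero k f
      (rank_zero_iff_forall_zero.mp (levelOne_neg_weight_rank_zero (by simpa using hk)) f)
  | succ n ih =>
    intro k hk f hint hlow
    rcases lt_or_ge k 0 with hneg | hnn
    · exact hzero k f (rank_zero_iff_forall_zero.mp (levelOne_neg_weight_rank_zero hneg) f)
    rcases Int.even_or_odd k with hev | hodd
    swap
    · exact hzero k f (levelOne_odd_weight_eq_zero hodd f)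
    by_cases h2 : k = 2
    · subst h2
      exact hzero 2 f (rank_zero_iff_forall_zero.mp levelOne_weight_two_rank_zero f)
    obtain ⟨a, b, hab⟩ := exists_weight_decomp k hnn hev h2
    set G : ModularForm 𝒮ℒ k := ModularForm.mcast hab ((E₄.pow a).mul (E₆.pow b)) with hGdef
    have hG : qExpansion 1 G = qExpansion 1 E₄ ^ a * qExpansion 1 E₆ ^ b := by
      rw [hGdef, ModularForm.qExpansion_mcast,
        ModularForm.qExpansion_mul one_pos one_mem_strictPeriods_SL,
        ModularForm.qExpansion_pow one_pos one_mem_strictPeriods_SL,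
        ModularForm.qExpansion_pow one_pos one_mem_strictPeriods_SL]
    have hGint : LeV v 1 (qExpansion 1 G) := by
      rw [hG]
      simpa using ((leV_E4 (v := v)).pow a).mul ((leV_E6 (v := v)).pow b)
    have hG0 : (qExpansion 1 G).coeff 0 = 1 := by
      have h4 := E_qExpansion_coeff_zero (k := 4) (by norm_num) ⟨2, rfl⟩
      have h6 := E_qExpansion_coeff_zero (k := 6) (by norm_num) ⟨3, rfl⟩
      rw [PowerSeries.coeff_zero_eq_constantCoeff_apply] at h4 h6 ⊢
      rw [hG, map_mul, map_pow, map_pow, h4, h6]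
      simp
    set c := (qExpansion 1 f).coeff 0 with hc
    have hcv : v c < 1 := hlow 0 (by
      have : (0 : ℤ) ≤ k / 12 := Int.ediv_nonneg hnn (by norm_num)
      simpa using this)
    set f' : ModularForm 𝒮ℒ k := f - c • G with hf'
    have hqf' : qExpansion 1 f' = qExpansion 1 f - c • qExpansion 1 G := by
      rw [hf', FunLike.coe_sub, ModularForm.qExpansion_sub one_pos one_mem_strictPeriods_SL,
        FunLike.coe_smul, ModularForm.qExpansion_smul one_pos one_mem_strictPeriods_SL]
    have hcG : LtV v (c • qExpansion 1 G) := by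
      have := hGint.smul c
      rw [mul_one] at this
      exact this.ltV hcv
    have h0 : (qExpansion 1 f').coeff 0 = 0 := by
      rw [hqf', map_sub, PowerSeries.coeff_smul, hG0, smul_eq_mul, mul_one, sub_self]
    set h := CuspForm.discriminantEquiv (toCuspForm f' h0) with hh
    have hfm : f' = mulDelta k h := by
      ext z
      simp [mulDelta, hh]
    have hmul : qExpansion 1 f' = qExpansion 1 ModularForm.discriminant * qExpansion 1 h := by
      conv_lhs => rw [hfm]
      exact qExpansion_mulDelta k h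
    have hf'int : LeV v 1 (qExpansion 1 f') := by
      rw [hqf']; exact hint.sub hcG.leV
    have hhint : LeV v 1 (qExpansion 1 h) := fun i =>
      val_coeff_le_of_eq_mul discriminant_coeff_zero discriminant_qExpansion_coeff_one
        leV_discriminant hmul 1 i (fun j _ => hf'int j) i le_rfl
    have hhlow : ∀ i : ℕ, (i : ℤ) ≤ (k - 12) / 12 → v ((qExpansion 1 h).coeff i) < 1 := by
      intro i hi
      refine val_coeff_lt_of_eq_mul discriminant_coeff_zero discriminant_qExpansion_coeff_one
        leV_discriminant hmul i (fun j hj => ?_) i le_rfl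
      rw [hqf', map_sub]
      refine (Valuation.map_sub v _ _).trans_lt (max_lt (hlow j ?_) (hcG j))
      have : (j : ℤ) ≤ i + 1 := by exact_mod_cast hj
      omega
    have hih := ih (k - 12) (by push_cast at hk; omega) h hhint hhlow
    have hf'lt : LtV v (qExpansion 1 f') := by
      rw [hmul]; exact LtV.mul_left leV_discriminant hih
    have : qExpansion 1 f = qExpansion 1 f' + c • qExpansion 1 G := by rw [hqf']; ring
    rw [this]
    exact hf'lt.add hcG

/-- (U1) Sturm bound in level one modulo the maximal ideal of a valuation, bundled version -/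
theorem levelOne_sturm_val' {k : ℤ} (f : ModularForm 𝒮ℒ k) (hV : LeV v 1 (qExpansion 1 f))
    (h : ∀ i : ℕ, (i : ℤ) ≤ k / 12 → v ((qExpansion 1 f).coeff i) < 1) :
    LtV v (qExpansion 1 f) :=
  levelOne_sturm_val_aux (k.toNat + 1) k (by push_cast; omega) f hV h

/-- (U1) Sturm bound in level one modulo the maximal ideal of a valuation -/
theorem levelOne_sturm_val {k : ℤ} (f : ℍ → ℂ) (hf : f ∈ MFun ⊤ k)
    (hV : LeV v 1 (qExpansion 1 f))
    (h : ∀ i : ℕ, (i : ℤ) ≤ k / 12 → v ((qExpansion 1 f).coeff i) < 1) :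
    LtV v (qExpansion 1 f) :=
  levelOne_sturm_val' (toMF1 hf) hV h

/-- (U1), contrapositive: the first unit coefficient occurs at an index `≤ k / 12` -/
theorem OrdV.le_of_levelOne {k : ℤ} {f : ℍ → ℂ} (hf : f ∈ MFun ⊤ k) {a : ℕ}
    (h : OrdV v (qExpansion 1 f) a) : (a : ℤ) ≤ k / 12 := by
  by_contra hlt
  push Not at hlt
  refine h.not_ltV (levelOne_sturm_val f hf h.int fun i hi => h.lt i ?_)
  have : (i : ℤ) < a := lt_of_le_of_lt hi hlt
  exact_mod_cast this

end Fermat.Agent.S16Aux
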