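import Mathlib
import Fermat.Agent.Lib.X0_Cosets
import Fermat.Agent.Lib.Dim_Fun

set_option autoImplicit false

/-!
# S16: the `p + 1` cosets of `Γ₀(p)` in `SL₂(ℤ)`: representatives `1`, `S T^b` (`b < p`)
-/

open UpperHalfPlane ModularForm CongruenceSubgroup
open Fermat.Agent.DimAux
open scoped MatrixGroups

namespace Fermat.Agent.S16Aux

noncomputable section

variable (p : ℕ) [Fact p.Prime]

/-- The representatives (as left cosets `γ Γ₀(p)`, `γ = 1` or `(S T^b)⁻¹`). -/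
def cosetRep : Option (Fin p) → SL(2, ℤ)
  | none => 1
  | some b => (ModularGroup.S * ModularGroup.T ^ ((b : ℕ) : ℤ))⁻¹

omit [Fact p.Prime] in
theorem cosetRep_some_col (b : Fin p) :
    (cosetRep p (some b)) 0 0 = ((b : ℕ) : ℤ) ∧ (cosetRep p (some b)) 1 0 = -1 := by
  simp only [cosetRep]
  have h1 : (ModularGroup.S * ModularGroup.T ^ ((b : ℕ) : ℤ) : SL(2, ℤ)) 1 1 = ((b : ℕ) : ℤ) := by
    rw [Matrix.SpecialLinearGroup.coe_mul, ModularGroup.coe_T_zpow, ModularGroup.coe_S]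
    simp [Matrix.mul_apply, Fin.sum_univ_two]
  have h2 : (ModularGroup.S * ModularGroup.T ^ ((b : ℕ) : ℤ) : SL(2, ℤ)) 1 0 = 1 := by
    rw [Matrix.SpecialLinearGroup.coe_mul, ModularGroup.coe_T_zpow, ModularGroup.coe_S]
    simp [Matrix.mul_apply, Fin.sum_univ_two]
  rw [Matrix.SpecialLinearGroup.SL2_inv_expl]
  exact ⟨h1, by simpa using h2⟩

theorem cosetRep_bijective : Function.Bijective
    (fun i : Option (Fin p) => (QuotientGroup.mk (cosetRep p i) : SL(2, ℤ) ⧸ Gamma0 p)) := by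
  have hp : p.Prime := Fact.out
  have hp' : Prime (p : ℤ) := Nat.prime_iff_prime_int.1 hp
  constructor
  · intro i j hij
    simp only [Fermat.Agent.X0.mk_eq_mk_iff] at hij
    rcases i with _ | i <;> rcases j with _ | j
    · rfl
    · exfalso
      rw [(cosetRep_some_col p j).1, (cosetRep_some_col p j).2] at hij
      simp only [cosetRep, Matrix.SpecialLinearGroup.coe_one, Matrix.one_apply_eq, one_mul, ne_eq,
        one_ne_zero, not_false_eq_true, Matrix.one_apply_ne, zero_mul, sub_zero, dvd_neg] at hij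
      exact hp'.not_dvd_one hij
    · exfalso
      rw [(cosetRep_some_col p i).1, (cosetRep_some_col p i).2] at hij
      simp only [cosetRep, Matrix.SpecialLinearGroup.coe_one, Matrix.one_apply_eq, ne_eq,
        one_ne_zero, not_false_eq_true, Matrix.one_apply_ne, mul_zero, mul_one, sub_neg_eq_add,
        zero_add] at hij
      exact hp'.not_dvd_one hij
    · rw [(cosetRep_some_col p i).1, (cosetRep_some_col p i).2, (cosetRep_some_col p j).1,
        (cosetRep_some_col p j).2] at hij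
      have h1 : (p : ℤ) ∣ ((j : ℕ) : ℤ) - ((i : ℕ) : ℤ) := by
        have : ((i : ℕ) : ℤ) * -1 - -1 * ((j : ℕ) : ℤ) = ((j : ℕ) : ℤ) - ((i : ℕ) : ℤ) := by ring
        rwa [this] at hij
      have h2 : ((i : ℕ) : ℤ) ≡ ((j : ℕ) : ℤ) [ZMOD p] := (Int.modEq_iff_dvd).2 h1
      have h3 : (i : ℕ) ≡ (j : ℕ) [MOD p] := (Int.natCast_modEq_iff).1 h2
      have h4 : (i : ℕ) = j := Nat.ModEq.eq_of_lt_of_lt h3 i.2 j.2
      exact congr_arg some (Fin.ext h4)
  · intro x
    induction x using QuotientGroup.induction_on with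
    | H g =>
      by_cases hc : (p : ℤ) ∣ g 1 0
      · refine ⟨none, ?_⟩
        simp only [Fermat.Agent.X0.mk_eq_mk_iff]
        simpa [cosetRep] using hc
      · -- find `b` with `b c + a ≡ 0`
        have hcop : IsCoprime (g 1 0) (p : ℤ) :=
          ((Prime.coprime_iff_not_dvd hp').2 hc).symm
        obtain ⟨u, w, huw⟩ := hcop
        -- `u c ≡ 1`
        set b0 : ℤ := (-(g 0 0) * u) % p with hb0
        have hppos : (0 : ℤ) < p := by exact_mod_cast hp.pos
        have hb0nn : 0 ≤ b0 := Int.emod_nonneg _ hppos.ne'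
        have hb0lt : b0 < p := Int.emod_lt_of_pos _ hppos
        have hlt : b0.toNat < p := by
          have : (b0.toNat : ℤ) < p := by rwa [Int.toNat_of_nonneg hb0nn]
          exact_mod_cast this
        refine ⟨some ⟨b0.toNat, hlt⟩, ?_⟩
        simp only [Fermat.Agent.X0.mk_eq_mk_iff]
        rw [(cosetRep_some_col p _).1, (cosetRep_some_col p _).2]
        simp only [Int.toNat_of_nonneg hb0nn]
        have h5 : (p : ℤ) ∣ b0 - (-(g 0 0) * u) := by
          rw [hb0]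
          exact (Int.modEq_iff_dvd.1 (Int.mod_modEq _ _).symm)
        obtain ⟨t, ht⟩ := h5
        refine ⟨t * g 1 0 + g 0 0 * w, ?_⟩
        have : b0 = -(g 0 0) * u + p * t := by linarith
        rw [this]
        linear_combination (-(g 0 0)) * huw

/-- `Option (Fin p) ≃ SL₂(ℤ) ⧸ Γ₀(p)`. -/
def cosetEquiv : Option (Fin p) ≃ SL(2, ℤ) ⧸ Gamma0 p :=
  Equiv.ofBijective _ (cosetRep_bijective p)

theorem cj_cosetEquiv_none {k : ℤ} {f : ℍ → ℂ} (hf : ∀ g ∈ Gamma0 p, f ∣[k] g = f) :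
    cj (Gamma0 p) k f (cosetEquiv p none) = f := by
  show cj (Gamma0 p) k f (QuotientGroup.mk (cosetRep p none)) = f
  rw [cj_mk hf]
  simp [cosetRep]

theorem cj_cosetEquiv_some {k : ℤ} {f : ℍ → ℂ} (hf : ∀ g ∈ Gamma0 p, f ∣[k] g = f) (b : Fin p) :
    cj (Gamma0 p) k f (cosetEquiv p (some b)) =
      f ∣[k] (ModularGroup.S * ModularGroup.T ^ ((b : ℕ) : ℤ)) := by
  show cj (Gamma0 p) k f (QuotientGroup.mk (cosetRep p (some b))) = _
  rw [cj_mk hf]
  simp [cosetRep]

instance fintypeCosets : Fintype (SL(2, ℤ) ⧸ Gamma0 p) := Fintype.ofEquiv _ (cosetEquiv p)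

theorem sum_cj_eq {k : ℤ} {f : ℍ → ℂ} (hf : ∀ g ∈ Gamma0 p, f ∣[k] g = f) :
    ∑ x, cj (Gamma0 p) k f x =
      f + ∑ b ∈ Finset.range p, f ∣[k] (ModularGroup.S * ModularGroup.T ^ ((b : ℕ) : ℤ)) := by
  rw [← Equiv.sum_comp (cosetEquiv p), Fintype.sum_option, cj_cosetEquiv_none p hf,
    ← Fin.sum_univ_eq_sum_range (fun b : ℕ => f ∣[k] (ModularGroup.S * ModularGroup.T ^ (b : ℤ)))]
  simp only [cj_cosetEquiv_some p hf]

theorem prod_cj_eq {k : ℤ} {f : ℍ → ℂ} (hf : ∀ g ∈ Gamma0 p, f ∣[k] g = f) :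
    ∏ x, cj (Gamma0 p) k f x =
      f * ∏ b ∈ Finset.range p, f ∣[k] (ModularGroup.S * ModularGroup.T ^ ((b : ℕ) : ℤ)) := by
  rw [← Equiv.prod_comp (cosetEquiv p), Fintype.prod_option, cj_cosetEquiv_none p hf,
    ← Fin.prod_univ_eq_prod_range (fun b : ℕ => f ∣[k] (ModularGroup.S * ModularGroup.T ^ (b : ℤ)))]
  simp only [cj_cosetEquiv_some p hf]

end

end Fermat.Agent.S16Aux
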