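import Fermat.Agent.S16.Defs

set_option autoImplicit false

open ArithmeticFunction

namespace Fermat.Agent.S16Aux

theorem sigmaP_one (p : ℕ) : sigmaP p 1 = 1 := by
  simp [sigmaP]

theorem sigmaP_mul_of_coprime (p : ℕ) {a b : ℕ} (h : a.Coprime b) :
    sigmaP p (a * b) = sigmaP p a * sigmaP p b := by
  unfold sigmaP
  rw [Nat.ordCompl_mul]
  exact isMultiplicative_sigma.map_mul_of_coprime
    (Nat.Coprime.coprime_dvd_left (Nat.ordCompl_dvd a p)
      (Nat.Coprime.coprime_dvd_right (Nat.ordCompl_dvd b p) h))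

theorem sigmaP_of_not_dvd {p k : ℕ} (h : ¬ p ∣ k) : sigmaP p k = sigma 1 k := by
  unfold sigmaP
  rw [Nat.factorization_eq_zero_of_not_dvd h]
  simp

theorem sigmaP_self_pow {p : ℕ} (hp : p.Prime) (r : ℕ) : sigmaP p (p ^ r) = 1 := by
  unfold sigmaP
  rw [hp.factorization_pow]
  simp [Nat.div_self (pow_pos hp.pos r)]

theorem sigmaP_prime_pow {p l : ℕ} (hp : p.Prime) (hl : l.Prime) (hlp : l ≠ p) (r : ℕ) :
    sigmaP p (l ^ r) = ∑ j ∈ Finset.range (r + 1), l ^ j := by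
  rw [sigmaP_of_not_dvd, sigma_apply_prime_pow hl]
  · simp
  · intro h
    exact hlp ((Nat.prime_dvd_prime_iff_eq hp hl).1 (hp.dvd_of_dvd_pow h)).symm

theorem sigmaP_prime_pow_rec {p l : ℕ} (hp : p.Prime) (hl : l.Prime) (hlp : l ≠ p) (r : ℕ) :
    (sigmaP p (l ^ (r + 2)) : ℤ) = (1 + l) * sigmaP p (l ^ (r + 1)) - l * sigmaP p (l ^ r) := by
  rw [sigmaP_prime_pow hp hl hlp, sigmaP_prime_pow hp hl hlp, sigmaP_prime_pow hp hl hlp]
  push_cast
  rw [Finset.sum_range_succ _ (r + 2), Finset.sum_range_succ _ (r + 1)]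
  ring

theorem sigmaP_mul_self {p : ℕ} (hp : p.Prime) (k : ℕ) : sigmaP p (p * k) = sigmaP p k := by
  unfold sigmaP
  rw [Nat.ordCompl_mul]
  have : ordCompl[p] p = 1 := by
    have := hp.factorization_pow (k := 1)
    rw [pow_one] at this
    rw [this]
    simp [Nat.div_self hp.pos]
  rw [this, one_mul]

theorem sigmaP_self_mul_pow {p : ℕ} (hp : p.Prime) (v k : ℕ) :
    sigmaP p (p ^ v * k) = sigmaP p k := by
  induction v with
  | zero => simp
  | succ v ih => rw [pow_succ', mul_assoc, sigmaP_mul_self hp, ih]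

/-- `σ'(k) = σ(k) - p σ(k/p)`. -/
theorem sigmaP_eq_sub {p : ℕ} (hp : p.Prime) (k : ℕ) :
    (sigmaP p k : ℤ) = sigma 1 k - p * (if p ∣ k then (sigma 1 (k / p) : ℤ) else 0) := by
  rcases Nat.eq_zero_or_pos k with rfl | hk
  · simp [sigmaP]
  split_ifs with h
  · obtain ⟨v, m, hm, rfl⟩ := Nat.exists_eq_pow_mul_and_not_dvd hk.ne' p hp.ne_one
    have hv : v ≠ 0 := by
      rintro rfl
      simp at h
      exact hm h
    obtain ⟨w, rfl⟩ := Nat.exists_eq_succ_of_ne_zero hv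
    have hcop : ∀ j, (p ^ j).Coprime m := fun j =>
      Nat.Coprime.pow_left j ((Nat.Prime.coprime_iff_not_dvd hp).2 hm)
    rw [sigmaP_self_mul_pow hp, sigmaP_of_not_dvd hm]
    have e1 : p ^ (w + 1) * m / p = p ^ w * m := by
      rw [pow_succ', mul_assoc, Nat.mul_div_cancel_left _ hp.pos]
    rw [e1, isMultiplicative_sigma.map_mul_of_coprime (hcop _),
      isMultiplicative_sigma.map_mul_of_coprime (hcop _), sigma_apply_prime_pow hp,
      sigma_apply_prime_pow hp]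
    push_cast
    simp only [mul_one]
    rw [Finset.sum_range_succ' _ (w + 1)]
    have : ∑ j ∈ Finset.range (w + 1), (p : ℤ) ^ (j + 1)
        = p * ∑ j ∈ Finset.range (w + 1), (p : ℤ) ^ j := by
      rw [Finset.mul_sum]
      exact Finset.sum_congr rfl fun j _ => by ring
    rw [this]
    ring
  · rw [sigmaP_of_not_dvd h]
    simp

/-- `σ'(k) = ∑_{d ∣ k, p ∤ d} d` is positive for `k ≥ 1`. -/
theorem sigmaP_pos (p : ℕ) {k : ℕ} (hk : 0 < k) : 0 < sigmaP p k := by
  unfold sigmaP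
  rw [sigma_pos_iff]
  exact Nat.ordCompl_pos p hk.ne'

end Fermat.Agent.S16Aux
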