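import Mathlib
import Fermat.Agent.Lib.S23_Raise
import Fermat.Agent.Lib.Dim_Fun

set_option autoImplicit false

/-!
# S16 (U2): the Fricke operator `f ↦ f^w`, `f^w(z) = z^{-k} f(-1/(Nz))`
-/

open UpperHalfPlane ModularForm Filter
open Fermat.Agent.S23Aux Fermat.Agent.DimAux
open scoped Manifold MatrixGroups Real

namespace Fermat.Agent.S16Aux

noncomputable section

theorem tendsto_upperT_smul (a d : ℕ) (b : ℤ) (h : a * d ≠ 0) :
    Tendsto (fun τ : ℍ => upperT a d b h • τ) atImInfty atImInfty := by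
  have ha : 0 < a := Nat.pos_of_ne_zero fun h0 => h (by simp [h0])
  have hd : 0 < d := Nat.pos_of_ne_zero fun h0 => h (by simp [h0])
  have ha' : (0 : ℝ) < a := by exact_mod_cast ha
  have hd' : (0 : ℝ) < d := by exact_mod_cast hd
  have him : ∀ τ : ℍ, (upperT a d b h • τ).im = a / d * τ.im := by
    intro τ
    rw [← coe_im, coe_upperT_smul]
    have : ((a : ℂ) * τ + b) / d = (((a : ℝ) / d : ℝ) : ℂ) * τ + (((b : ℝ) / d : ℝ) : ℂ) := by
      have : (d : ℂ) ≠ 0 := by exact_mod_cast hd.ne'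
      push_cast
      field_simp
    rw [this, Complex.add_im, Complex.im_ofReal_mul, Complex.ofReal_im, add_zero]
    rfl
  rw [atImInfty, tendsto_comap_iff]
  have : (im ∘ fun τ : ℍ => upperT a d b h • τ) = fun τ : ℍ => a / d * τ.im := funext him
  rw [this]
  exact (tendsto_comap (f := im) (x := atTop)).const_mul_atTop (by positivity)

theorem isBoundedAtImInfty_slash_upperT {g : ℍ → ℂ} (hg : IsBoundedAtImInfty g) (k : ℤ)
    (a d : ℕ) (b : ℤ) (h : a * d ≠ 0) : IsBoundedAtImInfty (g ∣[k] upperT a d b h) := by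
  have h1 : g ∣[k] upperT a d b h =
      (((a * d : ℂ) ^ (k - 1) * (d : ℂ) ^ (-k))) • (g ∘ fun τ : ℍ => upperT a d b h • τ) := by
    ext τ
    rw [slash_upperT_apply]
    rfl
  rw [h1]
  exact (Asymptotics.IsBigO.comp_tendsto hg (tendsto_upperT_smul a d b h)).const_smul_left _

theorem isZeroAtImInfty_slash_upperT {g : ℍ → ℂ} (hg : IsZeroAtImInfty g) (k : ℤ)
    (a d : ℕ) (b : ℤ) (h : a * d ≠ 0) : IsZeroAtImInfty (g ∣[k] upperT a d b h) := by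
  have h1 : g ∣[k] upperT a d b h =
      (((a * d : ℂ) ^ (k - 1) * (d : ℂ) ^ (-k))) • (g ∘ fun τ : ℍ => upperT a d b h • τ) := by
    ext τ
    rw [slash_upperT_apply]
    rfl
  rw [h1]
  exact ZeroAtFilter.smul _ (Tendsto.comp hg (tendsto_upperT_smul a d b h))

/-- `c • f ∣ u = (c • f) ∣ u` for upper triangular `u`. -/
theorem smul_slash_upperT (k : ℤ) (c : ℂ) (f : ℍ → ℂ) (a d : ℕ) (b : ℤ) (h : a * d ≠ 0) :
    (c • f) ∣[k] upperT a d b h = c • (f ∣[k] upperT a d b h) := by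
  ext τ
  rw [slash_upperT_apply, Pi.smul_apply, Pi.smul_apply, slash_upperT_apply]
  simp only [smul_eq_mul]
  ring

variable (N : ℕ) [NeZero N]

/-- `W = S · diag(N,1) = [[0,-1],[N,0]]`. -/
def wN : GL (Fin 2) ℝ := ((ModularGroup.S : SL(2, ℤ)) : GL (Fin 2) ℝ) * gN N

/-- The Fricke operator `f^w(z) = z^{-k} f(-1/(Nz))`. -/
def wOp (k : ℤ) (f : ℍ → ℂ) : ℍ → ℂ := (N : ℂ) • (f ∣[k] wN N)

theorem slash_wN (k : ℤ) (f : ℍ → ℂ) :
    f ∣[k] wN N = (f ∣[k] ModularGroup.S) ∣[k] gN N := by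
  rw [wN, SlashAction.slash_mul, ← SL_slash]

theorem natCast_ne_zero' : (N : ℂ) ≠ 0 := by exact_mod_cast NeZero.ne N

theorem coe_gN_smul (τ : ℍ) : ((gN N • τ : ℍ) : ℂ) = N * τ := by
  rw [gN, coe_upperT_smul]
  simp

theorem wN_smul (τ : ℍ) : wN N • τ = ModularGroup.S • (gN N • τ) := by
  rw [wN, mul_smul]
  rfl

theorem coe_wN_smul (τ : ℍ) : ((wN N • τ : ℍ) : ℂ) = -1 / (N * τ) := by
  rw [wN_smul, modular_S_smul]
  show (-((gN N • τ : ℍ) : ℂ))⁻¹ = _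
  rw [coe_gN_smul, neg_div, one_div, inv_neg]

theorem slash_gN_apply (k : ℤ) (f : ℍ → ℂ) (τ : ℍ) :
    (f ∣[k] gN N) τ = (N : ℂ) ^ (k - 1) * f (gN N • τ) := by
  rw [gN, slash_upperT_apply]
  simp

theorem wOp_apply (k : ℤ) (f : ℍ → ℂ) (τ : ℍ) :
    wOp N k f τ = (τ : ℂ) ^ (-k) * f (wN N • τ) := by
  have hN := natCast_ne_zero' N
  rw [wOp, Pi.smul_apply, slash_wN, slash_gN_apply, SL_slash_apply, ModularGroup.denom_S,
    coe_gN_smul, wN_smul, mul_zpow, smul_eq_mul]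
  have : (N : ℂ) * ((N : ℂ) ^ (k - 1) * (N : ℂ) ^ (-k)) = 1 := by
    rw [← zpow_add₀ hN, ← zpow_one_add₀ hN, show (1 : ℤ) + (k - 1 + -k) = 0 by ring, zpow_zero]
  linear_combination (f (ModularGroup.S • gN N • τ) * (τ : ℂ) ^ (-k)) * this

theorem wOp_add (k : ℤ) (f g : ℍ → ℂ) : wOp N k (f + g) = wOp N k f + wOp N k g := by
  ext τ; simp only [wOp_apply, Pi.add_apply]; ring

theorem wOp_sub (k : ℤ) (f g : ℍ → ℂ) : wOp N k (f - g) = wOp N k f - wOp N k g := by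
  ext τ; simp only [wOp_apply, Pi.sub_apply]; ring

theorem wOp_neg (k : ℤ) (f : ℍ → ℂ) : wOp N k (-f) = -wOp N k f := by
  ext τ; simp only [wOp_apply, Pi.neg_apply]; ring

theorem wOp_smul (k : ℤ) (c : ℂ) (f : ℍ → ℂ) : wOp N k (c • f) = c • wOp N k f := by
  ext τ; simp only [wOp_apply, Pi.smul_apply, smul_eq_mul]; ring

theorem wOp_zero (k : ℤ) : wOp N k 0 = 0 := by
  ext τ; simp only [wOp_apply, Pi.zero_apply, mul_zero]

theorem wOp_mul (k l : ℤ) (f g : ℍ → ℂ) : wOp N (k + l) (f * g) = wOp N k f * wOp N l g := by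
  ext τ
  simp only [wOp_apply, Pi.mul_apply]
  rw [neg_add, zpow_add₀ (ne_zero τ)]
  ring

theorem wOp_one : wOp N 0 1 = 1 := by
  ext τ; simp [wOp_apply]

theorem wOp_pow (k : ℤ) (f : ℍ → ℂ) (n : ℕ) : wOp N (n * k) (f ^ n) = wOp N k f ^ n := by
  induction n with
  | zero => simpa using wOp_one N
  | succ n ih =>
    rw [pow_succ, pow_succ, ← ih, ← wOp_mul]
    congr 1
    push_cast
    ring

theorem wN_smul_wN_smul (τ : ℍ) : wN N • wN N • τ = τ := by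
  apply UpperHalfPlane.ext
  rw [coe_wN_smul, coe_wN_smul]
  have hN := natCast_ne_zero' N
  have := ne_zero τ
  field_simp

theorem wOp_wOp {k : ℤ} (hk : Even k) (f : ℍ → ℂ) :
    wOp N k (wOp N k f) = (N : ℂ) ^ k • f := by
  ext τ
  have hN := natCast_ne_zero' N
  have hτ := ne_zero τ
  rw [wOp_apply, wOp_apply, wN_smul_wN_smul, coe_wN_smul, Pi.smul_apply, smul_eq_mul, ← mul_assoc,
    ← mul_zpow]
  congr 1
  have : (τ : ℂ) * (-1 / (N * τ)) = -(N : ℂ)⁻¹ := by field_simp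
  rw [this, hk.neg.neg_zpow, inv_zpow, zpow_neg, inv_inv]

theorem mdiff_wOp {k : ℤ} {f : ℍ → ℂ} (hf : MDiff f) : MDiff (wOp N k f) :=
  (hf.slash k _).const_smul _

/-- `W` normalises `Γ₀(N)`. -/
theorem exists_wN_conj (γ : SL(2, ℤ)) (hγ : γ ∈ CongruenceSubgroup.Gamma0 N) :
    ∃ γ' ∈ CongruenceSubgroup.Gamma0 N,
      wN N * (γ : GL (Fin 2) ℝ) = (γ' : GL (Fin 2) ℝ) * wN N := by
  rw [CongruenceSubgroup.Gamma0_mem, ZMod.intCast_zmod_eq_zero_iff_dvd] at hγ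
  obtain ⟨c, hc⟩ := hγ
  have hdet : γ 0 0 * γ 1 1 - γ 0 1 * γ 1 0 = 1 := by
    have := γ.det_coe
    rwa [Matrix.det_fin_two] at this
  refine ⟨⟨!![γ 1 1, -c; -(N * γ 0 1), γ 0 0], ?_⟩, ?_, ?_⟩
  · rw [Matrix.det_fin_two_of]
    rw [hc] at hdet
    linear_combination hdet
  · rw [CongruenceSubgroup.Gamma0_mem, ZMod.intCast_zmod_eq_zero_iff_dvd]
    simp
  · apply Matrix.GeneralLinearGroup.ext
    intro i j
    have e10 : (γ 1 0 : ℝ) = (N : ℝ) * c := by exact_mod_cast hc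
    fin_cases i <;> fin_cases j <;>
      simp [wN, ModularGroup.S, gN, upperT, Matrix.GeneralLinearGroup.mkOfDetNeZero,
        Matrix.mul_apply, Fin.sum_univ_two, e10, mul_comm]

theorem wOp_slash_of_mem {k : ℤ} {f : ℍ → ℂ}
    (hf : ∀ g ∈ CongruenceSubgroup.Gamma0 N, f ∣[k] g = f) (γ : SL(2, ℤ))
    (hγ : γ ∈ CongruenceSubgroup.Gamma0 N) : wOp N k f ∣[k] γ = wOp N k f := by
  obtain ⟨γ', hγ', h⟩ := exists_wN_conj N γ hγ
  rw [wOp, SL_smul_slash, SL_slash, ← SlashAction.slash_mul, h, SlashAction.slash_mul, ← SL_slash,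
    hf γ' hγ']

theorem wOp_slash (k : ℤ) (f : ℍ → ℂ) (γ γ' : SL(2, ℤ)) (a d : ℕ) (b : ℤ) (had : a * d ≠ 0)
    (h : gN N * (γ : GL (Fin 2) ℝ) = (γ' : GL (Fin 2) ℝ) * upperT a d b had) :
    wOp N k f ∣[k] γ = (N : ℂ) • ((f ∣[k] (ModularGroup.S * γ')) ∣[k] upperT a d b had) := by
  rw [wOp, SL_smul_slash, slash_wN, SL_slash (γ := γ), ← SlashAction.slash_mul, h,
    SlashAction.slash_mul, ← SL_slash, ← SlashAction.slash_mul]

theorem wOp_mem_MFun {k : ℤ} {f : ℍ → ℂ} (hf : f ∈ MFun (CongruenceSubgroup.Gamma0 N) k) :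
    wOp N k f ∈ MFun (CongruenceSubgroup.Gamma0 N) k := by
  refine ⟨mdiff_wOp N hf.1, wOp_slash_of_mem N hf.2.1, fun γ => ?_⟩
  obtain ⟨γ', a, d, b, had, -, h, -⟩ := exists_decomp N (N_mul_one_ne_zero N) γ
  rw [wOp_slash N k f γ γ' a d b had h]
  exact (isBoundedAtImInfty_slash_upperT (hf.2.2 _) k a d b had).const_smul_left _

theorem wOp_mem_SFun {k : ℤ} {f : ℍ → ℂ} (hf : f ∈ SFun (CongruenceSubgroup.Gamma0 N) k) :
    wOp N k f ∈ SFun (CongruenceSubgroup.Gamma0 N) k := by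
  refine ⟨mdiff_wOp N hf.1, wOp_slash_of_mem N hf.2.1, fun γ => ?_⟩
  obtain ⟨γ', a, d, b, had, -, h, -⟩ := exists_decomp N (N_mul_one_ne_zero N) γ
  rw [wOp_slash N k f γ γ' a d b had h]
  exact ZeroAtFilter.smul _ (isZeroAtImInfty_slash_upperT (hf.2.2 _) k a d b had)

/-- `g ↦ g(Nz)`. -/
def vOp (g : ℍ → ℂ) : ℍ → ℂ := fun τ => g (gN N • τ)

theorem slash_gN (k : ℤ) (g : ℍ → ℂ) : g ∣[k] gN N = (N : ℂ) ^ (k - 1) • vOp N g := by
  ext τ
  rw [slash_gN_apply]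
  rfl

theorem vOp_eq (k : ℤ) (g : ℍ → ℂ) : vOp N g = (N : ℂ) ^ (1 - k) • (g ∣[k] gN N) := by
  rw [slash_gN, smul_smul, ← zpow_add₀ (natCast_ne_zero' N)]
  simp

theorem wOp_levelOne {k : ℤ} {g : ℍ → ℂ} (hg : g ∣[k] ModularGroup.S = g) :
    wOp N k g = (N : ℂ) ^ k • vOp N g := by
  rw [wOp, slash_wN, hg, slash_gN, smul_smul, ← zpow_one_add₀ (natCast_ne_zero' N)]
  congr 2
  ring

theorem wOp_vOp_levelOne {k : ℤ} (hk : Even k) {g : ℍ → ℂ} (hg : g ∣[k] ModularGroup.S = g) :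
    wOp N k (vOp N g) = g := by
  have h1 := wOp_wOp N hk g
  rw [wOp_levelOne N hg, wOp_smul] at h1
  have hN : (N : ℂ) ^ k ≠ 0 := zpow_ne_zero _ (natCast_ne_zero' N)
  exact smul_right_injective _ hN h1

theorem one_mul_N_ne_zero : 1 * N ≠ 0 := by simpa using NeZero.ne N

/-- The conjugates `f ∣ S T^b` in terms of `f^w`: `(f ∣ S T^b)(z) = N^{-k} f^w((z+b)/N)`. -/
theorem slash_S_mul_T_zpow (k : ℤ) (f : ℍ → ℂ) (b : ℤ) :
    f ∣[k] (ModularGroup.S * ModularGroup.T ^ b) =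
      (N : ℂ) ^ (1 - k) • (wOp N k f ∣[k] upperT 1 N b (one_mul_N_ne_zero N)) := by
  have hN := natCast_ne_zero' N
  ext τ
  have h1 : gN N • upperT 1 N b (one_mul_N_ne_zero N) • τ = ModularGroup.T ^ b • τ := by
    apply UpperHalfPlane.ext
    rw [coe_gN_smul, coe_upperT_smul, ModularGroup.coe_T_zpow_smul_eq]
    push_cast
    field_simp
  have h2 : denom (ModularGroup.T ^ b : SL(2, ℤ)) τ = 1 := by
    rw [ModularGroup.denom_apply, ModularGroup.coe_T_zpow]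
    simp
  rw [SlashAction.slash_mul, SL_slash_apply, h2, one_zpow, mul_one, Pi.smul_apply, wOp,
    smul_slash_upperT, Pi.smul_apply, slash_upperT_apply, slash_wN, slash_gN_apply, h1]
  simp only [smul_eq_mul, Nat.cast_one, one_mul]
  have h3 : (N : ℂ) ^ (1 - k) * ((N : ℂ) * ((N : ℂ) ^ (k - 1) * (N : ℂ) ^ (-k) *
      (N : ℂ) ^ (k - 1))) = 1 := by
    rw [← zpow_add₀ hN, ← zpow_add₀ hN, ← zpow_one_add₀ hN, ← zpow_add₀ hN,
      show 1 - k + (1 + (k - 1 + -k + (k - 1))) = 0 by ring, zpow_zero]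
  linear_combination (-(f ∣[k] ModularGroup.S) (ModularGroup.T ^ b • τ)) * h3

/-- Expansion of the conjugates `f ∣ S T^b` in `q^{1/N}`. -/
theorem hasQExp_slash_S_mul_T_zpow {k : ℤ} {f : ℍ → ℂ} {B : PowerSeries ℂ}
    (H : HasQExp 1 (wOp N k f) B) (b : ℤ) :
    HasQExp N (f ∣[k] (ModularGroup.S * ModularGroup.T ^ b))
      ((N : ℂ) ^ (-k) • twist B 1 (Complex.exp (2 * π * Complex.I * b / N))) := by
  have hN := natCast_ne_zero' N
  rw [slash_S_mul_T_zpow N]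
  have h1 := (H.slash_upperT k 1 N b (one_mul_N_ne_zero N) N 1
    (Nat.pos_of_ne_zero (NeZero.ne N)) rfl).smul ((N : ℂ) ^ (1 - k))
  rw [smul_smul] at h1
  have h3 : (N : ℂ) ^ (1 - k) * ((((1 : ℕ) : ℂ) * (N : ℂ)) ^ (k - 1) * (N : ℂ) ^ (-k)) =
      (N : ℂ) ^ (-k) := by
    rw [Nat.cast_one, one_mul, ← mul_assoc, ← zpow_add₀ hN, show 1 - k + (k - 1) = 0 by ring,
      zpow_zero, one_mul]
  rwa [h3] at h1

end

end Fermat.Agent.S16Aux
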