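import Mathlib
import Fermat.Agent.S16.WOp
import Fermat.Agent.S16.Sigma

set_option autoImplicit false

/-!
# S16 (U5): the weight two Eisenstein series `p E₂(pz) - E₂(z)` on `Γ₀(p)`
-/

open UpperHalfPlane ModularForm EisensteinSeries
open Fermat.Agent.S23Aux
open scoped Manifold MatrixGroups Real

namespace Fermat.Agent.S16Aux

noncomputable section

/-- The defect cocycle of `E₂` is compatible with Hermite decompositions. -/
theorem D2_slash_upperT (N : ℕ) [NeZero N] (γ γ' : SL(2, ℤ)) (a d : ℕ) (b : ℤ) (had : a * d ≠ 0)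
    (h : gN N * (γ : GL (Fin 2) ℝ) = (γ' : GL (Fin 2) ℝ) * upperT a d b had) :
    D2 γ' ∣[(2 : ℤ)] upperT a d b had = D2 γ := by
  have ha : (a : ℂ) ≠ 0 := by
    have : a ≠ 0 := fun h0 => had (by simp [h0])
    exact_mod_cast this
  have hd : (d : ℂ) ≠ 0 := by
    have : d ≠ 0 := fun h0 => had (by simp [h0])
    exact_mod_cast this
  have e10 : (γ 1 0 : ℝ) = (γ' 1 0 : ℝ) * a := by
    have := congr_arg (fun M : GL (Fin 2) ℝ => M 1 0) h
    simpa [gN, upperT, Matrix.GeneralLinearGroup.mkOfDetNeZero, Matrix.mul_apply,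
      Fin.sum_univ_two] using this
  have e11 : (γ 1 1 : ℝ) = (γ' 1 0 : ℝ) * b + (γ' 1 1 : ℝ) * d := by
    have := congr_arg (fun M : GL (Fin 2) ℝ => M 1 1) h
    simpa [gN, upperT, Matrix.GeneralLinearGroup.mkOfDetNeZero, Matrix.mul_apply,
      Fin.sum_univ_two] using this
  have e10' : (γ 1 0 : ℂ) = (γ' 1 0 : ℂ) * a := by exact_mod_cast e10
  have e11' : (γ 1 1 : ℂ) = (γ' 1 0 : ℂ) * b + (γ' 1 1 : ℂ) * d := by exact_mod_cast e11
  ext τ
  rw [slash_upperT_apply]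
  simp only [D2]
  rw [ModularGroup.denom_apply, ModularGroup.denom_apply, coe_upperT_smul]
  have hne : (γ 1 0 : ℂ) * τ + γ 1 1 ≠ 0 := by
    have := denom_ne_zero (γ : GL (Fin 2) ℝ) τ
    rwa [← ModularGroup.denom_apply]
  have hne' : (γ' 1 0 : ℂ) * ((a * τ + b) / d) + γ' 1 1 ≠ 0 := by
    intro h0
    apply hne
    rw [e10', e11']
    have : (γ' 1 0 : ℂ) * a * τ + (γ' 1 0 * b + γ' 1 1 * d) =
        d * ((γ' 1 0 : ℂ) * ((a * τ + b) / d) + γ' 1 1) := by
      field_simp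
      ring
    rw [this, h0, mul_zero]
  rw [e10', e11'] at hne ⊢
  have h2 : ((a : ℂ) * d) ^ ((2 : ℤ) - 1) * (d : ℂ) ^ (-(2 : ℤ)) = a / d := by
    rw [show (2 : ℤ) - 1 = 1 by norm_num, zpow_one, zpow_neg, zpow_ofNat]
    field_simp
  rw [h2]
  field_simp
  ring

/-- The function `p E₂(pz) - E₂(z)`. -/
def EEfun (N : ℕ) [NeZero N] : ℍ → ℂ := E2 ∣[(2 : ℤ)] gN N - E2

theorem EEfun_slash (N : ℕ) [NeZero N] (γ γ' : SL(2, ℤ)) (a d : ℕ) (b : ℤ) (had : a * d ≠ 0)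
    (h : gN N * (γ : GL (Fin 2) ℝ) = (γ' : GL (Fin 2) ℝ) * upperT a d b had) :
    EEfun N ∣[(2 : ℤ)] γ = E2 ∣[(2 : ℤ)] upperT a d b had - E2 := by
  unfold EEfun
  rw [sub_eq_add_neg, SlashAction.add_slash, SlashAction.neg_slash, E2_slash_action, SL_slash,
    ← SlashAction.slash_mul, h, SlashAction.slash_mul, ← SL_slash, E2_slash_action,
    sub_eq_add_neg, SlashAction.add_slash, SlashAction.neg_slash, smul_slash_upperT,
    D2_slash_upperT N γ γ' a d b had h]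
  abel

/-- The `q`-expansion of `E₂`. -/
def E2ser : PowerSeries ℂ :=
  PowerSeries.mk fun m : ℕ => (if m = 0 then 1 else -24 * ArithmeticFunction.sigma 1 m : ℂ)

theorem hasQExp_E2 : HasQExp 1 E2 E2ser :=
  ⟨E2_mdifferentiable, fun τ => by
    simpa only [E2ser, PowerSeries.coeff_mk, Function.Periodic.qParam, Complex.ofReal_one,
      div_one] using hasSum_qExpansion_E2 (z := τ)⟩

/-- `p E₂(pz) - E₂(z)` as a modular form of weight two on `Γ₀(p)`. -/
def EE (N : ℕ) [NeZero N] : ModularForm (CongruenceSubgroup.Gamma0 N) 2 where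
  toFun := EEfun N
  slash_action_eq' := by
    rintro _ ⟨γ, hγ, rfl⟩
    obtain ⟨γ', h⟩ := exists_conj_of_mem_Gamma0 N γ hγ
    exact EEfun_slash N γ γ' N 1 0 (N_mul_one_ne_zero N) h
  holo' := (E2_mdifferentiable.slash 2 _).sub E2_mdifferentiable
  bdd_at_cusps' {c} hc := by
    have hc' : IsCusp c 𝒮ℒ := hc.mono (by
      rintro _ ⟨γ, -, rfl⟩
      exact ⟨γ, rfl⟩)
    rw [OnePoint.isBoundedAt_iff_forall_SL2Z hc']
    intro γ _
    obtain ⟨γ', a, d, b, had, hadN, h, -⟩ := exists_decomp N (N_mul_one_ne_zero N) γ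
    rw [EEfun_slash N γ γ' a d b had h]
    have hN : 0 < N := Nat.pos_of_ne_zero (NeZero.ne N)
    exact ((hasQExp_E2.slash_upperT 2 a d b had N (a ^ 2) hN (by rw [← hadN]; ring)).bdd
      (by exact_mod_cast hN)).sub isBoundedAtImInfty_E2

@[simp] theorem coe_EE (N : ℕ) [NeZero N] : (EE N : ℍ → ℂ) = EEfun N := rfl

/-- The `q`-expansion of `EE`. -/
def EEser (N : ℕ) : PowerSeries ℂ := (N : ℂ) • twist E2ser N 1 - E2ser

theorem hasQExp_EE (N : ℕ) [NeZero N] : HasQExp 1 (EEfun N) (EEser N) := by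
  have h1 := hasQExp_E2.slash_upperT 2 N 1 0 (N_mul_one_ne_zero N) 1 N one_pos (by ring)
  have h2 : ((N : ℂ) * (1 : ℕ)) ^ ((2 : ℤ) - 1) * ((1 : ℕ) : ℂ) ^ (-(2 : ℤ)) = N := by
    simp
  rw [h2] at h1
  have h3 : Complex.exp (2 * π * Complex.I * ((0 : ℤ) : ℂ) / ((1 : ℕ) : ℂ)) = 1 := by simp
  rw [h3, Nat.cast_one] at h1
  exact h1.sub hasQExp_E2

theorem coeff_EEser_zero (N : ℕ) : (EEser N).coeff 0 = (N : ℂ) - 1 := by
  simp only [EEser, map_sub, PowerSeries.coeff_smul, coeff_twist, E2ser, PowerSeries.coeff_mk,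
    dvd_zero, if_true, Nat.zero_div, pow_zero, mul_one, smul_eq_mul]

theorem coeff_EEser {p : ℕ} (hp : p.Prime) (k : ℕ) (hk : 0 < k) :
    (EEser p).coeff k = 24 * (sigmaP p k : ℂ) := by
  simp only [EEser, map_sub, PowerSeries.coeff_smul, coeff_twist, E2ser, PowerSeries.coeff_mk,
    one_pow, mul_one, hk.ne', if_false, smul_eq_mul]
  have h1 : ((sigmaP p k : ℤ) : ℂ) = ((ArithmeticFunction.sigma 1 k - p *
      (if p ∣ k then (ArithmeticFunction.sigma 1 (k / p) : ℤ) else 0) : ℤ) : ℂ) :=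
    congr_arg _ (sigmaP_eq_sub hp k)
  rw [Int.cast_natCast] at h1
  rw [h1]
  by_cases h : p ∣ k
  · have hc : k / p ≠ 0 := (Nat.div_pos (Nat.le_of_dvd hk h) hp.pos).ne'
    rw [if_pos h, if_pos h, if_neg hc]
    push_cast
    ring
  · rw [if_neg h, if_neg h]
    push_cast
    ring

end

end Fermat.Agent.S16Aux
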