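import Mathlib
import Fermat.Agent.Lib.S23_QExp
import Fermat.Prelude.Thm_UpperHalfPlane_qCoeff_heckeU
import Fermat.Prelude.Thm_UpperHalfPlane_qCoeff_heckeT
import Fermat.Prelude.Thm_ModularForm_periodic_heckeU_comp_ofComplex
import Fermat.Prelude.Thm_ModularForm_periodic_heckeT_comp_ofComplex
import Fermat.Prelude.Thm_ModularForm_mdifferentiable_heckeU
import Fermat.Prelude.Thm_ModularForm_mdifferentiable_heckeT
import Fermat.Prelude.Thm_ModularForm_isBoundedAtImInfty_heckeU
import Fermat.Prelude.Thm_ModularForm_isBoundedAtImInfty_heckeT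

set_option autoImplicit false

/-!
# S16: `q`-expansions of `heckeU`, `heckeT` in the `HasQExp` formalism
-/

open UpperHalfPlane ModularForm
open Fermat.Agent.S23Aux
open scoped Manifold MatrixGroups Real

namespace Fermat.Agent.S16Aux

noncomputable section

/-- `U_p` on power series. -/
def uSer (p : ℕ) (A : PowerSeries ℂ) : PowerSeries ℂ := PowerSeries.mk fun n => A.coeff (n * p)

/-- `T_p` (weight `k`) on power series. -/
def tSer (k : ℤ) (p : ℕ) (A : PowerSeries ℂ) : PowerSeries ℂ :=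
  PowerSeries.mk fun n => A.coeff (n * p) + if p ∣ n then (p : ℂ) ^ (k - 1) * A.coeff (n / p) else 0

@[simp] theorem coeff_uSer (p : ℕ) (A : PowerSeries ℂ) (n : ℕ) :
    (uSer p A).coeff n = A.coeff (n * p) := by simp [uSer]

@[simp] theorem coeff_tSer (k : ℤ) (p : ℕ) (A : PowerSeries ℂ) (n : ℕ) :
    (tSer k p A).coeff n =
      A.coeff (n * p) + if p ∣ n then (p : ℂ) ^ (k - 1) * A.coeff (n / p) else 0 := by
  simp [tSer]

theorem HasQExp.periodic_one {f : ℍ → ℂ} {A : PowerSeries ℂ} (H : HasQExp 1 f A) :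
    Function.Periodic (f ∘ ofComplex) 1 := by
  simpa using H.periodic

theorem hasQExp_heckeU {f : ℍ → ℂ} {A : PowerSeries ℂ} (H : HasQExp 1 f A) (k : ℤ) {p : ℕ}
    (hp : p ≠ 0) : HasQExp 1 (heckeU k p f) (uSer p A) := by
  have h1 : HasQExp 1 (heckeU k p f) (qExpansion 1 (heckeU k p f)) :=
    HasQExp.of_periodic one_pos
      (by simpa using periodic_heckeU_comp_ofComplex (HasQExp.periodic_one H) k p)
      (mdifferentiable_heckeU H.mdiff k p) (isBoundedAtImInfty_heckeU (H.bdd one_pos) k p)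
  have h2 : qExpansion 1 (heckeU k p f) = uSer p A := by
    ext n
    have := UpperHalfPlane.qCoeff_heckeU (HasQExp.periodic_one H) H.mdiff (H.bdd one_pos) k hp n
    rw [coeff_uSer, ← H.qExpansion_eq one_pos]
    exact this
  rwa [h2] at h1

theorem hasQExp_heckeT {f : ℍ → ℂ} {A : PowerSeries ℂ} (H : HasQExp 1 f A) (k : ℤ) {p : ℕ}
    (hp : p ≠ 0) : HasQExp 1 (heckeT k p f) (tSer k p A) := by
  have h1 : HasQExp 1 (heckeT k p f) (qExpansion 1 (heckeT k p f)) :=
    HasQExp.of_periodic one_pos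
      (by simpa using periodic_heckeT_comp_ofComplex (HasQExp.periodic_one H) k p)
      (mdifferentiable_heckeT H.mdiff k p) (isBoundedAtImInfty_heckeT (H.bdd one_pos) k p)
  have h2 : qExpansion 1 (heckeT k p f) = tSer k p A := by
    ext n
    have := UpperHalfPlane.qCoeff_heckeT (HasQExp.periodic_one H) H.mdiff (H.bdd one_pos) k hp n
    rw [coeff_tSer, ← H.qExpansion_eq one_pos]
    exact this
  rwa [h2] at h1

/-- Two functions with the same expansion are equal. -/
theorem HasQExp.eq_of_eq {h : ℝ} {f g : ℍ → ℂ} {A : PowerSeries ℂ} (H : HasQExp h f A)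
    (H' : HasQExp h g A) : f = g :=
  funext fun τ => (H.hasSum τ).unique (H'.hasSum τ)

theorem heckeMatrix_eq_upperT {p : ℕ} (hp : p ≠ 0) (j : ℕ) (h : 1 * p ≠ 0) :
    heckeMatrix p j = upperT 1 p j h := by
  apply Matrix.GeneralLinearGroup.ext
  intro a b
  have h1 := val_heckeMatrix hp j
  rw [show (heckeMatrix p j) a b = ((heckeMatrix p j : GL (Fin 2) ℝ) :
    Matrix (Fin 2) (Fin 2) ℝ) a b from rfl, h1]
  fin_cases a <;> fin_cases b <;> simp [upperT, Matrix.GeneralLinearGroup.mkOfDetNeZero]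

end

end Fermat.Agent.S16Aux
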