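import Mathlib
import Fermat.Agent.S16.WOp
import Fermat.Agent.S16.Cosets
import Fermat.Agent.S16.HeckeQ
import Fermat.Agent.S16.EE
import Fermat.Agent.Lib.Dim_Level1

set_option autoImplicit false

/-!
# S16 (U3, U5): the trace from `Γ₀(p)` to level one; `f^w = -p U_p f` in weight two
-/

open UpperHalfPlane ModularForm CongruenceSubgroup EisensteinSeries
open Fermat.Agent.S23Aux Fermat.Agent.DimAux
open scoped Manifold MatrixGroups Real

namespace Fermat.Agent.S16Aux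

noncomputable section

/-- the sum of all conjugates is a level one form -/
theorem sum_cj_mem_MFun {Γ : Subgroup SL(2, ℤ)} [Fintype (SL(2, ℤ) ⧸ Γ)] {k : ℤ} {f : ℍ → ℂ}
    (hf : f ∈ MFun Γ k) : ∑ x, cj Γ k f x ∈ MFun ⊤ k := by
  have hinv : ∀ γ : SL(2, ℤ), (∑ x, cj Γ k f x) ∣[k] γ = ∑ x, cj Γ k f x := by
    intro γ
    have h1 : (∑ x, cj Γ k f x) ∣[k] γ = ∑ x, (cj Γ k f x ∣[k] γ) := by
      classical
      generalize (Finset.univ : Finset (SL(2, ℤ) ⧸ Γ)) = t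
      induction t using Finset.induction_on with
      | empty => simp [SlashAction.zero_slash]
      | insert a t ha ih =>
        rw [Finset.sum_insert ha, Finset.sum_insert ha, SlashAction.add_slash, ih]
    rw [h1]
    simp only [cj_slash hf.2.1]
    exact Equiv.sum_comp (MulAction.toPerm γ⁻¹) (fun x => cj Γ k f x)
  refine ⟨?_, fun γ _ => hinv γ, fun γ => ?_⟩
  · have : ∀ t : Finset (SL(2, ℤ) ⧸ Γ), MDiff (∑ x ∈ t, cj Γ k f x) := by
      classical
      intro t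
      induction t using Finset.induction_on with
      | empty =>
        rw [Finset.sum_empty]
        exact (mdifferentiable_const : MDiff (fun _ : ℍ => (0 : ℂ)))
      | insert a t ha ih =>
        rw [Finset.sum_insert ha]
        exact (cj_mdiff hf a).add ih
    exact this _
  · rw [hinv γ]
    have : ∀ t : Finset (SL(2, ℤ) ⧸ Γ), IsBoundedAtImInfty (∑ x ∈ t, cj Γ k f x) := by
      classical
      intro t
      induction t using Finset.induction_on with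
      | empty =>
        rw [Finset.sum_empty]
        exact Filter.const_boundedAtFilter _ 0
      | insert a t ha ih =>
        rw [Finset.sum_insert ha]
        exact (cj_bdd hf a).add ih
    exact this _

variable (p : ℕ) [Fact p.Prime]

instance neZero_of_fact_prime : NeZero p := ⟨(Fact.out : p.Prime).ne_zero⟩

/-- The trace `f + ∑_b f ∣ S T^b`, written with `U_p` and `w`. -/
def trOp (k : ℤ) (f : ℍ → ℂ) : ℍ → ℂ := f + (p : ℂ) ^ (1 - k) • heckeU k p (wOp p k f)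

theorem trOp_eq (k : ℤ) (f : ℍ → ℂ) :
    trOp p k f = f + ∑ b ∈ Finset.range p, f ∣[k] (ModularGroup.S * ModularGroup.T ^ ((b : ℕ) : ℤ)) := by
  rw [trOp, heckeU_def, Finset.smul_sum]
  congr 1
  refine Finset.sum_congr rfl fun b _ => ?_
  rw [slash_S_mul_T_zpow p, heckeMatrix_eq_upperT (NeZero.ne p) b (one_mul_N_ne_zero p)]

theorem trOp_mem {k : ℤ} {f : ℍ → ℂ} (hf : f ∈ MFun (Gamma0 p) k) : trOp p k f ∈ MFun ⊤ k := by
  rw [trOp_eq, ← sum_cj_eq p hf.2.1]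
  exact sum_cj_mem_MFun hf

theorem hasQExp_trOp {k : ℤ} {f : ℍ → ℂ} {A B : PowerSeries ℂ} (HA : HasQExp 1 f A)
    (HB : HasQExp 1 (wOp p k f) B) :
    HasQExp 1 (trOp p k f) (A + (p : ℂ) ^ (1 - k) • uSer p B) :=
  HA.add ((hasQExp_heckeU HB k (NeZero.ne p)).smul _)

/-- In weight two `f^w = -p U_p f` (there are no level one forms of weight two). -/
theorem wOp_two {f : ℍ → ℂ} (hf : f ∈ MFun (Gamma0 p) 2) :
    wOp p 2 f = -((p : ℂ) • heckeU 2 p f) := by
  have hp := natCast_ne_zero' p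
  have h1 : trOp p 2 (wOp p 2 f) ∈ RFun 2 := trOp_mem p (wOp_mem_MFun p hf)
  rw [RFun_two_eq_bot, Submodule.mem_bot, trOp, wOp_wOp p even_two, heckeU_smul, smul_smul] at h1
  have h2 : (p : ℂ) ^ ((1 : ℤ) - 2) * (p : ℂ) ^ (2 : ℤ) = p := by
    rw [← zpow_add₀ hp]
    norm_num
  rw [h2] at h1
  exact eq_neg_of_add_eq_zero_left h1

theorem hasQExp_wOp_two {f : ℍ → ℂ} {A : PowerSeries ℂ} (hf : f ∈ MFun (Gamma0 p) 2)
    (H : HasQExp 1 f A) : HasQExp 1 (wOp p 2 f) (-((p : ℂ) • uSer p A)) := by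
  rw [wOp_two p hf]
  have h1 := ((hasQExp_heckeU H 2 (NeZero.ne p)).smul (p : ℂ)).smul (-1 : ℂ)
  simpa using h1

theorem EEfun_mem : EEfun p ∈ MFun (Gamma0 p) 2 := coe_mem_MFun (EE p)

theorem uSer_EEser : uSer p (EEser p) = EEser p := by
  have hp : p.Prime := Fact.out
  ext n
  rw [coeff_uSer]
  rcases Nat.eq_zero_or_pos n with rfl | hn
  · simp
  · rw [coeff_EEser hp _ (Nat.mul_pos hn hp.pos), coeff_EEser hp _ hn, mul_comm n p,
      sigmaP_mul_self hp]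

theorem wOp_EEfun : wOp p 2 (EEfun p) = -((p : ℂ) • EEfun p) := by
  have h1 := hasQExp_wOp_two p (EEfun_mem p) (hasQExp_EE p)
  rw [uSer_EEser] at h1
  have h2 := ((hasQExp_EE p).smul (p : ℂ)).smul (-1 : ℂ)
  have h3 : (-1 : ℂ) • (p : ℂ) • EEser p = -((p : ℂ) • EEser p) := by simp
  rw [h3] at h2
  rw [HasQExp.eq_of_eq h1 h2]
  simp

/-- A modular form on `Γ₀(N)` has a `q`-expansion. -/
theorem hasQExp_of_mem {N : ℕ} {k : ℤ} {f : ℍ → ℂ} (hf : f ∈ MFun (Gamma0 N) k) :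
    HasQExp 1 f (qExpansion 1 f) := by
  refine HasQExp.of_periodic one_pos ?_ hf.1 (bdd_of_mem hf)
  apply periodic_of_vadd
  intro z
  have hT : ModularGroup.T ∈ Gamma0 N := by
    rw [Gamma0_mem]
    simp [ModularGroup.T]
  have h1 := slash_apply' (k := k) f ModularGroup.T z
  rw [hf.2.1 _ hT, modular_T_smul] at h1
  have h2 := denom_T_zpow 1 z
  rw [zpow_one] at h2
  rw [h1, h2]
  simp

/-- (U5) The form `W = EE - 24 F`. -/
theorem exists_W (F : CuspForm (Gamma0 p) 2) (a : ℕ → ℤ)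
    (ha : ∀ k, ModularFormClass.qCoeff F k = (a k : ℂ)) (M : ℕ)
    (hM : ∀ k, 0 < k → (M : ℤ) ∣ a k - (sigmaP p k : ℤ)) :
    ∃ (W : ℍ → ℂ) (A : PowerSeries ℂ), W ∈ MFun (Gamma0 p) 2 ∧ HasQExp 1 W A ∧
      HasQExp 1 (wOp p 2 W) (-((p : ℂ) • uSer p A)) ∧ A.coeff 0 = (p : ℂ) - 1 ∧
      ∀ k, 0 < k → ∃ c : ℤ, A.coeff k = 24 * (M : ℂ) * c := by
  have hp : p.Prime := Fact.out
  have hF : (F : ℍ → ℂ) ∈ SFun (Gamma0 p) 2 := coe_mem_SFun F
  have hFM := SFun_le_MFun hF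
  have hW : EEfun p - (24 : ℂ) • (F : ℍ → ℂ) ∈ MFun (Gamma0 p) 2 :=
    Submodule.sub_mem _ (EEfun_mem p) (Submodule.smul_mem _ _ hFM)
  have HW : HasQExp 1 (EEfun p - (24 : ℂ) • (F : ℍ → ℂ))
      (EEser p - (24 : ℂ) • qExpansion 1 (F : ℍ → ℂ)) :=
    (hasQExp_EE p).sub ((hasQExp_of_mem hFM).smul 24)
  refine ⟨_, _, hW, HW, hasQExp_wOp_two p hW HW, ?_, fun k hk => ?_⟩
  · have h0 : (qExpansion 1 (F : ℍ → ℂ)).coeff 0 = 0 := by
      have h1 := tendsto_coeff_zero one_pos (hasQExp_of_mem hFM).periodic hFM.1 (bdd_of_mem hFM)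
      exact tendsto_nhds_unique h1 (zeroAt_of_mem hF)
    rw [map_sub, coeff_EEser_zero, PowerSeries.coeff_smul, h0]
    simp
  · obtain ⟨c, hc⟩ := hM k hk
    refine ⟨-c, ?_⟩
    have h1 : (qExpansion 1 (F : ℍ → ℂ)).coeff k = (a k : ℂ) := ha k
    have h2 : (a k : ℂ) = (sigmaP p k : ℂ) + (M : ℂ) * c := by
      have : a k = (sigmaP p k : ℤ) + (M : ℤ) * c := by linarith
      exact_mod_cast congr_arg (Int.cast : ℤ → ℂ) this
    rw [map_sub, coeff_EEser hp k hk, PowerSeries.coeff_smul, h1, h2]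
    push_cast
    simp only [smul_eq_mul]
    ring

end

end Fermat.Agent.S16Aux
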