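import Mathlib
import Fermat.Agent.S16.Trace
import Fermat.Agent.S16.Sturm1
import Fermat.Prelude.Def_ModularForm_HeckeOperatorForms

set_option autoImplicit false

/-!
# S16 (U10, first half): no level one form of weight `p + 1` is `≡ 1 mod p`
-/

open UpperHalfPlane ModularForm CongruenceSubgroup
open Fermat.Agent.S23Aux Fermat.Agent.DimAux
open scoped Manifold MatrixGroups Real

namespace Fermat.Agent.S16Aux

noncomputable section

theorem top_le_Gamma0_one : (⊤ : Subgroup SL(2, ℤ)) ≤ Gamma0 1 := by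
  intro g _
  rw [Gamma0_mem]
  exact Subsingleton.elim _ _

theorem heckeT_mem_top {q : ℕ} (hq : q.Prime) {k : ℤ} {f : ℍ → ℂ} (hf : f ∈ MFun ⊤ k) :
    heckeT k q f ∈ MFun ⊤ k := by
  have hf' : f ∈ MFun (Gamma0 1) k := MFun_mono le_top hf
  have := coe_mem_MFun (ModularForm.heckeTLin k hq (by simpa using hq.one_lt.ne') (toMF hf'))
  exact MFun_mono top_le_Gamma0_one this

theorem hasQExp_of_mem_top {k : ℤ} {f : ℍ → ℂ} (hf : f ∈ MFun ⊤ k) :
    HasQExp 1 f (qExpansion 1 f) :=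
  hasQExp_of_mem (N := 1) (MFun_mono le_top hf)

theorem tSer_add (k : ℤ) (q : ℕ) (A B : PowerSeries ℂ) :
    tSer k q (A + B) = tSer k q A + tSer k q B := by
  ext n
  simp only [coeff_tSer, map_add]
  split_ifs <;> ring

variable {Γ₀ : Type*} [LinearOrderedCommGroupWithZero Γ₀] {v : Valuation ℂ Γ₀}

theorem LeV.tSer {c : Γ₀} {A : PowerSeries ℂ} (hA : LeV v c A) (k : ℤ) (q : ℕ)
    (hq : v ((q : ℂ) ^ (k - 1)) ≤ 1) : LeV v c (tSer k q A) := fun n => by
  rw [coeff_tSer]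
  refine (v.map_add _ _).trans (max_le (hA _) ?_)
  split_ifs
  · rw [map_mul]
    exact (mul_le_mul' hq (hA _)).trans (by simp)
  · simp

theorem LeV.uSer_atP {c : Γ₀} {A : PowerSeries ℂ} (hA : LeV v c A) (q : ℕ) :
    LeV v c (uSer q A) := fun n => by
  rw [coeff_uSer]
  exact hA _

theorem not_dvd_one_sub_two_pow (p : ℕ) [Fact p.Prime] (hp5 : 5 ≤ p) :
    ¬ (p : ℤ) ∣ 1 - 2 ^ (p + 1) := by
  have hp : p.Prime := Fact.out
  rw [← ZMod.intCast_zmod_eq_zero_iff_dvd]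
  push_cast
  have h2 : (2 : ZMod p) ≠ 0 := by
    intro h
    have : ((2 : ℕ) : ZMod p) = 0 := by exact_mod_cast h
    rw [ZMod.natCast_eq_zero_iff] at this
    have := Nat.le_of_dvd (by norm_num) this
    omega
  have h3 := ZMod.pow_card_sub_one_eq_one h2
  have h4 : (2 : ZMod p) ^ (p + 1) = 4 := by
    have : p + 1 = (p - 1) + 2 := by omega
    rw [this, pow_add, h3]
    norm_num
  rw [h4]
  intro h
  have h5 : ((3 : ℕ) : ZMod p) = 0 := by
    push_cast
    linear_combination -h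
  rw [ZMod.natCast_eq_zero_iff] at h5
  have := Nat.le_of_dvd (by norm_num) h5
  omega

/-- (SD-lite) there is no level one form of weight `p + 1` congruent to `1` modulo `p`. -/
theorem levelOne_not_cong_one (p : ℕ) [Fact p.Prime] (hp5 : 5 ≤ p) (hv : v (p : ℂ) < 1)
    {f : ℍ → ℂ} (hf : f ∈ MFun ⊤ ((p : ℤ) + 1)) {Φ : PowerSeries ℂ} (HΦ : HasQExp 1 f Φ)
    (h1 : LeV v (v (p : ℂ)) (Φ - 1)) : False := by
  have hp : p.Prime := Fact.out
  have hv2 : v (2 : ℂ) = 1 := by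
    have := val_natCast_eq_one_of_coprime (l := p) hv (q := 2)
      ((Nat.coprime_primes Nat.prime_two hp).2 (by omega))
    simpa using this
  have hv2z : ∀ j : ℤ, v (((2 : ℕ) : ℂ) ^ j) = 1 := by
    intro j
    rw [map_zpow₀]
    simp [hv2]
  set D : PowerSeries ℂ := qExpansion 1 ModularForm.discriminant with hD
  have hΔ : (discriminant : ℍ → ℂ) ∈ MFun ⊤ 12 := SFun_le_MFun Delta_mem
  have HΔ : HasQExp 1 (discriminant : ℍ → ℂ) D := hasQExp_of_mem_top hΔ
  have hΔm : (discriminant : ℍ → ℂ) ^ p ∈ MFun ⊤ ((p : ℤ) * 12) := pow_mem_MFun hΔ p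
  have HΔm : HasQExp 1 ((discriminant : ℍ → ℂ) ^ p) (D ^ p) := HΔ.pow one_pos p
  set k1 : ℤ := (p : ℤ) * 12 with hk1
  set k2 : ℤ := (p : ℤ) * 12 + ((p : ℤ) + 1) with hk2
  -- the form `X`
  have hX1 : f * heckeT k1 2 ((discriminant : ℍ → ℂ) ^ p) ∈ MFun ⊤ k2 :=
    MFun_cast (by rw [hk2, hk1]; ring) (mul_mem_MFun hf (heckeT_mem_top Nat.prime_two hΔm))
  have hX2 : heckeT k2 2 ((discriminant : ℍ → ℂ) ^ p * f) ∈ MFun ⊤ k2 :=
    heckeT_mem_top Nat.prime_two (mul_mem_MFun hΔm hf)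
  have hX := Submodule.sub_mem _ hX1 hX2
  have HX : HasQExp 1 (f * heckeT k1 2 ((discriminant : ℍ → ℂ) ^ p) -
      heckeT k2 2 ((discriminant : ℍ → ℂ) ^ p * f))
      (Φ * tSer k1 2 (D ^ p) - tSer k2 2 (D ^ p * Φ)) :=
    (HΦ.mul (hasQExp_heckeT HΔm k1 two_ne_zero) one_pos).sub
      (hasQExp_heckeT (HΔm.mul HΦ one_pos) k2 two_ne_zero)
  -- decomposition of the expansion
  set E : PowerSeries ℂ := Φ - 1 with hE
  have hΦE : Φ = 1 + E := by rw [hE]; ring
  have hdec : Φ * tSer k1 2 (D ^ p) - tSer k2 2 (D ^ p * Φ) =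
      (tSer k1 2 (D ^ p) - tSer k2 2 (D ^ p)) +
        (E * tSer k1 2 (D ^ p) - tSer k2 2 (D ^ p * E)) := by
    rw [hΦE, mul_add, mul_one, tSer_add]
    ring
  have hDp : OrdV v (D ^ p) p := by
    have := (ordV_discriminant (v := v)).pow p
    rwa [mul_one] at this
  have hR : LtV v (E * tSer k1 2 (D ^ p) - tSer k2 2 (D ^ p * E)) := by
    apply LtV.sub
    · exact (h1.ltV hv).mul_right (hDp.int.tSer k1 2 (hv2z _).le)
    · have : LeV v (1 * v (p : ℂ)) (D ^ p * E) := hDp.int.mul h1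
      rw [one_mul] at this
      exact (this.tSer k2 2 (hv2z _).le).ltV hv
  set c : ℂ := ((2 : ℕ) : ℂ) ^ (k1 - 1) - ((2 : ℕ) : ℂ) ^ (k2 - 1) with hc
  have hvc : v c = 1 := by
    have h2 : ((2 : ℕ) : ℂ) ≠ 0 := by norm_num
    have e1 : c = ((2 : ℕ) : ℂ) ^ (k1 - 1) * (((1 - 2 ^ (p + 1) : ℤ)) : ℂ) := by
      rw [hc, show k2 - 1 = (k1 - 1) + ((p + 1 : ℕ) : ℤ) by rw [hk2, hk1]; push_cast; ring,
        zpow_add₀ h2, zpow_natCast]
      push_cast
      ring
    rw [e1, map_mul, hv2z, one_mul]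
    exact val_intCast_eq_one hv (not_dvd_one_sub_two_pow p hp5)
  have hM : OrdV v (tSer k1 2 (D ^ p) - tSer k2 2 (D ^ p)) (2 * p) := by
    have hco : ∀ n, (tSer k1 2 (D ^ p) - tSer k2 2 (D ^ p)).coeff n =
        if 2 ∣ n then c * (D ^ p).coeff (n / 2) else 0 := by
      intro n
      rw [map_sub, coeff_tSer, coeff_tSer]
      split_ifs
      · rw [hc]; ring
      · ring
    refine ⟨fun n => ?_, fun i hi => ?_, ?_⟩
    · rw [hco]
      split_ifs
      · rw [map_mul, hvc, one_mul]; exact hDp.int _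
      · simp
    · rw [hco]
      split_ifs
      · rw [map_mul, hvc, one_mul]
        exact hDp.lt _ (by omega)
      · simp
    · rw [hco, if_pos (dvd_mul_right 2 p), Nat.mul_div_cancel_left p (by norm_num), map_mul, hvc,
        one_mul]
      exact hDp.eq
  have hOrd := hM.add_ltV hR
  rw [← hdec, ← HX.qExpansion_eq one_pos] at hOrd
  have hle := OrdV.le_of_levelOne hX hOrd
  rw [hk2] at hle
  push_cast at hle
  omega

end

end Fermat.Agent.S16Aux
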