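import Mathlib
import Fermat.Agent.S16.Val

set_option autoImplicit false

/-!
# S16 (U10, second part): `E_{p-1} ≡ 1 mod p`
-/

open UpperHalfPlane ModularForm EisensteinSeries

namespace Fermat.Agent.S16Aux

variable {Γ₀ : Type*} [LinearOrderedCommGroupWithZero Γ₀] {v : Valuation ℂ Γ₀}

/-- von Staudt-Clausen at `p`: `p B_{p-1}` is a unit. -/
theorem val_mul_bernoulli (p : ℕ) [Fact p.Prime] (hp3 : 3 ≤ p) (hv : v (p : ℂ) < 1) :
    v ((p : ℂ) * ((bernoulli (p - 1) : ℚ) : ℂ)) = 1 := by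
  have hp : p.Prime := Fact.out
  have hodd : Odd p := hp.odd_of_ne_two (by omega)
  obtain ⟨k, hk⟩ := hodd
  have h2k : 2 * k = p - 1 := by omega
  obtain ⟨n, hn⟩ := Bernoulli.vonStaudt_clausen k
  rw [h2k] at hn
  set s : Finset ℕ := (Finset.range (p - 1 + 2)).filter (fun q => q.Prime ∧ (q - 1) ∣ p - 1) with hs
  have hps : p ∈ s := by
    rw [hs, Finset.mem_filter, Finset.mem_range]
    exact ⟨by omega, hp, dvd_refl _⟩
  rw [← Finset.add_sum_erase s _ hps] at hn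
  have hn' := congr_arg (fun x : ℚ => (x : ℂ)) hn
  simp only [Rat.cast_intCast, Rat.cast_add, Rat.cast_sum, Rat.cast_div, Rat.cast_one,
    Rat.cast_natCast] at hn'
  set t : ℂ := ∑ q ∈ s.erase p, (1 : ℂ) / (q : ℂ) with ht
  have hvt : v t ≤ 1 := by
    apply Valuation.map_sum_le
    intro q hq
    rw [Finset.mem_erase, hs, Finset.mem_filter] at hq
    have hq1 : v (q : ℂ) = 1 :=
      val_natCast_eq_one_of_coprime hv ((Nat.coprime_primes hq.2.2.1 hp).2 hq.1)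
    rw [map_div₀, map_one, hq1, div_one]
  have hp0 : (p : ℂ) ≠ 0 := by exact_mod_cast hp.ne_zero
  have e1 : (p : ℂ) * ((bernoulli (p - 1) : ℚ) : ℂ) = (p : ℂ) * ((n : ℂ) - t) + (-1) := by
    have : ((bernoulli (p - 1) : ℚ) : ℂ) = (n : ℂ) - 1 / (p : ℂ) - t := by
      rw [hn']; ring
    rw [this]
    field_simp
    ring
  rw [e1]
  have h3 : v ((p : ℂ) * ((n : ℂ) - t)) < v (-1 : ℂ) := by
    rw [Valuation.map_neg, map_one, map_mul]
    have : v ((n : ℂ) - t) ≤ 1 := (Valuation.map_sub _ _ _).trans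
      (max_le (val_intCast_le_one v n) hvt)
    calc v (p : ℂ) * v ((n : ℂ) - t) ≤ v (p : ℂ) * 1 := by gcongr
      _ < 1 := by rwa [mul_one]
  rw [Valuation.map_add_eq_of_lt_right v h3, Valuation.map_neg, map_one]

theorem val_two_mul_div_bernoulli (p : ℕ) [Fact p.Prime] (hp3 : 3 ≤ p) (hv : v (p : ℂ) < 1) :
    v (-(2 * ((p - 1 : ℕ) : ℂ) / ((bernoulli (p - 1) : ℚ) : ℂ))) ≤ v (p : ℂ) := by
  have hp : p.Prime := Fact.out
  have hp0 : (p : ℂ) ≠ 0 := by exact_mod_cast hp.ne_zero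
  have h1 := val_mul_bernoulli p hp3 hv
  have hB : ((bernoulli (p - 1) : ℚ) : ℂ) ≠ 0 := by
    intro h
    rw [h, mul_zero, map_zero] at h1
    exact zero_ne_one h1
  have e : -(2 * ((p - 1 : ℕ) : ℂ) / ((bernoulli (p - 1) : ℚ) : ℂ)) =
      -(((2 * (p - 1 : ℕ) : ℕ) : ℂ) * (p : ℂ) / ((p : ℂ) * ((bernoulli (p - 1) : ℚ) : ℂ))) := by
    push_cast
    field_simp
  rw [e, Valuation.map_neg, map_div₀, h1, div_one, map_mul]
  calc v ((2 * (p - 1 : ℕ) : ℕ) : ℂ) * v (p : ℂ) ≤ 1 * v (p : ℂ) := by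
        gcongr
        exact val_natCast_le_one v _
    _ = v (p : ℂ) := one_mul _

/-- `E_{p-1} ≡ 1 mod p`. -/
theorem leV_E_sub_one (p : ℕ) [Fact p.Prime] (hp5 : 5 ≤ p) (hk : 3 ≤ p - 1)
    (hv : v (p : ℂ) < 1) : LeV v (v (p : ℂ)) (qExpansion 1 (E hk) - 1) := by
  have hp : p.Prime := Fact.out
  have hev : Even (p - 1) := by
    have hodd : Odd p := hp.odd_of_ne_two (by omega)
    obtain ⟨k, hk'⟩ := hodd
    exact ⟨k, by omega⟩
  intro m
  rw [map_sub, E_qExpansion_coeff hk hev, PowerSeries.coeff_one]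
  by_cases hm : m = 0
  · simp [hm]
  · rw [if_neg hm, if_neg hm, sub_zero, map_mul]
    calc _ ≤ v (p : ℂ) * 1 := by
          gcongr
          · exact val_two_mul_div_bernoulli p (by omega) hv
          · exact val_natCast_le_one v _
      _ = v (p : ℂ) := mul_one _

end Fermat.Agent.S16Aux
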