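import Mathlib
import Fermat.Agent.S16.AtP1
import Fermat.Agent.S16.AtP2

set_option autoImplicit false

/-!
# S16 (U10): the case `l = p`
-/

open UpperHalfPlane ModularForm CongruenceSubgroup EisensteinSeries
open Fermat.Agent.S23Aux Fermat.Agent.DimAux
open scoped Manifold MatrixGroups Real

namespace Fermat.Agent.S16Aux

noncomputable section

variable {Γ₀ : Type*} [LinearOrderedCommGroupWithZero Γ₀] {v : Valuation ℂ Γ₀}

theorem coeff_twist_one_sub_one (P : PowerSeries ℂ) {e : ℕ} (he : 0 < e) (m : ℕ) :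
    (twist P e 1 - 1).coeff m = if e ∣ m then (P - 1).coeff (m / e) else 0 := by
  rw [map_sub, coeff_twist, PowerSeries.coeff_one, one_pow, mul_one]
  by_cases h : e ∣ m
  · rw [if_pos h, if_pos h, map_sub, PowerSeries.coeff_one]
    have : m / e = 0 ↔ m = 0 := by
      constructor
      · intro h0
        obtain ⟨c, rfl⟩ := h
        rw [Nat.mul_div_cancel_left c he] at h0
        simp [h0]
      · rintro rfl
        simp
    simp only [this]
  · have hm : m ≠ 0 := by rintro rfl; exact h (dvd_zero e)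
    rw [if_neg h, if_neg h, if_neg hm, sub_zero]

theorem LeV.twist_one_sub_one {c : Γ₀} {P : PowerSeries ℂ} (h : LeV v c (P - 1)) {e : ℕ}
    (he : 0 < e) : LeV v c (twist P e 1 - 1) := fun m => by
  rw [coeff_twist_one_sub_one P he]
  split_ifs
  · exact h _
  · simp

/-- (U10) -/
theorem no_cong_at_p (p : ℕ) [Fact p.Prime] (hp5 : 5 ≤ p) (hv : v (p : ℂ) < 1) {G' : ℍ → ℂ}
    (hG : G' ∈ MFun (Gamma0 p) 2) {A B : PowerSeries ℂ} (hA : HasQExp 1 G' A)
    (hB : HasQExp 1 (wOp p 2 G') B) (hA1 : ∀ n, v ((A - 1).coeff n) ≤ v (p : ℂ))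
    (hB1 : LeV v (v (p : ℂ)) B) : False := by
  have hp : p.Prime := Fact.out
  have hp0 : (p : ℂ) ≠ 0 := natCast_ne_zero' p
  have hk : 3 ≤ p - 1 := by omega
  have hev : Even (((p - 1 : ℕ) : ℤ)) := by
    have hodd : Odd p := hp.odd_of_ne_two (by omega)
    obtain ⟨j, hj⟩ := hodd
    exact ⟨j, by rw [hj]; push_cast; omega⟩
  set k : ℤ := ((p - 1 : ℕ) : ℤ) with hkdef
  set Ep : ℍ → ℂ := (E hk : ℍ → ℂ) with hEpdef
  set P : PowerSeries ℂ := qExpansion 1 (E hk) with hPdef
  have hEp : Ep ∈ MFun ⊤ k := coe_mem_RFun (E hk)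
  have HP : HasQExp 1 Ep P := hasQExp_levelOne (E hk)
  have hS : Ep ∣[k] ModularGroup.S = Ep := hEp.2.1 _ (Subgroup.mem_top _)
  have hVeq : vOp p Ep = raiseFun p (E hk) := funext fun τ => (raiseFun_apply p (E hk) τ).symm
  have hV : vOp p Ep ∈ MFun (Gamma0 p) k := by
    rw [hVeq]
    exact coe_mem_MFun (levelRaise p (E hk))
  have HV : HasQExp 1 (vOp p Ep) (twist P p 1) := by
    rw [hVeq]
    have := hasQExp_raiseFun p (E hk) 1 p one_pos (by ring)
    rwa [Nat.cast_one] at this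
  set c : ℂ := (p : ℂ) ^ k with hc
  -- the form `g`
  have hg : Ep - c • vOp p Ep ∈ MFun (Gamma0 p) k :=
    Submodule.sub_mem _ (MFun_mono le_top hEp) (Submodule.smul_mem _ _ hV)
  have Hg : HasQExp 1 (Ep - c • vOp p Ep) (P - c • twist P p 1) := HP.sub (HV.smul c)
  have hgw : wOp p k (Ep - c • vOp p Ep) = c • vOp p Ep - c • Ep := by
    rw [wOp_sub, wOp_smul, wOp_levelOne p hS, wOp_vOp_levelOne p hev hS]
  have Hgw : HasQExp 1 (wOp p k (Ep - c • vOp p Ep)) (c • twist P p 1 - c • P) := by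
    rw [hgw]
    exact (HV.smul c).sub (HP.smul c)
  -- valuations
  have hP1 : LeV v (v (p : ℂ)) (P - 1) := leV_E_sub_one p hp5 hk hv
  have hT1 : LeV v (v (p : ℂ)) (twist P p 1 - 1) := hP1.twist_one_sub_one hp.pos
  have hTint : LeV v 1 (twist P p 1) := by
    have := (hT1.mono hv.le).add LeV.one
    rwa [sub_add_cancel] at this
  have hvc : v c ≤ v (p : ℂ) := by
    rw [hc, hkdef, zpow_natCast, map_pow]
    calc v (p : ℂ) ^ (p - 1) ≤ v (p : ℂ) ^ 1 := pow_le_pow_right_of_le_one' hv.le (by omega)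
      _ = v (p : ℂ) := pow_one _
  have hPg1 : LeV v (v (p : ℂ)) ((P - c • twist P p 1) - 1) := by
    have h1 : LeV v (v c * 1) (c • twist P p 1) := hTint.smul c
    rw [mul_one] at h1
    have := hP1.sub (h1.mono hvc)
    have e : P - c • twist P p 1 - 1 = P - 1 - c • twist P p 1 := by ring
    rwa [e]
  have hPgint : LeV v 1 (P - c • twist P p 1) := by
    have := (hPg1.mono hv.le).add LeV.one
    rwa [sub_add_cancel] at this
  have hPgw : LeV v (v c * v (p : ℂ)) (c • twist P p 1 - c • P) := by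
    have := (hT1.sub hP1).smul c
    have e : c • (twist P p 1 - 1 - (P - 1)) = c • twist P p 1 - c • P := by
      rw [← smul_sub]
      congr 1
      ring
    rwa [e] at this
  -- the trace
  have hGg : G' * (Ep - c • vOp p Ep) ∈ MFun (Gamma0 p) (2 + k) := mul_mem_MFun hG hg
  have hf := trOp_mem p hGg
  have HGgw : HasQExp 1 (wOp p (2 + k) (G' * (Ep - c • vOp p Ep)))
      (B * (c • twist P p 1 - c • P)) := by
    rw [wOp_mul]
    exact hB.mul Hgw one_pos
  have Hf := hasQExp_trOp p (hA.mul Hg one_pos) HGgw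
  have hw : (2 : ℤ) + k = (p : ℤ) + 1 := by
    rw [hkdef, Nat.cast_sub hp.one_lt.le]
    push_cast
    ring
  refine levelOne_not_cong_one p hp5 hv (MFun_cast hw hf) Hf ?_
  have e : A * (P - c • twist P p 1) +
      (p : ℂ) ^ (1 - (2 + k)) • uSer p (B * (c • twist P p 1 - c • P)) - 1 =
      (A - 1) * (P - c • twist P p 1) + ((P - c • twist P p 1) - 1) +
      (p : ℂ) ^ (1 - (2 + k)) • uSer p (B * (c • twist P p 1 - c • P)) := by ring
  rw [e]
  refine (LeV.add ?_ hPg1).add ?_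
  · have : LeV v (v (p : ℂ) * 1) ((A - 1) * (P - c • twist P p 1)) := LeV.mul hA1 hPgint
    rwa [mul_one] at this
  · have h1 := ((hB1.mul hPgw).uSer_atP p).smul ((p : ℂ) ^ (1 - (2 + k)))
    have h2 : v ((p : ℂ) ^ (1 - (2 + k))) * (v (p : ℂ) * (v c * v (p : ℂ))) = v (p : ℂ) := by
      rw [← map_mul, ← map_mul, ← map_mul]
      congr 1
      rw [hc]
      have : (p : ℂ) ^ (1 - (2 + k)) * ((p : ℂ) * ((p : ℂ) ^ k * (p : ℂ))) =
          (p : ℂ) ^ (1 - (2 + k) + (1 + (k + 1))) := by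
        rw [zpow_add₀ hp0, zpow_add₀ hp0 1, zpow_add₀ hp0 k, zpow_one]
      rw [this, show 1 - (2 + k) + (1 + (k + 1)) = 1 by ring, zpow_one]
    rwa [h2] at h1

end

end Fermat.Agent.S16Aux
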