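import Mathlib
import Fermat.Agent.S16.WOp
import Fermat.Agent.S16.HeckeQ
import Fermat.Prelude.Def_ModularForm_HeckeOperatorForms

set_option autoImplicit false

/-!
# S16 (U6): the Hecke operators `T_q` at function level, and `T_q` commutes with the Fricke operator
-/

open UpperHalfPlane ModularForm Filter
open Fermat.Agent.S23Aux Fermat.Agent.DimAux
open scoped Manifold MatrixGroups Real

namespace Fermat.Agent.S16Aux

noncomputable section

/-- The action of `T_q` on `q`-expansions (weight `k`, `q ∤` level); same as `tSer`. -/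
def Tser (k : ℤ) (q : ℕ) (A : PowerSeries ℂ) : PowerSeries ℂ :=
  PowerSeries.mk fun n => A.coeff (q * n) + if q ∣ n then (q : ℂ) ^ (k - 1) * A.coeff (n / q) else 0

theorem coeff_Tser (k : ℤ) (q : ℕ) (A : PowerSeries ℂ) (n : ℕ) :
    (Tser k q A).coeff n =
      A.coeff (q * n) + if q ∣ n then (q : ℂ) ^ (k - 1) * A.coeff (n / q) else 0 := by
  rw [Tser, PowerSeries.coeff_mk]

theorem Tser_eq_tSer (k : ℤ) (q : ℕ) (A : PowerSeries ℂ) : Tser k q A = tSer k q A := by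
  ext n
  rw [coeff_Tser, coeff_tSer, mul_comm]

theorem heckeT_mem_MFun (N : ℕ) [NeZero N] {q : ℕ} (hq : q.Prime) (hqN : ¬ q ∣ N) {k : ℤ}
    {f : ℍ → ℂ} (hf : f ∈ MFun (CongruenceSubgroup.Gamma0 N) k) :
    heckeT k q f ∈ MFun (CongruenceSubgroup.Gamma0 N) k :=
  coe_mem_MFun (ModularForm.heckeTLin k hq hqN (toMF hf))

theorem heckeT_mem_SFun (N : ℕ) [NeZero N] {q : ℕ} (hq : q.Prime) (hqN : ¬ q ∣ N) {k : ℤ}
    {f : ℍ → ℂ} (hf : f ∈ SFun (CongruenceSubgroup.Gamma0 N) k) :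
    heckeT k q f ∈ SFun (CongruenceSubgroup.Gamma0 N) k :=
  coe_mem_SFun (CuspForm.heckeTLin k hq hqN (toCF hf))

/-- `hasQExp_heckeT` (file `HeckeQ`) in terms of `Tser`. -/
theorem hasQExp_heckeT_Tser {q : ℕ} (hq : q ≠ 0) {k : ℤ} {f : ℍ → ℂ} {A : PowerSeries ℂ}
    (hA : HasQExp 1 f A) : HasQExp 1 (heckeT k q f) (Tser k q A) := by
  rw [Tser_eq_tSer]
  exact hasQExp_heckeT hA k hq

theorem val_wN (N : ℕ) [NeZero N] :
    ((wN N : GL (Fin 2) ℝ) : Matrix (Fin 2) (Fin 2) ℝ) = !![0, -1; (N : ℝ), 0] := by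
  ext i j
  fin_cases i <;> fin_cases j <;>
    simp [wN, ModularGroup.S, gN, upperT, Matrix.GeneralLinearGroup.mkOfDetNeZero,
      Matrix.mul_apply, Fin.sum_univ_two]

theorem heckeMatrix_zero_mul_wN (N : ℕ) [NeZero N] {q : ℕ} (hq : q ≠ 0) :
    heckeMatrix q 0 * wN N = wN N * heckeDiagMatrix q := by
  apply Units.ext
  rw [Units.val_mul, Units.val_mul, val_wN, val_heckeMatrix hq, val_heckeDiagMatrix hq]
  ext i j
  fin_cases i <;> fin_cases j <;> simp [Matrix.mul_apply, Fin.sum_univ_two, mul_comm]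

theorem heckeDiagMatrix_mul_wN (N : ℕ) [NeZero N] {q : ℕ} (hq : q ≠ 0) :
    heckeDiagMatrix q * wN N = wN N * heckeMatrix q 0 := by
  apply Units.ext
  rw [Units.val_mul, Units.val_mul, val_wN, val_heckeMatrix hq, val_heckeDiagMatrix hq]
  ext i j
  fin_cases i <;> fin_cases j <;> simp [Matrix.mul_apply, Fin.sum_univ_two, mul_comm]

/-- `M_j W = γ W M_{j'}` with `γ ∈ Γ₀(N)` when `N j j' + 1 = q c`. -/
theorem heckeMatrix_mul_wN (N : ℕ) [NeZero N] {q : ℕ} (hq : q ≠ 0) (j j' : ℕ) (c : ℤ)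
    (h : (N : ℤ) * j * j' + 1 = q * c) :
    ∃ γ ∈ CongruenceSubgroup.Gamma0 N,
      heckeMatrix q j * wN N = (γ : GL (Fin 2) ℝ) * (wN N * heckeMatrix q j') := by
  refine ⟨⟨!![c, j; (N : ℤ) * j', q], ?_⟩, ?_, ?_⟩
  · rw [Matrix.det_fin_two_of]
    linear_combination (-1 : ℤ) * h
  · rw [CongruenceSubgroup.Gamma0_mem, ZMod.intCast_zmod_eq_zero_iff_dvd]
    simp
  · apply Units.ext
    have h' : (N : ℝ) * j * j' + 1 = q * c := by exact_mod_cast h
    rw [Units.val_mul, Units.val_mul, Units.val_mul, val_wN, val_heckeMatrix hq,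
      val_heckeMatrix hq]
    ext a b
    fin_cases a <;> fin_cases b <;> simp [Matrix.mul_apply, Fin.sum_univ_two]
    · linear_combination (-1 : ℝ) * h'
    · ring

/-- the involution `j ↦ j'` on `{1, …, q-1}` with `N j j' ≡ -1 mod q`. -/
def wInv (N q j : ℕ) : ℕ := (-((N : ZMod q) * (j : ZMod q))⁻¹).val

theorem wInv_spec (N : ℕ) {q : ℕ} (hq : q.Prime) (hqN : ¬ q ∣ N) {j : ℕ} (hj : ¬ q ∣ j) :
    wInv N q j < q ∧ ¬ q ∣ wInv N q j ∧ (∃ c : ℤ, (N : ℤ) * j * wInv N q j + 1 = q * c) ∧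
      wInv N q (wInv N q j) = j % q := by
  have : Fact q.Prime := ⟨hq⟩
  have hN : (N : ZMod q) ≠ 0 := by rwa [Ne, ZMod.natCast_eq_zero_iff]
  have hj' : (j : ZMod q) ≠ 0 := by rwa [Ne, ZMod.natCast_eq_zero_iff]
  have hc : ((wInv N q j : ℕ) : ZMod q) = -((N : ZMod q) * (j : ZMod q))⁻¹ := by
    rw [wInv, ZMod.natCast_zmod_val]
  refine ⟨ZMod.val_lt _, ?_, ?_, ?_⟩
  · rw [← ZMod.natCast_eq_zero_iff, hc, neg_eq_zero, inv_eq_zero]
    exact mul_ne_zero hN hj'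
  · have : ((q : ℤ)) ∣ (N : ℤ) * j * wInv N q j + 1 := by
      rw [← ZMod.intCast_zmod_eq_zero_iff_dvd]
      push_cast
      rw [hc]
      field_simp
      ring
    exact this
  · conv_lhs => rw [wInv, hc]
    rw [← ZMod.val_natCast]
    congr 1
    field_simp

theorem wOp_heckeT (N : ℕ) [NeZero N] {q : ℕ} (hq : q.Prime) (hqN : ¬ q ∣ N) {k : ℤ} {f : ℍ → ℂ}
    (hf : ∀ g ∈ CongruenceSubgroup.Gamma0 N, f ∣[k] g = f) :
    wOp N k (heckeT k q f) = heckeT k q (wOp N k f) := by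
  have hq0 : q ≠ 0 := hq.ne_zero
  rw [wOp, wOp, heckeT_smul, heckeT_def, heckeT_def, SlashAction.add_slash, SlashAction.sum_slash]
  congr 1
  simp only [← SlashAction.slash_mul]
  rw [← Finset.insert_erase (Finset.mem_range.mpr hq.pos), Finset.sum_insert (Finset.notMem_erase _ _),
    Finset.sum_insert (Finset.notMem_erase _ _), heckeMatrix_zero_mul_wN N hq0,
    heckeDiagMatrix_mul_wN N hq0]
  have key : ∑ j ∈ (Finset.range q).erase 0, f ∣[k] (heckeMatrix q j * wN N) =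
      ∑ j ∈ (Finset.range q).erase 0, f ∣[k] (wN N * heckeMatrix q j) := by
    have hnd : ∀ j ∈ (Finset.range q).erase 0, ¬ q ∣ j := by
      intro j hj
      rw [Finset.mem_erase, Finset.mem_range] at hj
      exact Nat.not_dvd_of_pos_of_lt (Nat.pos_of_ne_zero hj.1) hj.2
    refine Finset.sum_bij' (fun j _ => wInv N q j) (fun j _ => wInv N q j) ?_ ?_ ?_ ?_ ?_
    · intro j hj
      obtain ⟨h1, h2, -, -⟩ := wInv_spec N hq hqN (hnd j hj)
      rw [Finset.mem_erase, Finset.mem_range]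
      exact ⟨fun h0 => h2 (h0 ▸ dvd_zero q), h1⟩
    · intro j hj
      obtain ⟨h1, h2, -, -⟩ := wInv_spec N hq hqN (hnd j hj)
      rw [Finset.mem_erase, Finset.mem_range]
      exact ⟨fun h0 => h2 (h0 ▸ dvd_zero q), h1⟩
    · intro j hj
      obtain ⟨-, -, -, h4⟩ := wInv_spec N hq hqN (hnd j hj)
      rw [Finset.mem_erase, Finset.mem_range] at hj
      rw [h4, Nat.mod_eq_of_lt hj.2]
    · intro j hj
      obtain ⟨-, -, -, h4⟩ := wInv_spec N hq hqN (hnd j hj)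
      rw [Finset.mem_erase, Finset.mem_range] at hj
      rw [h4, Nat.mod_eq_of_lt hj.2]
    · intro j hj
      obtain ⟨-, -, ⟨c, hc⟩, -⟩ := wInv_spec N hq hqN (hnd j hj)
      obtain ⟨γ, hγ, h⟩ := heckeMatrix_mul_wN N hq0 j (wInv N q j) c hc
      rw [h, SlashAction.slash_mul, ← SL_slash, hf γ hγ]
  rw [key]
  abel

/-- `T_q` commutes with the Fricke operator on `M_k(Γ₀(N))`, `q ∤ N`. -/
theorem wOp_heckeT_of_mem (N : ℕ) [NeZero N] {q : ℕ} (hq : q.Prime) (hqN : ¬ q ∣ N) {k : ℤ}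
    {f : ℍ → ℂ} (hf : f ∈ MFun (CongruenceSubgroup.Gamma0 N) k) :
    wOp N k (heckeT k q f) = heckeT k q (wOp N k f) :=
  wOp_heckeT N hq hqN hf.2.1

end

end Fermat.Agent.S16Aux
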