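/-
S16 helper library (U4): the norm lemma.
-/
import Fermat.Agent.S16.Sturm1
import Fermat.Agent.Lib.Dim_Count
import Fermat.Agent.Lib.S23_QExp
import Fermat.Agent.S16.WOp

set_option autoImplicit false
set_option linter.style.haveILetI false

namespace Fermat.Agent.S16Aux

open UpperHalfPlane ModularForm CongruenceSubgroup PowerSeries
open scoped Manifold MatrixGroups
open Fermat.Agent.S23Aux Fermat.Agent.DimAux

local notation "𝕢" => Function.Periodic.qParam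

variable {Γ₀ : Type*} [LinearOrderedCommGroupWithZero Γ₀] {v : Valuation ℂ Γ₀}

/-! ### Products of conjugates -/

theorem prod_slash_SL {ι : Type*} (s : Finset ι) (F : ι → ℍ → ℂ) (k : ℤ) (γ : SL(2, ℤ)) :
    (∏ i ∈ s, F i) ∣[k * s.card] γ = ∏ i ∈ s, (F i ∣[k] γ) := by
  classical
  induction s using Finset.induction_on with
  | empty =>
    simp only [Finset.prod_empty, Finset.card_empty, Nat.cast_zero, mul_zero]
    exact (one_mem_MFun (Γ := ⊤)).2.1 γ (Subgroup.mem_top _)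
  | insert a s ha ih =>
    rw [Finset.prod_insert ha, Finset.prod_insert ha, Finset.card_insert_of_notMem ha, ← ih,
      ← mul_slash_SL2]
    congr 1
    push_cast
    ring

theorem isBoundedAtImInfty_prod {ι : Type*} (s : Finset ι) (F : ι → ℍ → ℂ)
    (h : ∀ i ∈ s, IsBoundedAtImInfty (F i)) : IsBoundedAtImInfty (∏ i ∈ s, F i) := by
  classical
  induction s using Finset.induction_on with
  | empty => simpa using bdd_of_mem (one_mem_MFun (Γ := ⊤))
  | insert a s ha ih =>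
    rw [Finset.prod_insert ha]
    exact (h a (Finset.mem_insert_self a s)).mul
      (ih fun i hi => h i (Finset.mem_insert_of_mem hi))

theorem mdiff_prod {ι : Type*} (s : Finset ι) (F : ι → ℍ → ℂ)
    (h : ∀ i ∈ s, MDiff (F i)) : MDiff (∏ i ∈ s, F i) := by
  classical
  induction s using Finset.induction_on with
  | empty => simpa using (one_mem_MFun (Γ := ⊤)).1
  | insert a s ha ih =>
    rw [Finset.prod_insert ha]
    exact (h a (Finset.mem_insert_self a s)).mul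
      (ih fun i hi => h i (Finset.mem_insert_of_mem hi))

/-- the norm of a modular form is a modular form of level one -/
theorem prod_cj_mem {Γ : Subgroup SL(2, ℤ)} [Fintype (SL(2, ℤ) ⧸ Γ)] {k : ℤ} {f : ℍ → ℂ}
    (hf : f ∈ MFun Γ k) :
    ∏ s : SL(2, ℤ) ⧸ Γ, cj Γ k f s ∈ MFun ⊤ (k * Fintype.card (SL(2, ℤ) ⧸ Γ)) := by
  have hinv : ∀ γ : SL(2, ℤ), (∏ s : SL(2, ℤ) ⧸ Γ, cj Γ k f s) ∣[k * Fintype.card (SL(2, ℤ) ⧸ Γ)] γ
      = ∏ s : SL(2, ℤ) ⧸ Γ, cj Γ k f s := by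
    intro γ
    rw [← Finset.card_univ, prod_slash_SL]
    simp only [cj_slash hf.2.1]
    exact Equiv.prod_comp (MulAction.toPerm γ⁻¹) (fun s => cj Γ k f s)
  refine ⟨mdiff_prod _ _ fun s _ => cj_mdiff hf s, fun γ _ => hinv γ, fun γ => ?_⟩
  rw [hinv]
  exact isBoundedAtImInfty_prod _ _ fun s _ => cj_bdd hf s

/-! ### Cosets of `Γ₀(p)` -/

/-- every element of `SL(2,ℤ)` outside `Γ₀(p)` is in `Γ₀(p) S T^j` -/
theorem exists_eq_mul_S_T {p : ℕ} [Fact p.Prime] (g : SL(2, ℤ)) (hg : g ∉ Gamma0 p) :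
    ∃ δ ∈ Gamma0 p, ∃ j : ℤ, g = δ * (ModularGroup.S * ModularGroup.T ^ j) := by
  have hc : ¬ (p : ℤ) ∣ g 1 0 := by
    intro h
    apply hg
    rw [Gamma0_mem, ZMod.intCast_zmod_eq_zero_iff_dvd]
    exact h
  have hp : Prime (p : ℤ) := Nat.prime_iff_prime_int.1 Fact.out
  obtain ⟨x, y, hxy⟩ : IsCoprime (g 1 0) (p : ℤ) := ((hp.coprime_iff_not_dvd).2 hc).symm
  -- `j = d * c⁻¹`
  have key : ∀ j : ℤ, (g * (ModularGroup.S * ModularGroup.T ^ j)⁻¹) 1 0 = j * g 1 0 - g 1 1 := by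
    intro j
    rw [mul_inv_rev, ← zpow_neg, ModularGroup.S_inv]
    simp [Matrix.SpecialLinearGroup.coe_mul, ModularGroup.coe_T_zpow, ModularGroup.coe_S,
      Matrix.mul_apply, Fin.sum_univ_two]
    ring
  refine ⟨g * (ModularGroup.S * ModularGroup.T ^ (g 1 1 * x))⁻¹, ?_, g 1 1 * x, by group⟩
  rw [Gamma0_mem, ZMod.intCast_zmod_eq_zero_iff_dvd, key]
  exact ⟨-(g 1 1 * y), by linear_combination (g 1 1) * hxy⟩

theorem cj_eq_of_mem {p : ℕ} {k : ℤ} {f : ℍ → ℂ} (hf : ∀ g ∈ Gamma0 p, f ∣[k] g = f)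
    (s : SL(2, ℤ) ⧸ Gamma0 p) (hs : s = ((1 : SL(2, ℤ)) : SL(2, ℤ) ⧸ Gamma0 p)) :
    cj (Gamma0 p) k f s = f := by
  rw [hs, cj_one hf]

theorem cj_eq_slash_S_T {p : ℕ} [Fact p.Prime] {k : ℤ} {f : ℍ → ℂ}
    (hf : ∀ g ∈ Gamma0 p, f ∣[k] g = f)
    (s : SL(2, ℤ) ⧸ Gamma0 p) (hs : s ≠ ((1 : SL(2, ℤ)) : SL(2, ℤ) ⧸ Gamma0 p)) :
    ∃ j : ℤ, cj (Gamma0 p) k f s = f ∣[k] (ModularGroup.S * ModularGroup.T ^ j) := by
  induction s using QuotientGroup.induction_on with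
  | H g =>
    have hg : g⁻¹ ∉ Gamma0 p := by
      intro h
      apply hs
      rw [eq_comm, QuotientGroup.eq]
      simpa using (Gamma0 p).inv_mem h
    obtain ⟨δ, hδ, j, hj⟩ := exists_eq_mul_S_T g⁻¹ hg
    exact ⟨j, by rw [cj_mk hf, hj, SlashAction.slash_mul, hf δ hδ]⟩

/-! ### Expansions -/

theorem qParam_pow_eq (N : ℕ) [NeZero N] (τ : ℍ) : 𝕢 (N : ℝ) (τ : ℂ) ^ N = 𝕢 1 (τ : ℂ) := by
  have hN : (N : ℂ) ≠ 0 := by exact_mod_cast NeZero.ne N
  simp only [Function.Periodic.qParam, ← Complex.exp_nat_mul]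
  congr 1
  push_cast
  field_simp

/-- change of the period -/
theorem hasQExp_to_period {G : ℍ → ℂ} {P : PowerSeries ℂ} (H : HasQExp 1 G P) (N : ℕ) [NeZero N] :
    HasQExp (N : ℝ) G (twist P N 1) :=
  ⟨H.mdiff, fun τ => hasSum_twist (Nat.pos_of_ne_zero (NeZero.ne N)) (by
    rw [one_mul, qParam_pow_eq]
    exact H.hasSum τ)⟩

theorem hasQExp_one_period {h : ℝ} (hh : 0 < h) : HasQExp h (1 : ℍ → ℂ) 1 := by
  have h1 : HasQExp h (1 : ℍ → ℂ) (qExpansion h (1 : ℍ → ℂ)) :=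
    HasQExp.of_periodic hh (fun _ => rfl) mdifferentiable_const
      (Filter.const_boundedAtFilter _ 1)
  rwa [qExpansion_one] at h1

theorem hasQExp_prod_period {h : ℝ} (hh : 0 < h) {ι : Type*} (s : Finset ι) (f : ι → ℍ → ℂ)
    (P : ι → PowerSeries ℂ) (H : ∀ i ∈ s, HasQExp h (f i) (P i)) :
    HasQExp h (∏ i ∈ s, f i) (∏ i ∈ s, P i) := by
  classical
  induction s using Finset.induction_on with
  | empty => simpa using hasQExp_one_period hh
  | insert a s ha ih =>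
    rw [Finset.prod_insert ha, Finset.prod_insert ha]
    exact (H a (Finset.mem_insert_self a s)).mul
      (ih fun i hi => H i (Finset.mem_insert_of_mem hi)) hh

theorem OrdV.twist_one {P : PowerSeries ℂ} {a : ℕ} (h : OrdV v P a) {ζ : ℂ} (hζ : v ζ = 1) :
    OrdV v (twist P 1 ζ) a := by
  have hc : ∀ n, v (coeff n (twist P 1 ζ)) = v (coeff n P) := by
    intro n
    rw [coeff_twist, if_pos (one_dvd n), Nat.div_one, map_mul, map_pow, hζ, one_pow, mul_one]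
  exact ⟨fun n => by rw [hc]; exact h.int n, fun i hi => by rw [hc]; exact h.lt i hi, by
    rw [hc]; exact h.eq⟩

theorem OrdV.twistE {P : PowerSeries ℂ} {a : ℕ} (h : OrdV v P a) {e : ℕ} (he : 0 < e) :
    OrdV v (twist P e 1) (e * a) := by
  refine ⟨fun n => ?_, fun i hi => ?_, ?_⟩
  · rw [coeff_twist]
    split_ifs
    · simpa using h.int _
    · simp
  · rw [coeff_twist]
    split_ifs with hd
    · obtain ⟨m, rfl⟩ := hd
      rw [Nat.mul_div_cancel_left m he]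
      simpa using h.lt m (Nat.lt_of_mul_lt_mul_left hi)
    · simp
  · rw [coeff_twist_mul P he]
    simpa using h.eq

theorem OrdV.of_twist {P : PowerSeries ℂ} {a e : ℕ} (he : 0 < e) (h : OrdV v (twist P e 1) (e * a)) :
    OrdV v P a := by
  have hc : ∀ n, coeff n P = coeff (e * n) (twist P e 1) := by
    intro n
    rw [coeff_twist_mul P he]; simp
  exact ⟨fun n => by rw [hc]; exact h.int _, fun i hi => by
    rw [hc]; exact h.lt _ (Nat.mul_lt_mul_of_pos_left hi he), by rw [hc]; exact h.eq⟩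

theorem card_cosets_Gamma0_prime (p : ℕ) [Fact p.Prime] [Fintype (SL(2, ℤ) ⧸ Gamma0 p)] :
    Fintype.card (SL(2, ℤ) ⧸ Gamma0 p) = p + 1 := by
  haveI : NeZero p := ⟨(Fact.out : p.Prime).ne_zero⟩
  rw [← Nat.card_eq_fintype_card, card_X, ModularCurve.dedekindPsi,
    (Fact.out : p.Prime).divisors, Finset.filter_true_of_mem, Finset.sum_pair
      (Fact.out : p.Prime).one_lt.ne, Nat.div_one, Nat.div_self (Fact.out : p.Prime).pos]
  intro d hd
  rcases Finset.mem_insert.1 hd with rfl | hd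
  · exact squarefree_one
  · rw [Finset.mem_singleton.1 hd]
    exact (Fact.out : p.Prime).squarefree

/-- (U4) the norm lemma, abstract form: `B` is (up to units) the expansion of all `f ∣ S T^j` -/
theorem norm_lemma_aux {p : ℕ} [Fact p.Prime] {k : ℤ} {f : ℍ → ℂ} (hf : f ∈ MFun (Gamma0 p) k)
    {A B : PowerSeries ℂ} (hA : HasQExp 1 f A)
    (hB : ∀ j : ℤ, ∃ c ζ : ℂ, v c = 1 ∧ v ζ = 1 ∧
      HasQExp (p : ℝ) (f ∣[k] (ModularGroup.S * ModularGroup.T ^ j)) (c • twist B 1 ζ))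
    {a b : ℕ} (ha : OrdV v A a) (hb : OrdV v B b) : ((a + b : ℕ) : ℤ) ≤ k * (p + 1) / 12 := by
  classical
  haveI : NeZero p := ⟨(Fact.out : p.Prime).ne_zero⟩
  have hp0 : 0 < p := (Fact.out : p.Prime).pos
  have hpR : (0 : ℝ) < (p : ℝ) := by exact_mod_cast hp0
  letI : Fintype (SL(2, ℤ) ⧸ Gamma0 p) := Fintype.ofFinite _
  set x0 : SL(2, ℤ) ⧸ Gamma0 p := ((1 : SL(2, ℤ)) : SL(2, ℤ) ⧸ Gamma0 p) with hx0
  have hex : ∀ s : SL(2, ℤ) ⧸ Gamma0 p, ∃ P : PowerSeries ℂ,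
      HasQExp (p : ℝ) (cj (Gamma0 p) k f s) P ∧ OrdV v P (if s = x0 then p * a else b) := by
    intro s
    by_cases hs : s = x0
    · rw [if_pos hs, cj_eq_of_mem hf.2.1 s hs]
      exact ⟨_, hasQExp_to_period hA p, ha.twistE hp0⟩
    · rw [if_neg hs]
      obtain ⟨j, hj⟩ := cj_eq_slash_S_T hf.2.1 s hs
      obtain ⟨c, ζ, hc, hζ, hq⟩ := hB j
      rw [hj]
      exact ⟨_, hq, (hb.twist_one hζ).smul hc⟩
  choose P hP hPo using hex
  have hN := prod_cj_mem hf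
  have h1 := hasQExp_prod_period hpR Finset.univ _ P fun s _ => hP s
  have h2 : HasQExp 1 (∏ s : SL(2, ℤ) ⧸ Gamma0 p, cj (Gamma0 p) k f s)
      (qExpansion 1 (∏ s : SL(2, ℤ) ⧸ Gamma0 p, cj (Gamma0 p) k f s)) :=
    HasQExp.of_periodic one_pos (by exact_mod_cast RFun_periodic hN) hN.1 (bdd_of_mem hN)
  have h3 := (hasQExp_to_period h2 p).qExpansion_eq hpR
  rw [h1.qExpansion_eq hpR] at h3
  have h4 := OrdV.prod Finset.univ P _ fun s _ => hPo s
  have hsum : ∑ s : SL(2, ℤ) ⧸ Gamma0 p, (if s = x0 then p * a else b) = p * (a + b) := by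
    rw [← Finset.add_sum_erase _ _ (Finset.mem_univ x0), if_pos rfl,
      Finset.sum_congr rfl (fun s hs => if_neg (Finset.ne_of_mem_erase hs)), Finset.sum_const,
      Finset.card_erase_of_mem (Finset.mem_univ x0), Finset.card_univ, card_cosets_Gamma0_prime]
    simp
    ring
  rw [hsum, h3] at h4
  have h5 := (OrdV.of_twist hp0 h4).le_of_levelOne hN
  rw [card_cosets_Gamma0_prime] at h5
  exact_mod_cast h5

/-- (U4) the norm lemma -/
theorem norm_lemma {p : ℕ} [Fact p.Prime] (hvp : v (p : ℂ) = 1) {k : ℤ} {f : ℍ → ℂ}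
    (hf : f ∈ MFun (Gamma0 p) k) {A B : PowerSeries ℂ} (hA : HasQExp 1 f A)
    (hB : HasQExp 1 (wOp p k f) B)
    {a b : ℕ} (ha : OrdV v A a) (hb : OrdV v B b) : ((a + b : ℕ) : ℤ) ≤ k * (p + 1) / 12 := by
  refine norm_lemma_aux hf hA (fun j => ⟨_, _, ?_, ?_, hasQExp_slash_S_mul_T_zpow p hB j⟩) ha hb
  · rw [map_zpow₀, hvp, one_zpow]
  · apply val_eq_one_of_pow_eq_one (NeZero.ne p)
    rw [← Complex.exp_nat_mul, Complex.exp_eq_one_iff]
    refine ⟨j, ?_⟩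
    have hp : (p : ℂ) ≠ 0 := by exact_mod_cast NeZero.ne p
    field_simp

end Fermat.Agent.S16Aux
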