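/-
S16 helper library (U7): Lemma Q (a form on `Γ₀(p)` whose `w`-transform vanishes mod `𝔪` vanishes
mod `𝔪`).
-/
import Fermat.Agent.S16.Norm
import Fermat.Agent.S16.Trace

set_option autoImplicit false

namespace Fermat.Agent.S16Aux

open UpperHalfPlane ModularForm CongruenceSubgroup PowerSeries
open scoped Manifold MatrixGroups
open Fermat.Agent.S23Aux Fermat.Agent.DimAux

variable {Γ₀ : Type*} [LinearOrderedCommGroupWithZero Γ₀] {v : Valuation ℂ Γ₀}

theorem vOp_eq_raiseFun (N : ℕ) [NeZero N] {k : ℤ} (G : ModularForm 𝒮ℒ k) :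
    vOp N G = raiseFun N G := vOp_eq N k G

theorem vOp_mem_MFun (N : ℕ) [NeZero N] {k : ℤ} {g : ℍ → ℂ} (hg : g ∈ MFun ⊤ k) :
    vOp N g ∈ MFun (Gamma0 N) k := by
  have h1 := coe_mem_MFun (levelRaise N (toMF1 hg))
  rw [coe_levelRaise, ← vOp_eq_raiseFun] at h1
  exact h1

theorem hasQExp_vOp (N : ℕ) [NeZero N] {k : ℤ} {g : ℍ → ℂ} (hg : g ∈ MFun ⊤ k) :
    HasQExp 1 (vOp N g) (twist (qExpansion 1 g) N 1) := by
  have h1 := hasQExp_raiseFun N (toMF1 hg) 1 N one_pos (by ring)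
  rw [← vOp_eq_raiseFun] at h1
  simpa using h1

theorem LtV.uSer {P : PowerSeries ℂ} (h : LtV v P) (p : ℕ) : LtV v (uSer p P) := fun n => by
  rw [coeff_uSer]; exact h _

theorem LtV.smul_of_le {P : PowerSeries ℂ} (h : LtV v P) {c : ℂ} (hc : v c ≤ 1) :
    LtV v (c • P) := fun n => by
  rw [coeff_smul, smul_eq_mul, map_mul]
  exact mul_lt_one_of_nonneg_of_lt_one_right hc zero_le (h n)

/-- (U7) Lemma Q -/
theorem lemmaQ {p : ℕ} [Fact p.Prime] (hvp : v (p : ℂ) = 1) {k : ℤ} {Z : ℍ → ℂ}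
    (hZ : Z ∈ MFun (Gamma0 p) k) {A B : PowerSeries ℂ} (hA : HasQExp 1 Z A)
    (hB : HasQExp 1 (wOp p k Z) B) (hAV : LeV v 1 A) (hBm : LtV v B) : LtV v A := by
  by_contra hnot
  obtain ⟨r, hr⟩ := exists_ordV hAV hnot
  have hp2 : 2 ≤ p := (Fact.out : p.Prime).two_le
  have hp0 : 0 < p := (Fact.out : p.Prime).pos
  obtain ⟨m, hm⟩ : ∃ m : ℕ, k / 12 < (m : ℤ) := ⟨(k / 12).toNat + 1, by push_cast; omega⟩
  have hΔ : (discriminant : ℍ → ℂ) ∈ MFun ⊤ 12 := SFun_le_MFun Delta_mem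
  have hΔq : HasQExp 1 (discriminant : ℍ → ℂ) (qExpansion 1 discriminant) := by
    have := hasQExp_levelOne (toMF1 hΔ)
    simpa using this
  -- the auxiliary form
  have hf : Z * vOp p discriminant ^ m ∈ MFun (Gamma0 p) (k + m * 12) :=
    mul_mem_MFun hZ (pow_mem_MFun (vOp_mem_MFun p hΔ) m)
  have hfA := hA.mul ((hasQExp_vOp p hΔ).pow one_pos m) one_pos
  have hw : wOp p (k + m * 12) (Z * vOp p discriminant ^ m) = wOp p k Z * discriminant ^ m := by
    rw [wOp_mul, wOp_pow, wOp_vOp_levelOne p (by decide) (hΔ.2.1 _ (Subgroup.mem_top _))]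
  have hfB : HasQExp 1 (wOp p (k + m * 12) (Z * vOp p discriminant ^ m))
      (B * qExpansion 1 discriminant ^ m) := by
    rw [hw]; exact hB.mul (hΔq.pow one_pos m) one_pos
  have hT := trOp_mem p hf
  have hTq := hasQExp_trOp p hfA hfB
  have ho : OrdV v (A * twist (qExpansion 1 discriminant) p 1 ^ m) (r + m * (p * 1)) :=
    hr.mul ((ordV_discriminant.twistE hp0).pow m)
  have hlt : LtV v ((p : ℂ) ^ (1 - (k + m * 12)) • uSer p (B * qExpansion 1 discriminant ^ m)) := by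
    apply LtV.smul_of_le
    · exact (hBm.mul_right (leV_discriminant.pow m)).uSer p
    · rw [map_zpow₀, hvp, one_zpow]
  have ho2 := ho.add_ltV hlt
  rw [← hTq.qExpansion_eq one_pos] at ho2
  have h5 := ho2.le_of_levelOne hT
  rw [Int.add_mul_ediv_right _ _ (by norm_num)] at h5
  push_cast at h5
  have h6 : (2 : ℤ) * m ≤ m * p := by
    have : (2 : ℤ) ≤ p := by exact_mod_cast hp2
    nlinarith
  have h7 : (0 : ℤ) ≤ r := Int.natCast_nonneg r
  linarith

end Fermat.Agent.S16Aux
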