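/-
S16 helper library (U8): the Hecke trick.
-/
import Fermat.Agent.S16.LemmaQ
import Fermat.Agent.S16.HeckeW
import Fermat.Agent.S16.AtP1

set_option autoImplicit false

namespace Fermat.Agent.S16Aux

namespace HT

open UpperHalfPlane ModularForm CongruenceSubgroup PowerSeries
open scoped Manifold MatrixGroups
open Fermat.Agent.S23Aux Fermat.Agent.DimAux

variable {Γ₀ : Type*} [LinearOrderedCommGroupWithZero Γ₀] {v : Valuation ℂ Γ₀}

theorem tSer_smul_const (k : ℤ) (q : ℕ) (c : ℂ) (A : PowerSeries ℂ) :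
    tSer k q (c • A) = c • tSer k q A := by
  ext n
  simp only [coeff_tSer, coeff_smul, smul_eq_mul]
  split_ifs <;> ring

theorem tSer_sub_tSer (k1 k2 : ℤ) (q : ℕ) (D : PowerSeries ℂ) :
    tSer k1 q D - tSer k2 q D = ((q : ℂ) ^ (k1 - 1) - (q : ℂ) ^ (k2 - 1)) • twist D q 1 := by
  ext n
  rw [map_sub, coeff_tSer, coeff_tSer, coeff_smul, coeff_twist]
  split_ifs
  · simp only [one_pow, mul_one, smul_eq_mul]; ring
  · simp

/-- the formal part of the Hecke trick -/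
theorem ordV_hecke_trick {D Φ : PowerSeries ℂ} {d : ℕ} (hD : OrdV v D d) {q : ℕ} (hq0 : 0 < q)
    (hvq : v (q : ℂ) = 1) (k1 : ℤ) {π c0 : ℂ} (hc0 : v c0 = 1)
    (hπ : v π < v ((q : ℂ) ^ 2 - 1)) (hΦ : LeV v (v π) (Φ - PowerSeries.C c0)) :
    OrdV v (((q : ℂ) ^ (k1 - 1) - (q : ℂ) ^ (k1 + 2 - 1))⁻¹ •
      (Φ * tSer k1 q D - tSer (k1 + 2) q (D * Φ))) (q * d) := by
  have hqC : (q : ℂ) ≠ 0 := by exact_mod_cast hq0.ne'
  have hvqz : ∀ j : ℤ, v ((q : ℂ) ^ j) = 1 := fun j => by rw [map_zpow₀, hvq, one_zpow]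
  set u : ℂ := (q : ℂ) ^ (k1 - 1) - (q : ℂ) ^ (k1 + 2 - 1) with hu
  have hvu : v u = v ((q : ℂ) ^ 2 - 1) := by
    have e1 : u = (q : ℂ) ^ (k1 - 1) * (1 - (q : ℂ) ^ 2) := by
      rw [hu, show k1 + 2 - 1 = (k1 - 1) + 2 by ring, zpow_add₀ hqC, zpow_ofNat]
      ring
    rw [e1, map_mul, hvqz, one_mul, Valuation.map_sub_swap]
  have hvu0 : v u ≠ 0 := fun h => by rw [hvu] at h; rw [h] at hπ; exact not_lt_zero hπ
  have hu0 : u ≠ 0 := (Valuation.ne_zero_iff v).1 hvu0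
  set E : PowerSeries ℂ := Φ - PowerSeries.C c0 with hE
  have hΦE : Φ = c0 • (1 : PowerSeries ℂ) + E := by
    rw [hE, smul_eq_C_mul, mul_one]; ring
  have hdec : Φ * tSer k1 q D - tSer (k1 + 2) q (D * Φ) =
      c0 • (tSer k1 q D - tSer (k1 + 2) q D) +
        (E * tSer k1 q D - tSer (k1 + 2) q (D * E)) := by
    have h1 : D * Φ = c0 • D + D * E := by
      rw [hΦE, mul_add, mul_smul_comm, mul_one]
    rw [h1, tSer_add, tSer_smul_const]
    conv_lhs => rw [hΦE]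
    rw [add_mul, smul_mul_assoc, one_mul, smul_sub]
    ring
  have hR : LeV v (v π) (E * tSer k1 q D - tSer (k1 + 2) q (D * E)) := by
    apply LeV.sub
    · have := hΦ.mul (hD.int.tSer k1 q (hvqz _).le)
      rwa [mul_one] at this
    · have : LeV v (1 * v π) (D * E) := hD.int.mul hΦ
      rw [one_mul] at this
      exact this.tSer _ q (hvqz _).le
  have hR' : LtV v (u⁻¹ • (E * tSer k1 q D - tSer (k1 + 2) q (D * E))) := by
    intro n
    rw [coeff_smul, smul_eq_mul, map_mul, map_inv₀]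
    calc (v u)⁻¹ * v _ ≤ (v u)⁻¹ * v π := mul_le_mul_right (hR n) _
      _ < (v u)⁻¹ * v u := by
        rw [hvu]
        exact (mul_lt_mul_iff_right₀ (zero_lt_iff.2 (inv_ne_zero (hvu ▸ hvu0)))).2 hπ
      _ = 1 := inv_mul_cancel₀ hvu0
  rw [hdec, tSer_sub_tSer, ← hu, smul_add, smul_smul, smul_smul,
    show u⁻¹ * c0 * u = c0 by field_simp]
  exact ((hD.twistE hq0).smul hc0).add_ltV hR'

/-- (U8) the Hecke trick -/
theorem hecke_trick {p q : ℕ} [Fact p.Prime] (hq : q.Prime) (hqp : q ≠ p) (hvp : v (p : ℂ) = 1)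
    (hvq : v (q : ℂ) = 1) {G : ℍ → ℂ} (hG : G ∈ MFun (Gamma0 p) 2) {A B : PowerSeries ℂ}
    (hA : HasQExp 1 G A) (hB : HasQExp 1 (wOp p 2 G) B) {π c : ℂ} (hc : v c = 1)
    (hπ : v π < v ((q : ℂ) ^ 2 - 1)) (hA1 : LeV v (v π) (A - 1))
    (hB1 : LeV v (v π) (B - PowerSeries.C c)) : False := by
  have hp : p.Prime := Fact.out
  have hqp' : ¬ q ∣ p := fun h => hqp ((Nat.prime_dvd_prime_iff_eq hq hp).1 h)
  have hΔ1 : (discriminant : ℍ → ℂ) ∈ MFun ⊤ 12 := SFun_le_MFun Delta_mem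
  have hΔ : (discriminant : ℍ → ℂ) ∈ MFun (Gamma0 p) 12 := MFun_mono le_top hΔ1
  have HΔ : HasQExp 1 (discriminant : ℍ → ℂ) (qExpansion 1 discriminant) := hasQExp_of_mem_top hΔ1
  set u : ℂ := (q : ℂ) ^ ((12 : ℤ) - 1) - (q : ℂ) ^ ((12 : ℤ) + 2 - 1) with hu
  -- the form `X`
  have hX1 : G * heckeT 12 q discriminant ∈ MFun (Gamma0 p) 14 :=
    MFun_cast (by norm_num) (mul_mem_MFun hG (heckeT_mem_MFun p hq hqp' hΔ))
  have hΔG : (discriminant : ℍ → ℂ) * G ∈ MFun (Gamma0 p) 14 :=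
    MFun_cast (by norm_num) (mul_mem_MFun hΔ hG)
  have hX2 : heckeT 14 q ((discriminant : ℍ → ℂ) * G) ∈ MFun (Gamma0 p) 14 :=
    heckeT_mem_MFun p hq hqp' hΔG
  have hX := Submodule.smul_mem _ u⁻¹ (Submodule.sub_mem _ hX1 hX2)
  have HX := ((hA.mul (hasQExp_heckeT HΔ 12 hq.ne_zero) one_pos).sub
      (hasQExp_heckeT (HΔ.mul hA one_pos) 14 hq.ne_zero)).smul u⁻¹
  -- its `w`-transform
  have hw1 : wOp p 14 (G * heckeT 12 q discriminant) =
      wOp p 2 G * heckeT 12 q (wOp p 12 discriminant) := by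
    have := wOp_mul p 2 12 G (heckeT 12 q discriminant)
    rw [show (2 : ℤ) + 12 = 14 by norm_num] at this
    rw [this, wOp_heckeT_of_mem p hq hqp' hΔ]
  have hw2 : wOp p 14 (heckeT 14 q ((discriminant : ℍ → ℂ) * G)) =
      heckeT 14 q (wOp p 12 discriminant * wOp p 2 G) := by
    have := wOp_mul p 12 2 discriminant G
    rw [show (12 : ℤ) + 2 = 14 by norm_num] at this
    rw [wOp_heckeT_of_mem p hq hqp' hΔG, this]
  have HΔw : HasQExp 1 (wOp p 12 discriminant)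
      ((p : ℂ) ^ (12 : ℤ) • twist (qExpansion 1 discriminant) p 1) := by
    rw [wOp_levelOne p (hΔ1.2.1 _ (Subgroup.mem_top _))]
    exact (hasQExp_vOp p hΔ1).smul _
  have HXw := ((hB.mul (hasQExp_heckeT HΔw 12 hq.ne_zero) one_pos).sub
      (hasQExp_heckeT (HΔw.mul hB one_pos) 14 hq.ne_zero)).smul u⁻¹
  rw [← hw1, ← hw2, ← wOp_sub, ← wOp_smul] at HXw
  -- orders
  have hA1' : LeV v (v π) (A - PowerSeries.C 1) := by simpa using hA1
  have ho1 := ordV_hecke_trick (ordV_discriminant (v := v)) hq.pos hvq 12 (map_one v) hπ hA1'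
  have hD1 : OrdV v ((p : ℂ) ^ (12 : ℤ) • twist (qExpansion 1 discriminant) p 1) (p * 1) :=
    ((ordV_discriminant (v := v)).twistE hp.pos).smul (by rw [map_zpow₀, hvp, one_zpow])
  have ho2 := ordV_hecke_trick hD1 hq.pos hvq 12 hc hπ hB1
  have h := norm_lemma hvp hX HX HXw ho1 ho2
  have h2 : 2 * (p + 1) ≤ q * 1 + q * (p * 1) := by
    have := Nat.mul_le_mul_right (p + 1) hq.two_le
    nlinarith
  have h3 : ((2 * (p + 1) : ℕ) : ℤ) ≤ 14 * ((p : ℤ) + 1) / 12 := le_trans (by exact_mod_cast h2) h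
  push_cast at h3
  omega

end HT

end Fermat.Agent.S16Aux
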