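import Fermat.Agent.S16.Val
import Fermat.Agent.Lib.S23_LevelOne

/-!
# S16 (U9): the formal identity `3G⁴ - 10 E₄ G² + 8 E₆ G - E₄² ≡ 256 Δ mod 512` for `G ≡ 1 mod 8`
-/

set_option autoImplicit false

open PowerSeries UpperHalfPlane ModularForm EisensteinSeries ArithmeticFunction

namespace Fermat.Agent.S16Aux

variable {Γ₀ : Type*} [LinearOrderedCommGroupWithZero Γ₀] {v : Valuation ℂ Γ₀}

theorem LeV.natCast_mul {P : PowerSeries ℂ} (hP : LeV v 1 P) (n : ℕ) :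
    LeV v 1 ((n : PowerSeries ℂ) * P) := by
  have h : (n : PowerSeries ℂ) = PowerSeries.C (n : ℂ) := by simp
  rw [h]
  have := (LeV.C (v := v) (n : ℂ)).mul hP
  rw [mul_one] at this
  exact this.mono (val_natCast_le_one v n)

/-- The abstract identity. `E₄ = 1 + 240 a`, `E₆ = 1 - 504 (a + 4 c)`, `G = 1 + 8 x`. -/
theorem formal512 (hv3 : v 3 = 1) {x a c D : PowerSeries ℂ} (hx : LeV v 1 x) (ha : LeV v 1 a)
    (hc : LeV v 1 c)
    (hD : 12 * D = 5 * a + 7 * (a + 4 * c) + 1200 * a ^ 2 + 96000 * a ^ 3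
      - 1764 * (a + 4 * c) ^ 2) :
    ∃ Q : PowerSeries ℂ, LeV v 1 Q ∧
      3 * (1 + 8 * x) ^ 4 - 10 * (1 + 240 * a) * (1 + 8 * x) ^ 2
        + 8 * (1 - 504 * (a + 4 * c)) * (1 + 8 * x) - (1 + 240 * a) ^ 2 = 256 * D + 512 * Q := by
  set Q₀ : PowerSeries ℂ := (3528 : ℕ) * c ^ 2 + (1764 : ℕ) * (a * c) + (3 : ℕ) * x ^ 2
      + (36 : ℕ) * x ^ 3 + (72 : ℕ) * x ^ 4
      - ((98 : ℕ) * c + (42 : ℕ) * a + (267 : ℕ) * a ^ 2 + (12000 : ℕ) * a ^ 3
        + (756 : ℕ) * (x * c) + (414 : ℕ) * (x * a) + (900 : ℕ) * (x ^ 2 * a)) with hQ₀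
  have one_mul' : ∀ {P R : PowerSeries ℂ}, LeV v 1 P → LeV v 1 R → LeV v 1 (P * R) := by
    intro P R hP hR
    have := hP.mul hR
    rwa [mul_one] at this
  have hQ₀V : LeV v 1 Q₀ := by
    refine LeV.sub ?_ ?_
    · exact (((((hc.pow 2).natCast_mul _).add ((one_mul' ha hc).natCast_mul _)).add
        ((hx.pow 2).natCast_mul _)).add ((hx.pow 3).natCast_mul _)).add ((hx.pow 4).natCast_mul _)
    · exact ((((((hc.natCast_mul _).add (ha.natCast_mul _)).add ((ha.pow 2).natCast_mul _)).add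
        ((ha.pow 3).natCast_mul _)).add ((one_mul' hx hc).natCast_mul _)).add
        ((one_mul' hx ha).natCast_mul _)).add ((one_mul' (hx.pow 2) ha).natCast_mul _)
  refine ⟨(3 : ℂ)⁻¹ • Q₀, ?_, ?_⟩
  · have := hQ₀V.smul (3 : ℂ)⁻¹
    rwa [map_inv₀, hv3, inv_one, one_mul] at this
  · have h3 : (3 : PowerSeries ℂ) * ((3 : ℂ)⁻¹ • Q₀) = Q₀ := by
      have : (3 : PowerSeries ℂ) = PowerSeries.C (3 : ℂ) := (map_ofNat (PowerSeries.C (R := ℂ)) 3).symm
      rw [this, ← PowerSeries.smul_eq_C_mul, smul_smul, mul_inv_cancel₀ (by norm_num), one_smul]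
    have h3' : (3 : PowerSeries ℂ) ≠ 0 := by
      have : (3 : PowerSeries ℂ) = PowerSeries.C (3 : ℂ) := (map_ofNat (PowerSeries.C (R := ℂ)) 3).symm
      rw [this]
      intro h
      have := congrArg (PowerSeries.coeff 0) h
      simp at this
    apply mul_left_cancel₀ h3'
    have : (3 : PowerSeries ℂ) * (256 * D + 512 * ((3 : ℂ)⁻¹ • Q₀))
        = 64 * (12 * D) + 512 * (3 * ((3 : ℂ)⁻¹ • Q₀)) := by ring
    rw [this, h3, hD, hQ₀]
    push_cast
    ring

theorem four_dvd_aux (d : ℕ) : (4 : ℤ) ∣ (d : ℤ) ^ 5 - (d : ℤ) ^ 3 := by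
  have := (ZMod.intCast_zmod_eq_zero_iff_dvd ((d : ℤ) ^ 5 - (d : ℤ) ^ 3) 4)
  refine this.1 ?_
  push_cast
  generalize (d : ZMod 4) = x
  revert x
  decide

theorem four_dvd_sigma (n : ℕ) : (4 : ℤ) ∣ (ArithmeticFunction.sigma 5 n : ℤ) - (ArithmeticFunction.sigma 3 n : ℤ) := by
  rw [ArithmeticFunction.sigma_apply, ArithmeticFunction.sigma_apply]
  push_cast
  rw [← Finset.sum_sub_distrib]
  exact Finset.dvd_sum fun d _ => four_dvd_aux d

theorem exists_sigmaSeries_five :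
    ∃ c : PowerSeries ℤ, S23Aux.sigmaSeries 5 = S23Aux.sigmaSeries 3 + 4 * c := by
  choose c hc using four_dvd_sigma
  refine ⟨PowerSeries.mk fun n => if n = 0 then 0 else c n, ?_⟩
  have h4 : (4 : PowerSeries ℤ) = PowerSeries.C (4 : ℤ) := by simp
  rw [h4]
  ext n
  simp only [map_add, PowerSeries.coeff_C_mul, S23Aux.sigmaSeries, PowerSeries.coeff_mk]
  by_cases hn : n = 0
  · simp [hn]
  · simp only [hn, if_false]
    linarith [hc n]

/-- The concrete data for `E₄`, `E₆`, `Δ`. -/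
theorem exists_E4_E6_data :
    ∃ a c : PowerSeries ℂ, (∀ {Γ₁ : Type*} [LinearOrderedCommGroupWithZero Γ₁]
        (w : Valuation ℂ Γ₁), LeV w 1 a ∧ LeV w 1 c) ∧
      qExpansion 1 E₄ = 1 + 240 * a ∧ qExpansion 1 E₆ = 1 - 504 * (a + 4 * c) ∧
      12 * qExpansion 1 ModularForm.discriminant = 5 * a + 7 * (a + 4 * c) + 1200 * a ^ 2
        + 96000 * a ^ 3 - 1764 * (a + 4 * c) ^ 2 := by
  obtain ⟨c, hc⟩ := exists_sigmaSeries_five
  refine ⟨PowerSeries.map (Int.castRingHom ℂ) (S23Aux.sigmaSeries 3),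
    PowerSeries.map (Int.castRingHom ℂ) c, fun w => ⟨LeV.map_int _, LeV.map_int _⟩, ?_, ?_, ?_⟩
  · rw [S23Aux.E4_qExpansion_eq]
    simp only [map_add, map_mul, map_one, map_ofNat]
  · rw [S23Aux.E6_qExpansion_eq, hc]
    simp only [map_add, map_sub, map_mul, map_one, map_ofNat]
  · have h := S23Aux.discriminant_qExpansion_smul
    rw [S23Aux.E4_qExpansion_eq, S23Aux.E6_qExpansion_eq, hc] at h
    have h1728 : (1728 : ℂ) • qExpansion 1 ModularForm.discriminant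
        = 144 * (12 * qExpansion 1 ModularForm.discriminant) := by
      rw [PowerSeries.smul_eq_C_mul]
      have : (PowerSeries.C (1728 : ℂ) : PowerSeries ℂ) = 1728 := map_ofNat (PowerSeries.C (R := ℂ)) 1728
      rw [this]
      ring
    rw [h1728] at h
    have h144 : (144 : PowerSeries ℂ) ≠ 0 := by
      have : (144 : PowerSeries ℂ) = PowerSeries.C (144 : ℂ) := (map_ofNat (PowerSeries.C (R := ℂ)) 144).symm
      rw [this]
      intro h
      have := congrArg (PowerSeries.coeff 0) h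
      simp at this
    apply mul_left_cancel₀ h144
    rw [h]
    simp only [map_add, map_sub, map_mul, map_one, map_ofNat]
    ring

end Fermat.Agent.S16Aux
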