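import Mathlib
import Fermat.Agent.S16.Formal512
import Fermat.Agent.S16.LemmaQ

set_option autoImplicit false

/-!
# S16 (U9): the case `l = 2`, `p ≡ 7 mod 8`
-/

open UpperHalfPlane ModularForm CongruenceSubgroup EisensteinSeries
open Fermat.Agent.S23Aux Fermat.Agent.DimAux
open scoped Manifold MatrixGroups Real

namespace Fermat.Agent.S16Aux

noncomputable section

variable {Γ₀ : Type*} [LinearOrderedCommGroupWithZero Γ₀] {v : Valuation ℂ Γ₀}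

theorem twist_one_eq_expand (P : PowerSeries ℂ) {e : ℕ} (he : e ≠ 0) :
    twist P e 1 = PowerSeries.expand e he P := by
  ext m
  rw [coeff_twist, one_pow, mul_one]
  by_cases h : e ∣ m
  · obtain ⟨c, rfl⟩ := h
    rw [if_pos (dvd_mul_right e c), Nat.mul_div_cancel_left c (Nat.pos_of_ne_zero he),
      PowerSeries.coeff_expand_mul]
  · rw [if_neg h, PowerSeries.coeff_expand_of_not_dvd e he P h]

theorem LeV.expand {c : Γ₀} {P : PowerSeries ℂ} (h : LeV v c P) {e : ℕ} (he : e ≠ 0) :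
    LeV v c (PowerSeries.expand e he P) := fun m => by
  rw [← twist_one_eq_expand, coeff_twist]
  split_ifs
  · simpa using h _
  · simp

/-- The expression `3 g⁴ - 10 e₄ g² + 8 e₆ g - e₄²` in a `ℂ`-algebra. -/
def L8expr {R : Type*} [CommRing R] [Algebra ℂ R] (g e4 e6 : R) : R :=
  (3 : ℂ) • g ^ 4 - (10 : ℂ) • (e4 * g ^ 2) + (8 : ℂ) • (e6 * g) - e4 ^ 2

theorem hasQExp_L8expr {g e4 e6 : ℍ → ℂ} {A P4 P6 : PowerSeries ℂ} (Hg : HasQExp 1 g A)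
    (H4 : HasQExp 1 e4 P4) (H6 : HasQExp 1 e6 P6) :
    HasQExp 1 (L8expr g e4 e6) (L8expr A P4 P6) :=
  ((((Hg.pow one_pos 4).smul 3).sub ((H4.mul (Hg.pow one_pos 2) one_pos).smul 10)).add
    ((H6.mul Hg one_pos).smul 8)).sub (H4.pow one_pos 2)

theorem L8expr_mem {Γ : Subgroup SL(2, ℤ)} {g e4 e6 : ℍ → ℂ} (hg : g ∈ MFun Γ 2)
    (h4 : e4 ∈ MFun Γ 4) (h6 : e6 ∈ MFun Γ 6) : L8expr g e4 e6 ∈ MFun Γ 8 := by
  have a1 : g ^ 4 ∈ MFun Γ 8 := MFun_cast (by norm_num) (pow_mem_MFun hg 4)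
  have a2 : e4 * g ^ 2 ∈ MFun Γ 8 := MFun_cast (by norm_num) (mul_mem_MFun h4 (pow_mem_MFun hg 2))
  have a3 : e6 * g ∈ MFun Γ 8 := MFun_cast (by norm_num) (mul_mem_MFun h6 hg)
  have a4 : e4 ^ 2 ∈ MFun Γ 8 := MFun_cast (by norm_num) (pow_mem_MFun h4 2)
  exact Submodule.sub_mem _ (Submodule.add_mem _ (Submodule.sub_mem _ (Submodule.smul_mem _ _ a1)
    (Submodule.smul_mem _ _ a2)) (Submodule.smul_mem _ _ a3)) a4

theorem wOp_L8expr (N : ℕ) [NeZero N] (g e4 e6 : ℍ → ℂ) :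
    wOp N 8 (L8expr g e4 e6) = L8expr (wOp N 2 g) (wOp N 4 e4) (wOp N 6 e6) := by
  have a1 : wOp N 8 (g ^ 4) = wOp N 2 g ^ 4 := by
    rw [show (8 : ℤ) = ((4 : ℕ) : ℤ) * 2 by norm_num, wOp_pow]
  have a2 : wOp N 8 (e4 * g ^ 2) = wOp N 4 e4 * wOp N 2 g ^ 2 := by
    rw [show (8 : ℤ) = 4 + ((2 : ℕ) : ℤ) * 2 by norm_num, wOp_mul, wOp_pow]
  have a3 : wOp N 8 (e6 * g) = wOp N 6 e6 * wOp N 2 g := by
    rw [show (8 : ℤ) = 6 + 2 by norm_num, wOp_mul]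
  have a4 : wOp N 8 (e4 ^ 2) = wOp N 4 e4 ^ 2 := by
    rw [show (8 : ℤ) = ((2 : ℕ) : ℤ) * 4 by norm_num, wOp_pow]
  unfold L8expr
  rw [wOp_sub, wOp_add, wOp_sub, wOp_smul, wOp_smul, wOp_smul, a1, a2, a3, a4]

theorem L8expr_eq (g e4 e6 : PowerSeries ℂ) :
    L8expr g e4 e6 = 3 * g ^ 4 - 10 * e4 * g ^ 2 + 8 * e6 * g - e4 ^ 2 := by
  unfold L8expr
  simp only [PowerSeries.smul_eq_C_mul, map_ofNat]
  ring

theorem L8expr_scale (t : ℂ) (g e4 e6 : PowerSeries ℂ) :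
    L8expr (t ^ 2 • g) (t ^ 4 • e4) (t ^ 6 • e6) = t ^ 8 • L8expr g e4 e6 := by
  simp only [L8expr_eq, PowerSeries.smul_eq_C_mul, map_pow]
  ring

theorem ofNat_mul_inv_smul (n : ℕ) [n.AtLeastTwo] (Y : PowerSeries ℂ) :
    (OfNat.ofNat n : PowerSeries ℂ) * ((OfNat.ofNat n : ℂ)⁻¹ • Y) = Y := by
  have : (OfNat.ofNat n : PowerSeries ℂ) = PowerSeries.C (OfNat.ofNat n : ℂ) :=
    (map_ofNat (PowerSeries.C (R := ℂ)) n).symm
  rw [this, ← PowerSeries.smul_eq_C_mul, smul_smul, mul_inv_cancel₀ (OfNat.ofNat_ne_zero n),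
    one_smul]

/-- One side of the argument: if `A ≡ 1 mod 8` then `L8expr / 256 = D + 2 Q`. -/
theorem exists_L8_eq (hv2 : v (2 : ℂ) < 1) (hv3 : v (3 : ℂ) = 1) {A a c D : PowerSeries ℂ}
    (hA1 : LeV v (v (8 : ℂ)) (A - 1)) (ha : LeV v 1 a) (hc : LeV v 1 c)
    (hD : 12 * D = 5 * a + 7 * (a + 4 * c) + 1200 * a ^ 2 + 96000 * a ^ 3
      - 1764 * (a + 4 * c) ^ 2) :
    ∃ R : PowerSeries ℂ, LtV v R ∧
      (256 : ℂ)⁻¹ • L8expr A (1 + 240 * a) (1 - 504 * (a + 4 * c)) = D + R := by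
  have h8 : v (8 : ℂ) ≠ 0 := by
    rw [Valuation.ne_zero_iff]; norm_num
  have hx : LeV v 1 ((8 : ℂ)⁻¹ • (A - 1)) := by
    have := hA1.smul (8 : ℂ)⁻¹
    rwa [map_inv₀, inv_mul_cancel₀ h8] at this
  obtain ⟨Q, hQ, hQeq⟩ := formal512 hv3 hx ha hc hD
  have hAx : 1 + 8 * ((8 : ℂ)⁻¹ • (A - 1)) = A := by
    rw [ofNat_mul_inv_smul]; ring
  rw [hAx] at hQeq
  refine ⟨(2 : ℂ) • Q, ?_, ?_⟩
  · have := hQ.smul (2 : ℂ)
    rw [mul_one] at this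
    exact this.ltV hv2
  · rw [L8expr_eq, hQeq]
    have e1 : (256 : PowerSeries ℂ) * D + 512 * Q = (256 : ℂ) • (D + (2 : ℂ) • Q) := by
      simp only [PowerSeries.smul_eq_C_mul, map_ofNat]
      ring
    rw [e1, smul_smul, inv_mul_cancel₀ (by norm_num), one_smul]

/-- (U9) -/
theorem L8 {p : ℕ} [Fact p.Prime] (hv2 : v (2 : ℂ) < 1) (hp7 : p % 8 = 7) {G : ℍ → ℂ}
    (hG : G ∈ MFun (Gamma0 p) 2) {A B : PowerSeries ℂ} (hA : HasQExp 1 G A)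
    (hB : HasQExp 1 (wOp p 2 G) B) (hA1 : LeV v (v (8 : ℂ)) (A - 1))
    (hB1 : LeV v (v (8 : ℂ)) (B + PowerSeries.C (p : ℂ))) : False := by
  have hp : p.Prime := Fact.out
  have hp0 : (p : ℂ) ≠ 0 := natCast_ne_zero' p
  have hv2' : v ((2 : ℕ) : ℂ) < 1 := by simpa using hv2
  have hvp : v (p : ℂ) = 1 :=
    val_natCast_eq_one_of_coprime (l := 2) hv2'
      ((Nat.coprime_primes hp Nat.prime_two).2 (by omega))
  have hv3 : v (3 : ℂ) = 1 := by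
    have := val_natCast_eq_one_of_coprime (l := 2) (q := 3) hv2' (by norm_num)
    simpa using this
  obtain ⟨a, c, hac, h4, h6, hD⟩ := exists_E4_E6_data
  obtain ⟨ha, hc⟩ := hac v
  set D : PowerSeries ℂ := qExpansion 1 ModularForm.discriminant with hDdef
  have m4 : (E₄ : ℍ → ℂ) ∈ MFun ⊤ 4 := E4_mem
  have m6 : (E₆ : ℍ → ℂ) ∈ MFun ⊤ 6 := E6_mem
  have H4 : HasQExp 1 (E₄ : ℍ → ℂ) (1 + 240 * a) := by
    rw [← h4]; exact hasQExp_levelOne E₄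
  have H6 : HasQExp 1 (E₆ : ℍ → ℂ) (1 - 504 * (a + 4 * c)) := by
    rw [← h6]; exact hasQExp_levelOne E₆
  -- the form
  have hL : L8expr G (E₄ : ℍ → ℂ) (E₆ : ℍ → ℂ) ∈ MFun (Gamma0 p) 8 :=
    L8expr_mem hG (MFun_mono le_top m4) (MFun_mono le_top m6)
  have hLf := Submodule.smul_mem _ (256 : ℂ)⁻¹ hL
  have HLf := (hasQExp_L8expr hA H4 H6).smul (256 : ℂ)⁻¹
  obtain ⟨R, hR, hReq⟩ := exists_L8_eq hv2 hv3 hA1 ha hc hD
  rw [hReq] at HLf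
  have ordA : OrdV v (D + R) 1 := ordV_discriminant.add_ltV hR
  -- the other cusp
  set ex := PowerSeries.expand p hp.ne_zero (R := ℂ) with hex
  have hD' : 12 * ex D = 5 * ex a + 7 * (ex a + 4 * ex c) + 1200 * ex a ^ 2 + 96000 * ex a ^ 3
      - 1764 * (ex a + 4 * ex c) ^ 2 := by
    have := congr_arg ex hD
    simpa only [map_add, map_sub, map_mul, map_pow, map_ofNat] using this
  have V4 : HasQExp 1 (vOp p (E₄ : ℍ → ℂ)) (1 + 240 * ex a) := by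
    have := hasQExp_vOp p m4
    rw [h4, twist_one_eq_expand _ hp.ne_zero] at this
    simpa only [map_add, map_mul, map_one, map_ofNat] using this
  have V6 : HasQExp 1 (vOp p (E₆ : ℍ → ℂ)) (1 - 504 * (ex a + 4 * ex c)) := by
    have := hasQExp_vOp p m6
    rw [h6, twist_one_eq_expand _ hp.ne_zero] at this
    simpa only [map_add, map_sub, map_mul, map_one, map_ofNat] using this
  have w4 : wOp p 4 (E₄ : ℍ → ℂ) = (p : ℂ) ^ 4 • vOp p (E₄ : ℍ → ℂ) := by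
    rw [wOp_levelOne p (m4.2.1 _ (Subgroup.mem_top _))]
    norm_cast
  have w6 : wOp p 6 (E₆ : ℍ → ℂ) = (p : ℂ) ^ 6 • vOp p (E₆ : ℍ → ℂ) := by
    rw [wOp_levelOne p (m6.2.1 _ (Subgroup.mem_top _))]
    norm_cast
  set Bh : PowerSeries ℂ := ((p : ℂ) ^ 2)⁻¹ • B with hBh
  have hBBh : B = (p : ℂ) ^ 2 • Bh := by
    rw [hBh, smul_smul, mul_inv_cancel₀ (pow_ne_zero 2 hp0), one_smul]
  have HLw : HasQExp 1 (wOp p 8 ((256 : ℂ)⁻¹ • L8expr G (E₄ : ℍ → ℂ) (E₆ : ℍ → ℂ)))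
      ((256 : ℂ)⁻¹ • ((p : ℂ) ^ 8 • L8expr Bh (1 + 240 * ex a) (1 - 504 * (ex a + 4 * ex c)))) := by
    rw [wOp_smul, wOp_L8expr, w4, w6, ← L8expr_scale, ← hBBh]
    exact (hasQExp_L8expr hB (V4.smul _) (V6.smul _)).smul _
  have hBh1 : LeV v (v (8 : ℂ)) (Bh - 1) := by
    obtain ⟨t, ht⟩ : 8 ∣ p + 1 := by omega
    have e1 : Bh - 1 = ((p : ℂ) ^ 2)⁻¹ • (B + PowerSeries.C (p : ℂ)) -
        PowerSeries.C ((8 : ℂ) * ((t : ℂ) * (p : ℂ)⁻¹)) := by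
      have ht' : (p : ℂ) + 1 = 8 * t := by exact_mod_cast ht
      have e2 : (8 : ℂ) * ((t : ℂ) * (p : ℂ)⁻¹) = ((p : ℂ) ^ 2)⁻¹ * p + 1 := by
        rw [← mul_assoc, ← ht']
        field_simp
        ring
      rw [e2, hBh, smul_add, map_add, map_one, PowerSeries.smul_eq_C_mul, PowerSeries.smul_eq_C_mul,
        ← map_mul]
      ring
    rw [e1]
    apply LeV.sub
    · have := hB1.smul ((p : ℂ) ^ 2)⁻¹
      rwa [map_inv₀, map_pow, hvp, one_pow, inv_one, one_mul] at this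
    · refine (LeV.C _).mono ?_
      rw [map_mul, map_mul, map_inv₀, hvp, inv_one, mul_one]
      calc v (8 : ℂ) * v (t : ℂ) ≤ v (8 : ℂ) * 1 := by
            gcongr
            exact val_natCast_le_one v t
        _ = v (8 : ℂ) := mul_one _
  obtain ⟨R', hR', hReq'⟩ := exists_L8_eq hv2 hv3 hBh1 (ha.expand hp.ne_zero)
    (hc.expand hp.ne_zero) hD'
  rw [smul_comm, hReq'] at HLw
  have ordB : OrdV v ((p : ℂ) ^ 8 • (ex D + R')) p := by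
    apply OrdV.smul _ (by rw [map_pow, hvp, one_pow])
    apply OrdV.add_ltV _ hR'
    have := (ordV_discriminant (v := v)).twistE hp.pos
    rwa [mul_one, twist_one_eq_expand _ hp.ne_zero] at this
  have hle := norm_lemma hvp hLf HLf HLw ordA ordB
  push_cast at hle
  omega

end

end Fermat.Agent.S16Aux
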