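/-
S16 helper library (team U): the formal calculus of pairs `(qexp f, qexp f^w)`.
-/
import Fermat.Agent.S16.Sturm1

set_option autoImplicit false

namespace Fermat.Agent.S16Aux

open UpperHalfPlane ModularForm EisensteinSeries ModularFormClass PowerSeries
open scoped Manifold MatrixGroups
open Fermat.Agent.S23Aux Fermat.Agent.DimAux

noncomputable section

/-- `P(q^e)` -/
def Vs (e : ℕ) [NeZero e] (P : PowerSeries ℂ) : PowerSeries ℂ := PowerSeries.expand e (NeZero.ne e) P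

/-- `U_e P = ∑ P_{e n} q^n` -/
def Us (e : ℕ) (P : PowerSeries ℂ) : PowerSeries ℂ := PowerSeries.mk fun n => P.coeff (e * n)

section formal

variable (e : ℕ) [NeZero e]

theorem coeff_Vs (P : PowerSeries ℂ) (n : ℕ) :
    (Vs e P).coeff n = if e ∣ n then P.coeff (n / e) else 0 := PowerSeries.coeff_expand _ _ _

theorem coeff_Vs_mul (P : PowerSeries ℂ) (n : ℕ) : (Vs e P).coeff (e * n) = P.coeff n :=
  PowerSeries.coeff_expand_mul _ _ _ _

theorem Vs_add (P Q : PowerSeries ℂ) : Vs e (P + Q) = Vs e P + Vs e Q := map_add _ _ _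
theorem Vs_sub (P Q : PowerSeries ℂ) : Vs e (P - Q) = Vs e P - Vs e Q := map_sub _ _ _
theorem Vs_mul (P Q : PowerSeries ℂ) : Vs e (P * Q) = Vs e P * Vs e Q := map_mul _ _ _
theorem Vs_pow (P : PowerSeries ℂ) (n : ℕ) : Vs e (P ^ n) = Vs e P ^ n := map_pow _ _ _
theorem Vs_one : Vs e 1 = 1 := map_one _
theorem Vs_smul (c : ℂ) (P : PowerSeries ℂ) : Vs e (c • P) = c • Vs e P :=
  PowerSeries.expand_smul _ _ _ _
theorem Vs_C (c : ℂ) : Vs e (C c) = C c := PowerSeries.expand_C _ _ _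
theorem Vs_natCast (n : ℕ) : Vs e (n : PowerSeries ℂ) = n := map_natCast _ _
theorem Vs_ofNat (n : ℕ) [n.AtLeastTwo] : Vs e (OfNat.ofNat n : PowerSeries ℂ) = OfNat.ofNat n :=
  map_ofNat _ _

omit [NeZero e] in
theorem coeff_Us (P : PowerSeries ℂ) (n : ℕ) : (Us e P).coeff n = P.coeff (e * n) := by
  simp [Us]

omit [NeZero e] in
theorem Us_add (P Q : PowerSeries ℂ) : Us e (P + Q) = Us e P + Us e Q := by
  ext n; simp [coeff_Us]

omit [NeZero e] in
theorem Us_sub (P Q : PowerSeries ℂ) : Us e (P - Q) = Us e P - Us e Q := by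
  ext n; simp [coeff_Us]

omit [NeZero e] in
theorem Us_smul (c : ℂ) (P : PowerSeries ℂ) : Us e (c • P) = c • Us e P := by
  ext n; simp [coeff_Us]

variable {Γ₀ : Type*} [LinearOrderedCommGroupWithZero Γ₀] {v : Valuation ℂ Γ₀}

theorem LeV.Vs {c : Γ₀} {P : PowerSeries ℂ} (h : LeV v c P) : LeV v c (Vs e P) := fun n => by
  rw [coeff_Vs]
  split_ifs
  · exact h _
  · simp

omit [NeZero e] in
theorem LeV.Us {c : Γ₀} {P : PowerSeries ℂ} (h : LeV v c P) : LeV v c (Us e P) := fun n => by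
  rw [coeff_Us]; exact h _

theorem LtV.Vs {P : PowerSeries ℂ} (h : LtV v P) : LtV v (Vs e P) := fun n => by
  rw [coeff_Vs]
  split_ifs
  · exact h _
  · simp

theorem OrdV.Vs {P : PowerSeries ℂ} {a : ℕ} (h : OrdV v P a) : OrdV v (Vs e P) (e * a) where
  int := h.int.Vs e
  lt i hi := by
    rw [coeff_Vs]
    split_ifs with hd
    · apply h.lt
      obtain ⟨m, rfl⟩ := hd
      rw [Nat.mul_div_cancel_left _ (Nat.pos_of_ne_zero (NeZero.ne e))]
      exact lt_of_mul_lt_mul_left hi (Nat.zero_le e)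
    · simp
  eq := by rw [coeff_Vs_mul]; exact h.eq

theorem LeV.smul' {c : Γ₀} {P : PowerSeries ℂ} (hP : LeV v c P) (a : ℂ) (ha : v a ≤ 1) :
    LeV v c (a • P) := fun n => by
  rw [coeff_smul, smul_eq_mul, map_mul]
  calc v a * v (coeff n P) ≤ 1 * c := mul_le_mul' ha (hP n)
    _ = c := one_mul c

theorem val_natCast_zpow_le_one (q : ℕ) {m : ℤ} (hm : 0 ≤ m) : v ((q : ℂ) ^ m) ≤ 1 := by
  obtain ⟨n, rfl⟩ := Int.eq_ofNat_of_zero_le hm
  rw [zpow_natCast, map_pow]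
  exact pow_le_one' (val_natCast_le_one v q) n

theorem LeV.smul_lt {c : Γ₀} {P : PowerSeries ℂ} (hP : LeV v c P) {a : ℂ} (ha : v a * c < 1) :
    LtV v (a • P) := fun n => by
  rw [coeff_smul, smul_eq_mul, map_mul]
  exact lt_of_le_of_lt (mul_le_mul_right (hP n) _) ha

end formal

/-- the `q`-expansion of `Δ` -/
abbrev Ds : PowerSeries ℂ := qExpansion 1 ModularForm.discriminant

/-- the abstract calculus of pairs `(qexp f, qexp f^w)`, `f ∈ M_k(Γ₀(p))` -/
structure WSys (p : ℕ) [NeZero p] where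
  W : ℤ → PowerSeries ℂ → PowerSeries ℂ → Prop
  add : ∀ {k : ℤ} {A B A' B' : PowerSeries ℂ}, W k A B → W k A' B' → W k (A + A') (B + B')
  smul : ∀ {k : ℤ} {A B : PowerSeries ℂ} (c : ℂ), W k A B → W k (c • A) (c • B)
  mul : ∀ {k l : ℤ} {A B A' B' : PowerSeries ℂ}, W k A B → W l A' B' → W (k + l) (A * A') (B * B')
  swap : ∀ {k : ℤ} {A B : PowerSeries ℂ}, Even k → W k A B → W k B ((p : ℂ) ^ k • A)
  lvl1 : ∀ {k : ℤ} {f : ℍ → ℂ}, f ∈ MFun ⊤ k →
    W k (qExpansion 1 f) ((p : ℂ) ^ k • Vs p (qExpansion 1 f))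

namespace WSys

variable {p : ℕ} [NeZero p] (S : WSys p)

theorem sub {k : ℤ} {A B A' B' : PowerSeries ℂ} (h : S.W k A B) (h' : S.W k A' B') :
    S.W k (A - A') (B - B') := by
  have := S.add h (S.smul (-1) h')
  simpa [sub_eq_add_neg] using this

theorem cast {k l : ℤ} {A B A' B' : PowerSeries ℂ} (h : S.W k A B) (hk : k = l) (hA : A = A')
    (hB : B = B') : S.W l A' B' := by subst hk hA hB; exact h

end WSys

variable {Γ₀ : Type*} [LinearOrderedCommGroupWithZero Γ₀]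

/-- the norm lemma (U4) -/
def NormP {p : ℕ} [NeZero p] (S : WSys p) (v : Valuation ℂ Γ₀) : Prop :=
  ∀ {k : ℤ} {A B : PowerSeries ℂ} {a b : ℕ}, S.W k A B → OrdV v A a → OrdV v B b →
    ((a + b : ℕ) : ℤ) ≤ k * (p + 1) / 12

/-- Lemma Q (U7) -/
def QP {p : ℕ} [NeZero p] (S : WSys p) (v : Valuation ℂ Γ₀) : Prop :=
  ∀ {k : ℤ} {A B : PowerSeries ℂ}, Even k → S.W k A B → LeV v 1 A → LtV v B → LtV v A

end

end Fermat.Agent.S16Aux
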