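/-
S16 helper library (team U): the applications of Lemma Q (formal version), `l = 2, 3`.
-/
import Fermat.Agent.S16.WSys

set_option autoImplicit false

namespace Fermat.Agent.S16Aux

open UpperHalfPlane ModularForm EisensteinSeries ModularFormClass PowerSeries
open scoped Manifold MatrixGroups
open Fermat.Agent.S23Aux Fermat.Agent.DimAux

noncomputable section

variable {Γ₀ : Type*} [LinearOrderedCommGroupWithZero Γ₀] {v : Valuation ℂ Γ₀}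

abbrev E4s : PowerSeries ℂ := qExpansion 1 E₄
abbrev E6s : PowerSeries ℂ := qExpansion 1 E₆
/-- `∑ σ₃(n) q^n` -/
def sa : PowerSeries ℂ := (sigmaSeries 3).map (Int.castRingHom ℂ)
/-- `∑ σ₅(n) q^n` -/
def sb : PowerSeries ℂ := (sigmaSeries 5).map (Int.castRingHom ℂ)

theorem E4s_eq : E4s = 1 + 240 * sa := by
  rw [E4s, E4_qExpansion_eq, sa, map_add, map_mul, map_one, map_ofNat]

theorem E6s_eq : E6s = 1 - 504 * sb := by
  rw [E6s, E6_qExpansion_eq, sb, map_sub, map_mul, map_one, map_ofNat]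

theorem leV_sa : LeV v 1 sa := LeV.map_int _
theorem leV_sb : LeV v 1 sb := LeV.map_int _

theorem LeV.mul1 {P Q : PowerSeries ℂ} (hP : LeV v 1 P) (hQ : LeV v 1 Q) : LeV v 1 (P * Q) := by
  simpa using hP.mul hQ

theorem leV_natCast (n : ℕ) : LeV v 1 (n : PowerSeries ℂ) := by
  have := (LeV.C (v := v) (n : ℂ)).mono (val_natCast_le_one v n)
  simpa using this

theorem leV_intCast (n : ℤ) : LeV v 1 (n : PowerSeries ℂ) := by
  have := (LeV.C (v := v) (n : ℂ)).mono (val_intCast_le_one v n)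
  simpa using this

theorem leV_ofNat (n : ℕ) [n.AtLeastTwo] : LeV v 1 (OfNat.ofNat n : PowerSeries ℂ) :=
  leV_natCast (v := v) n

theorem exists_eq_add_mul {μ c : ℂ} (hμ : μ ≠ 0) {A : PowerSeries ℂ} (h : LeV v (v μ) (A - C c)) :
    ∃ x, LeV v 1 x ∧ A = C c + C μ * x := by
  refine ⟨μ⁻¹ • (A - C c), fun n => ?_, ?_⟩
  · rw [coeff_smul, smul_eq_mul, map_mul, map_inv₀]
    rw [inv_mul_le_iff₀ (zero_lt_iff.2 ((Valuation.ne_zero_iff v).2 hμ)), mul_one]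
    exact h n
  · rw [smul_eq_C_mul, ← mul_assoc, ← map_mul, mul_inv_cancel₀ hμ]
    simp

/-- the abstract contradiction from Lemma Q -/
theorem q_contra {p : ℕ} [NeZero p] (S : WSys p) (hQ : QP S v) (hvp : v (p : ℂ) = 1) {k : ℤ}
    (hk : Even k) {Z1 Z2 R1 R2 : PowerSeries ℂ} (h : S.W k Z1 Z2) {lam u : ℂ} (hlam : v lam < 1)
    (hu : v u = 1) (hR1 : LeV v 1 R1) (hR2 : LeV v 1 R2) (h1 : Z1 = C lam * R1)
    (h2 : Z2 = C u + C lam * R2) : False := by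
  have hs := S.swap hk h
  have hlt : ∀ R : PowerSeries ℂ, LeV v 1 R → LtV v (C lam * R) := fun R hR => by
    rw [← smul_eq_C_mul]
    exact hR.smul_lt (by simpa using hlam)
  have hZ1 : LtV v ((p : ℂ) ^ k • Z1) := fun n => by
    rw [coeff_smul, smul_eq_mul, map_mul, map_zpow₀, hvp, one_zpow, one_mul, h1]
    exact hlt R1 hR1 n
  have hZ2 : LeV v 1 Z2 := by
    rw [h2]
    exact ((LeV.C u).mono hu.le).add (hlt R2 hR2).leV
  have h3 := hQ hk hs hZ2 hZ1 0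
  rw [h2, map_add, coeff_zero_C] at h3
  have h4 : v (coeff 0 (C lam * R2)) < v u := by rw [hu]; exact hlt R2 hR2 0
  rw [Valuation.map_add_eq_of_lt_left v h4, hu] at h3
  exact lt_irrefl _ h3

theorem Vs_E6s (p : ℕ) [NeZero p] : Vs p E6s = 1 - 504 * Vs p sb := by
  rw [E6s_eq, Vs_sub, Vs_mul, Vs_one, Vs_ofNat]

theorem Vs_E4s (p : ℕ) [NeZero p] : Vs p E4s = 1 + 240 * Vs p sa := by
  rw [E4s_eq, Vs_add, Vs_mul, Vs_one, Vs_ofNat]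

theorem zpow_smul_eq (p : ℕ) (n : ℕ) (P : PowerSeries ℂ) :
    ((p : ℂ) ^ (n : ℤ)) • P = (C (p : ℂ)) ^ n * P := by
  rw [zpow_natCast, smul_eq_C_mul, map_pow]

/-- `l = 3`, `p ≡ 1 mod 3` -/
theorem case3 {p : ℕ} [NeZero p] (S : WSys p) (hQ : QP S v) (hvp : v (p : ℂ) = 1)
    (hv3 : v (3 : ℂ) < 1) {A B : PowerSeries ℂ} (h : S.W 2 A B) (hA : LeV v (v (3 : ℂ)) (A - 1))
    (hB : LeV v (v (3 : ℂ)) (B - C (-(p : ℂ)))) (hu : v (-(p : ℂ) ^ 3 - (p : ℂ) ^ 6) = 1) :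
    False := by
  obtain ⟨x, hx, rfl⟩ := exists_eq_add_mul (μ := 3) (c := 1) (by norm_num) (by simpa using hA)
  obtain ⟨y, hy, rfl⟩ := exists_eq_add_mul (μ := 3) (by norm_num) hB
  have hE6 : S.W 6 E6s ((p : ℂ) ^ (6 : ℤ) • Vs p E6s) := S.lvl1 E6_mem
  have hZ := S.sub (S.cast (S.mul (S.mul h h) h) (show (2 : ℤ) + 2 + 2 = 6 by norm_num) rfl rfl) hE6
  have hP : LeV v 1 (C (p : ℂ)) := (LeV.C _).mono hvp.le
  have hVb : LeV v 1 (Vs p sb) := leV_sb.Vs p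
  refine q_contra S hQ hvp (by decide) hZ hv3 hu
    (R1 := 3 * x + 9 * x ^ 2 + 9 * x ^ 3 + 168 * sb)
    (R2 := 3 * C (p : ℂ) ^ 2 * y - 9 * C (p : ℂ) * y ^ 2 + 9 * y ^ 3 + 168 * C (p : ℂ) ^ 6 * Vs p sb)
    ?_ ?_ ?_ ?_
  · apply_rules [LeV.pow, LeV.add, LeV.sub, LeV.mul1, leV_ofNat, leV_sb]
  · apply_rules [LeV.pow, LeV.add, LeV.sub, LeV.mul1, leV_ofNat, leV_sb]
  · rw [E6s_eq, map_one, map_ofNat]; ring
  · rw [show (6 : ℤ) = ((6 : ℕ) : ℤ) by norm_num, zpow_smul_eq, Vs_E6s, map_sub, map_neg, map_neg,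
      map_pow, map_pow, map_ofNat]
    ring

/-- `l = 2`, `p ≡ 1 mod 4` -/
theorem case2a {p : ℕ} [NeZero p] (S : WSys p) (hQ : QP S v) (hvp : v (p : ℂ) = 1)
    (hv2 : v (2 : ℂ) < 1) {A B : PowerSeries ℂ} (h : S.W 2 A B) (hA : LeV v (v (4 : ℂ)) (A - 1))
    (hB : LeV v (v (4 : ℂ)) (B - C (-(p : ℂ)))) {u : ℂ} (hu2 : 2 * u = -(p : ℂ) ^ 3 - (p : ℂ) ^ 6)
    (hu : v u = 1) : False := by
  obtain ⟨x, hx, rfl⟩ := exists_eq_add_mul (μ := 4) (c := 1) (by norm_num) (by simpa using hA)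
  obtain ⟨y, hy, rfl⟩ := exists_eq_add_mul (μ := 4) (by norm_num) hB
  have hE6 : S.W 6 E6s ((p : ℂ) ^ (6 : ℤ) • Vs p E6s) := S.lvl1 E6_mem
  have hZ := S.smul (1 / 2) (S.sub (S.cast (S.mul (S.mul h h) h)
    (show (2 : ℤ) + 2 + 2 = 6 by norm_num) rfl rfl) hE6)
  have hP : LeV v 1 (C (p : ℂ)) := (LeV.C _).mono hvp.le
  have hVb : LeV v 1 (Vs p sb) := leV_sb.Vs p
  have h12 : C (1 / 2 : ℂ) * 2 = 1 := by
    rw [← map_ofNat C 2, ← map_mul]; norm_num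
  have hCu : (2 : PowerSeries ℂ) * C u = - C (p : ℂ) ^ 3 - C (p : ℂ) ^ 6 := by
    rw [← map_ofNat C 2, ← map_mul, hu2]; simp
  refine q_contra S hQ hvp (by decide) hZ hv2 hu
    (R1 := 3 * x + 12 * x ^ 2 + 16 * x ^ 3 + 126 * sb)
    (R2 := 3 * C (p : ℂ) ^ 2 * y - 12 * C (p : ℂ) * y ^ 2 + 16 * y ^ 3
      + 126 * C (p : ℂ) ^ 6 * Vs p sb)
    ?_ ?_ ?_ ?_
  · apply_rules [LeV.pow, LeV.add, LeV.sub, LeV.mul1, leV_ofNat, leV_sb]
  · apply_rules [LeV.pow, LeV.add, LeV.sub, LeV.mul1, leV_ofNat, leV_sb]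
  · rw [E6s_eq, map_one, map_ofNat, map_ofNat, smul_eq_C_mul]
    linear_combination (6 * x + 24 * x ^ 2 + 32 * x ^ 3 + 252 * sb) * h12
  · rw [show (6 : ℤ) = ((6 : ℕ) : ℤ) by norm_num, zpow_smul_eq, Vs_E6s, map_neg, map_ofNat,
      map_ofNat, smul_eq_C_mul]
    linear_combination (C u + 6 * C (p : ℂ) ^ 2 * y - 24 * C (p : ℂ) * y ^ 2 + 32 * y ^ 3
      + 252 * C (p : ℂ) ^ 6 * Vs p sb) * h12 - C (1 / 2 : ℂ) * hCu

/-- `l = 2`, `p ≡ 3 mod 8` -/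
theorem case2b {p : ℕ} [NeZero p] (S : WSys p) (hQ : QP S v) (hvp : v (p : ℂ) = 1)
    (hv2 : v (2 : ℂ) < 1) {A B : PowerSeries ℂ} (h : S.W 2 A B) (hA : LeV v (v (8 : ℂ)) (A - 1))
    (hB : LeV v (v (8 : ℂ)) (B - C (-(p : ℂ)))) {u : ℂ} (hu2 : 8 * u = (p : ℂ) ^ 2 - (p : ℂ) ^ 4)
    (hu : v u = 1) : False := by
  obtain ⟨x, hx, rfl⟩ := exists_eq_add_mul (μ := 8) (c := 1) (by norm_num) (by simpa using hA)
  obtain ⟨y, hy, rfl⟩ := exists_eq_add_mul (μ := 8) (by norm_num) hB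
  have hE4 : S.W 4 E4s ((p : ℂ) ^ (4 : ℤ) • Vs p E4s) := S.lvl1 E4_mem
  have hZ := S.smul (1 / 8) (S.sub (S.cast (S.mul h h)
    (show (2 : ℤ) + 2 = 4 by norm_num) rfl rfl) hE4)
  have hP : LeV v 1 (C (p : ℂ)) := (LeV.C _).mono hvp.le
  have hVa : LeV v 1 (Vs p sa) := leV_sa.Vs p
  have h18 : C (1 / 8 : ℂ) * 8 = 1 := by
    rw [← map_ofNat C 8, ← map_mul]; norm_num
  have hCu : (8 : PowerSeries ℂ) * C u = C (p : ℂ) ^ 2 - C (p : ℂ) ^ 4 := by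
    rw [← map_ofNat C 8, ← map_mul, hu2]; simp
  refine q_contra S hQ hvp (by decide) hZ hv2 hu
    (R1 := x + 4 * x ^ 2 - 15 * sa)
    (R2 := - C (p : ℂ) * y + 4 * y ^ 2 - 15 * C (p : ℂ) ^ 4 * Vs p sa)
    ?_ ?_ ?_ ?_
  · apply_rules [LeV.pow, LeV.add, LeV.sub, LeV.mul1, leV_ofNat, leV_sa]
  · apply_rules [LeV.pow, LeV.add, LeV.sub, LeV.mul1, leV_ofNat, leV_sa, LeV.neg]
  · rw [E4s_eq, map_one, map_ofNat, map_ofNat, smul_eq_C_mul]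
    linear_combination (2 * x + 8 * x ^ 2 - 30 * sa) * h18
  · rw [show (4 : ℤ) = ((4 : ℕ) : ℤ) by norm_num, zpow_smul_eq, Vs_E4s, map_neg, map_ofNat,
      map_ofNat, smul_eq_C_mul]
    linear_combination (C u - 2 * C (p : ℂ) * y + 8 * y ^ 2
      - 30 * C (p : ℂ) ^ 4 * Vs p sa) * h18 - C (1 / 8 : ℂ) * hCu

end

end Fermat.Agent.S16Aux
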