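/-
S16 helper library (team U): the concrete instance of the calculus `WSys`.
-/
import Fermat.Agent.S16.WSys
import Fermat.Agent.S16.LemmaQ

set_option autoImplicit false

namespace Fermat.Agent.S16Aux

open UpperHalfPlane ModularForm CongruenceSubgroup PowerSeries
open scoped Manifold MatrixGroups
open Fermat.Agent.S23Aux Fermat.Agent.DimAux

variable {Γ₀ : Type*} [LinearOrderedCommGroupWithZero Γ₀] {v : Valuation ℂ Γ₀}

theorem Vs_eq_twist (e : ℕ) [NeZero e] (P : PowerSeries ℂ) : Vs e P = twist P e 1 := by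
  ext n
  rw [coeff_Vs, coeff_twist]
  simp

/-- the pairs `(qexp f, qexp f^w)`, `f ∈ M_k(Γ₀(p))` -/
noncomputable def wSys (p : ℕ) [Fact p.Prime] : WSys p where
  W k A B := ∃ f, f ∈ MFun (Gamma0 p) k ∧ HasQExp 1 f A ∧ HasQExp 1 (wOp p k f) B
  add := by
    rintro k A B A' B' ⟨f, hf, hA, hB⟩ ⟨f', hf', hA', hB'⟩
    exact ⟨f + f', Submodule.add_mem _ hf hf', hA.add hA', by rw [wOp_add]; exact hB.add hB'⟩
  smul := by
    rintro k A B c ⟨f, hf, hA, hB⟩
    exact ⟨c • f, Submodule.smul_mem _ c hf, hA.smul c, by rw [wOp_smul]; exact hB.smul c⟩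
  mul := by
    rintro k l A B A' B' ⟨f, hf, hA, hB⟩ ⟨f', hf', hA', hB'⟩
    exact ⟨f * f', mul_mem_MFun hf hf', hA.mul hA' one_pos, by
      rw [wOp_mul]; exact hB.mul hB' one_pos⟩
  swap := by
    rintro k A B hk ⟨f, hf, hA, hB⟩
    exact ⟨wOp p k f, wOp_mem_MFun p hf, hB, by rw [wOp_wOp p hk]; exact hA.smul _⟩
  lvl1 := by
    intro k f hf
    refine ⟨f, MFun_mono le_top hf, ?_, ?_⟩
    · have := hasQExp_levelOne (toMF1 hf)
      simpa using this
    · rw [wOp_levelOne p (hf.2.1 _ (Subgroup.mem_top _)), Vs_eq_twist]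
      exact (hasQExp_vOp p hf).smul _

theorem wSys_mk {p : ℕ} [Fact p.Prime] {k : ℤ} {f : ℍ → ℂ} {A B : PowerSeries ℂ}
    (hf : f ∈ MFun (Gamma0 p) k) (hA : HasQExp 1 f A) (hB : HasQExp 1 (wOp p k f) B) :
    (wSys p).W k A B := ⟨f, hf, hA, hB⟩

theorem qP_wSys {p : ℕ} [Fact p.Prime] (hvp : v (p : ℂ) = 1) : QP (wSys p) v := by
  rintro k A B _ ⟨f, hf, hA, hB⟩ hAV hBm
  exact lemmaQ hvp hf hA hB hAV hBm

theorem normP_wSys {p : ℕ} [Fact p.Prime] (hvp : v (p : ℂ) = 1) : NormP (wSys p) v := by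
  rintro k A B a b ⟨f, hf, hA, hB⟩ ha hb
  exact norm_lemma hvp hf hA hB ha hb

end Fermat.Agent.S16Aux
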