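/-
S16 (team U): (U11) the case analysis and THM-U.
-/
import Fermat.Agent.S16.WInst
import Fermat.Agent.S16.QCases
import Fermat.Agent.S16.HeckeTrick
import Fermat.Agent.S16.L8
import Fermat.Agent.S16.AtP
import Fermat.Agent.S16.Trace
import Fermat.Prelude.Thm_ModularForm_sturm_bound_Gamma0
import Fermat.Prelude.Thm_CongruenceSubgroup_one_mem_strictPeriods_Gamma0

set_option autoImplicit false

namespace Fermat.Agent.S16Aux

open UpperHalfPlane ModularForm CongruenceSubgroup PowerSeries ModularCurve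
open scoped Manifold MatrixGroups
open Fermat.Agent.S23Aux Fermat.Agent.DimAux

variable {Γ₀ : Type*} [LinearOrderedCommGroupWithZero Γ₀] {v : Valuation ℂ Γ₀}

/-! ### valuations of natural numbers -/

theorem val_natCast_eq_pow {l : ℕ} [Fact l.Prime] (hl : v (l : ℂ) < 1) {a : ℕ} (ha : a ≠ 0) :
    v (a : ℂ) = v (l : ℂ) ^ (a.factorization l) := by
  have h1 := Nat.ordProj_mul_ordCompl_eq_self a l
  have h2 : ¬ l ∣ ordCompl[l] a := Nat.not_dvd_ordCompl Fact.out ha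
  have h3 : v ((ordCompl[l] a : ℕ) : ℂ) = 1 :=
    val_natCast_eq_one_of_coprime hl
      (Nat.Coprime.symm ((Nat.Prime.coprime_iff_not_dvd Fact.out).2 h2))
  conv_lhs => rw [← h1]
  push_cast
  rw [map_mul, map_pow, h3, mul_one]

theorem pow_le_pow_of_le {x : Γ₀} (hx : x ≤ 1) {m n : ℕ} (h : m ≤ n) : x ^ n ≤ x ^ m :=
  pow_le_pow_right_of_le_one' hx h

/-- the modulus `π = 24 l^s / (p - 1)` -/
theorem val_modulus_le {l : ℕ} [Fact l.Prime] (hl : v (l : ℂ) < 1) {p s e : ℕ} (hp : 2 ≤ p)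
    (h : e + (p - 1).factorization l ≤ (24 : ℕ).factorization l + s) :
    v (24 * (l : ℂ) ^ s / ((p : ℂ) - 1)) ≤ v (l : ℂ) ^ e := by
  have hp1 : p - 1 ≠ 0 := by omega
  have h1 : ((p : ℂ) - 1) = ((p - 1 : ℕ) : ℂ) := by
    rw [Nat.cast_sub (by omega)]; simp
  have h24 : (24 : ℂ) = ((24 : ℕ) : ℂ) := by norm_num
  have hx0 : v (l : ℂ) ≠ 0 := val_natCast_ne_zero
  rw [h1, h24, map_div₀, map_mul, map_pow, val_natCast_eq_pow hl hp1,
    val_natCast_eq_pow hl (by norm_num : (24 : ℕ) ≠ 0), ← pow_add,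
    div_le_iff₀ (zero_lt_iff.2 (pow_ne_zero _ hx0)), ← pow_add]
  exact pow_le_pow_of_le hl.le h

/-! ### the normalised form `G` -/

theorem exists_G (p : ℕ) [Fact p.Prime] (F : CuspForm (Gamma0 p) 2) (a : ℕ → ℤ)
    (ha : ∀ k, ModularFormClass.qCoeff F k = (a k : ℂ)) (M : ℕ)
    (hM : ∀ k, 0 < k → (M : ℤ) ∣ a k - (sigmaP p k : ℤ)) :
    ∃ (G : ℍ → ℂ) (A B : PowerSeries ℂ), G ∈ MFun (Gamma0 p) 2 ∧ HasQExp 1 G A ∧
      HasQExp 1 (wOp p 2 G) B ∧
      (∀ {Γ₀ : Type*} [LinearOrderedCommGroupWithZero Γ₀] (v : Valuation ℂ Γ₀),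
        LeV v (v (24 * (M : ℂ) / ((p : ℂ) - 1))) (A - 1) ∧
        LeV v (v (24 * (M : ℂ) / ((p : ℂ) - 1))) (B - C (-(p : ℂ)))) := by
  have hp : p.Prime := Fact.out
  have hp1 : (p : ℂ) - 1 ≠ 0 := by
    have : (p : ℂ) ≠ 1 := by exact_mod_cast hp.one_lt.ne'
    exact sub_ne_zero.2 this
  obtain ⟨W, A, hW, hA, hB, h0, hk⟩ := exists_W p F a ha M hM
  refine ⟨((p : ℂ) - 1)⁻¹ • W, ((p : ℂ) - 1)⁻¹ • A, ((p : ℂ) - 1)⁻¹ • (-((p : ℂ) • uSer p A)),
    Submodule.smul_mem _ _ hW, hA.smul _, ?_, fun v => ⟨fun n => ?_, fun n => ?_⟩⟩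
  · rw [wOp_smul]; exact hB.smul _
  · rcases Nat.eq_zero_or_pos n with rfl | hn
    · rw [map_sub, coeff_smul, h0, smul_eq_mul, inv_mul_cancel₀ hp1]
      simp
    · obtain ⟨c, hc⟩ := hk n hn
      rw [map_sub, coeff_smul, hc, coeff_one, if_neg hn.ne', sub_zero, smul_eq_mul,
        show ((p : ℂ) - 1)⁻¹ * (24 * (M : ℂ) * c) = (24 * (M : ℂ) / ((p : ℂ) - 1)) * c by
          field_simp, map_mul]
      exact mul_le_of_le_one_right' (val_intCast_le_one v c)
  · rcases Nat.eq_zero_or_pos n with rfl | hn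
    · rw [map_sub, coeff_smul, map_neg, coeff_smul, coeff_uSer, zero_mul, h0, coeff_zero_C,
        smul_eq_mul, smul_eq_mul,
        show ((p : ℂ) - 1)⁻¹ * -((p : ℂ) * ((p : ℂ) - 1)) - -(p : ℂ) = 0 by field_simp; ring]
      simp
    · obtain ⟨c, hc⟩ := hk (n * p) (Nat.mul_pos hn hp.pos)
      rw [map_sub, coeff_smul, map_neg, coeff_smul, coeff_uSer, hc, coeff_C, if_neg hn.ne',
        sub_zero, smul_eq_mul, smul_eq_mul,
        show ((p : ℂ) - 1)⁻¹ * -((p : ℂ) * (24 * (M : ℂ) * c)) =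
          (24 * (M : ℂ) / ((p : ℂ) - 1)) * ((-(p : ℤ) * c : ℤ) : ℂ) by
          push_cast; field_simp, map_mul]
      exact mul_le_of_le_one_right' (val_intCast_le_one v _)

/-! ### arithmetic -/

theorem fact12_two : (12 : ℕ).factorization 2 = 2 := by
  rw [show (12 : ℕ) = 2 ^ 2 * 3 by norm_num, Nat.factorization_mul (by norm_num) (by norm_num),
    Nat.Prime.factorization_pow Nat.prime_two, Nat.Prime.factorization Nat.prime_three]
  simp

theorem fact12_three : (12 : ℕ).factorization 3 = 1 := by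
  rw [show (12 : ℕ) = 2 ^ 2 * 3 by norm_num, Nat.factorization_mul (by norm_num) (by norm_num),
    Nat.Prime.factorization_pow Nat.prime_two, Nat.Prime.factorization Nat.prime_three]
  simp

theorem fact24_two : (24 : ℕ).factorization 2 = 3 := by
  rw [show (24 : ℕ) = 2 ^ 3 * 3 by norm_num, Nat.factorization_mul (by norm_num) (by norm_num),
    Nat.Prime.factorization_pow Nat.prime_two, Nat.Prime.factorization Nat.prime_three]
  simp

theorem fact24_three : (24 : ℕ).factorization 3 = 1 := by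
  rw [show (24 : ℕ) = 2 ^ 3 * 3 by norm_num, Nat.factorization_mul (by norm_num) (by norm_num),
    Nat.Prime.factorization_pow Nat.prime_two, Nat.Prime.factorization Nat.prime_three]
  simp

theorem fact_eisensteinNumerator {p : ℕ} (hp : 2 ≤ p) (l : ℕ) :
    (eisensteinNumerator p).factorization l =
      (p - 1).factorization l - min ((p - 1).factorization l) ((12 : ℕ).factorization l) := by
  unfold eisensteinNumerator
  rw [Nat.factorization_div (Nat.gcd_dvd_left _ _), Finsupp.tsub_apply,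
    Nat.factorization_gcd (by omega) (by norm_num), Finsupp.inf_apply]

theorem eisensteinNumerator_ne_zero {p : ℕ} (hp : 2 ≤ p) : eisensteinNumerator p ≠ 0 := by
  unfold eisensteinNumerator
  have h1 : Nat.gcd (p - 1) 12 ∣ p - 1 := Nat.gcd_dvd_left _ _
  have h2 : 0 < Nat.gcd (p - 1) 12 := Nat.gcd_pos_of_pos_right _ (by norm_num)
  exact (Nat.div_pos (Nat.le_of_dvd (by omega) h1) h2).ne'

theorem not_dvd_of_ne {l : ℕ} (hl : l.Prime) (h2 : l ≠ 2) (h3 : l ≠ 3) (e : ℕ) :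
    ¬ l ∣ 2 ^ e * 3 := by
  intro h
  rcases (Nat.Prime.dvd_mul hl).1 h with h | h
  · exact h2 ((Nat.prime_dvd_prime_iff_eq hl Nat.prime_two).1 (hl.dvd_of_dvd_pow h))
  · exact h3 ((Nat.prime_dvd_prime_iff_eq hl Nat.prime_three).1 h)

/-! ### the case analysis -/

section cases

variable {p : ℕ} [Fact p.Prime] {G : ℍ → ℂ} {A B : PowerSeries ℂ}

omit [Fact p.Prime] in
theorem val_neg_natCast (hvp : v (p : ℂ) = 1) : v (-(p : ℂ)) = 1 := by
  rw [Valuation.map_neg, hvp]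

/-- `l = p` -/
theorem contra_at_p (hp5 : 5 ≤ p) (hl : v (p : ℂ) < 1) {s : ℕ} (hs : 0 < s)
    (hG : G ∈ MFun (Gamma0 p) 2) (hA : HasQExp 1 G A) (hB : HasQExp 1 (wOp p 2 G) B)
    (hA1 : LeV v (v (24 * (p : ℂ) ^ s / ((p : ℂ) - 1))) (A - 1))
    (hB1 : LeV v (v (24 * (p : ℂ) ^ s / ((p : ℂ) - 1))) (B - C (-(p : ℂ)))) : False := by
  have h0 : (p - 1).factorization p = 0 := Nat.factorization_eq_zero_of_lt (by omega)
  have hπ : v (24 * (p : ℂ) ^ s / ((p : ℂ) - 1)) ≤ v (p : ℂ) := by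
    have := val_modulus_le (l := p) hl (p := p) (s := s) (e := 1) (by omega) (by omega)
    simpa using this
  refine no_cong_at_p p hp5 hl hG hA hB (fun n => (hA1 n).trans hπ) ?_
  have h1 : LeV v (v (p : ℂ)) (C (-(p : ℂ))) := (LeV.C _).mono (by rw [Valuation.map_neg])
  have h2 := (hB1.mono hπ).add h1
  simpa using h2

/-- `l ∉ {2, 3, p}` -/
theorem contra_generic (hp5 : 5 ≤ p) {l : ℕ} [Fact l.Prime] (hl : v (l : ℂ) < 1) (hlp : l ≠ p)
    (h2 : l ≠ 2)
    (h3 : l ≠ 3) {s : ℕ} (hs : (p - 1).factorization l < s)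
    (hG : G ∈ MFun (Gamma0 p) 2) (hA : HasQExp 1 G A) (hB : HasQExp 1 (wOp p 2 G) B)
    (hA1 : LeV v (v (24 * (l : ℂ) ^ s / ((p : ℂ) - 1))) (A - 1))
    (hB1 : LeV v (v (24 * (l : ℂ) ^ s / ((p : ℂ) - 1))) (B - C (-(p : ℂ)))) : False := by
  have hp : p.Prime := Fact.out
  have hl' : l.Prime := Fact.out
  have hvp : v (p : ℂ) = 1 :=
    val_natCast_eq_one_of_coprime hl ((Nat.coprime_primes hp hl').2 (Ne.symm hlp))
  have hπ : v (24 * (l : ℂ) ^ s / ((p : ℂ) - 1)) ≤ v (l : ℂ) := by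
    have := val_modulus_le (l := l) hl (p := p) (s := s) (e := 1) hp.two_le (by omega)
    simpa using this
  have hv2 : v ((2 : ℕ) : ℂ) = 1 :=
    val_natCast_eq_one_of_coprime hl ((Nat.coprime_primes Nat.prime_two hl').2 (Ne.symm h2))
  have hv3 : v ((3 : ℕ) : ℂ) = 1 :=
    val_natCast_eq_one_of_coprime hl ((Nat.coprime_primes Nat.prime_three hl').2 (Ne.symm h3))
  have hp2 : (2 : ℕ) ≠ p := by omega
  refine HT.hecke_trick (q := 2) Nat.prime_two hp2 hvp hv2 hG hA hB (val_neg_natCast hvp) ?_ hA1 hB1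
  have e : (((2 : ℕ) : ℂ) ^ 2 - 1) = ((3 : ℕ) : ℂ) := by norm_num
  rw [e, hv3]
  exact hπ.trans_lt hl

/-- `l = 3` -/
theorem contra_three (hp5 : 5 ≤ p) (hl : v (3 : ℂ) < 1) {s : ℕ}
    (hs : (p - 1).factorization 3 - min ((p - 1).factorization 3) 1 < s)
    (hG : G ∈ MFun (Gamma0 p) 2) (hA : HasQExp 1 G A) (hB : HasQExp 1 (wOp p 2 G) B)
    (hA1 : LeV v (v (24 * (3 : ℂ) ^ s / ((p : ℂ) - 1))) (A - 1))
    (hB1 : LeV v (v (24 * (3 : ℂ) ^ s / ((p : ℂ) - 1))) (B - C (-(p : ℂ)))) : False := by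
  have hp : p.Prime := Fact.out
  have : Fact (Nat.Prime 3) := ⟨Nat.prime_three⟩
  have hl' : v ((3 : ℕ) : ℂ) < 1 := by simpa using hl
  have hvp : v (p : ℂ) = 1 :=
    val_natCast_eq_one_of_coprime hl' ((Nat.coprime_primes hp Nat.prime_three).2 (by omega))
  have hv2 : v ((2 : ℕ) : ℂ) = 1 :=
    val_natCast_eq_one_of_coprime hl' (by norm_num)
  rcases Nat.eq_zero_or_pos ((p - 1).factorization 3) with ht | ht
  · -- `3 ∤ p - 1`
    have hπ : v (24 * (3 : ℂ) ^ s / ((p : ℂ) - 1)) ≤ v (3 : ℂ) ^ 2 := by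
      have := val_modulus_le (l := 3) hl' (p := p) (s := s) (e := 2) hp.two_le
        (by rw [fact24_three]; omega)
      simpa using this
    refine HT.hecke_trick (q := 2) Nat.prime_two (by omega) hvp hv2 hG hA hB
      (val_neg_natCast hvp) ?_ hA1 hB1
    have e : (((2 : ℕ) : ℂ) ^ 2 - 1) = (3 : ℂ) := by norm_num
    rw [e]
    refine hπ.trans_lt ?_
    have h0 : 0 < v (3 : ℂ) := zero_lt_iff.2 (by simp)
    calc v (3 : ℂ) ^ 2 = v (3 : ℂ) * v (3 : ℂ) := sq _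
      _ < v (3 : ℂ) * 1 := (mul_lt_mul_iff_right₀ h0).2 hl
      _ = v (3 : ℂ) := mul_one _
  · -- `3 ∣ p - 1`
    have hπ : v (24 * (3 : ℂ) ^ s / ((p : ℂ) - 1)) ≤ v (3 : ℂ) := by
      have := val_modulus_le (l := 3) hl' (p := p) (s := s) (e := 1) hp.two_le
        (by rw [fact24_three]; omega)
      simpa using this
    have hd : 3 ∣ p - 1 := Nat.dvd_of_factorization_pos ht.ne'
    obtain ⟨m, hm⟩ := hd
    have hpm : p = 3 * m + 1 := by omega
    refine case3 (wSys p) (qP_wSys hvp) hvp hl (wSys_mk hG hA hB) (hA1.mono hπ) (hB1.mono hπ) ?_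
    have e : (-(p : ℂ) ^ 3 - (p : ℂ) ^ 6) = ((-(p : ℤ) ^ 3 - (p : ℤ) ^ 6 : ℤ) : ℂ) := by
      push_cast; ring
    rw [e]
    apply val_intCast_eq_one hl'
    rw [hpm]
    push_cast
    intro hdvd
    have : ((3 : ℤ)) ∣ 2 := by
      have h1 : (-(3 * (m : ℤ) + 1) ^ 3 - (3 * (m : ℤ) + 1) ^ 6) =
          3 * (-(9 * (m:ℤ)^3 + 9 * (m:ℤ)^2 + 3 * m) - (243 * (m:ℤ)^6 + 486 * (m:ℤ)^5 + 405 * (m:ℤ)^4 + 180 * (m:ℤ)^3 + 45 * (m:ℤ)^2 + 6 * m)) - 2 := by ring
      rw [h1] at hdvd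
      have h2 := (dvd_sub_right (Dvd.intro _ rfl)).1 hdvd
      exact h2
    omega

/-- `l = 2` -/
theorem contra_two (hp5 : 5 ≤ p) (hl : v (2 : ℂ) < 1) {s : ℕ}
    (hs : (p - 1).factorization 2 - min ((p - 1).factorization 2) 2 < s)
    (hG : G ∈ MFun (Gamma0 p) 2) (hA : HasQExp 1 G A) (hB : HasQExp 1 (wOp p 2 G) B)
    (hA1 : LeV v (v (24 * (2 : ℂ) ^ s / ((p : ℂ) - 1))) (A - 1))
    (hB1 : LeV v (v (24 * (2 : ℂ) ^ s / ((p : ℂ) - 1))) (B - C (-(p : ℂ)))) : False := by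
  have hp : p.Prime := Fact.out
  have : Fact (Nat.Prime 2) := ⟨Nat.prime_two⟩
  have hl' : v ((2 : ℕ) : ℂ) < 1 := by simpa using hl
  have hvp : v (p : ℂ) = 1 :=
    val_natCast_eq_one_of_coprime hl' ((Nat.coprime_primes hp Nat.prime_two).2 (by omega))
  have hodd : p % 2 = 1 := by
    rcases hp.eq_two_or_odd with h | h
    · omega
    · exact h
  have hp10 : p - 1 ≠ 0 := by omega
  rcases le_or_gt 2 ((p - 1).factorization 2) with ht | ht
  · -- `4 ∣ p - 1`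
    have hπ : v (24 * (2 : ℂ) ^ s / ((p : ℂ) - 1)) ≤ v (4 : ℂ) := by
      have := val_modulus_le (l := 2) hl' (p := p) (s := s) (e := 2) hp.two_le
        (by rw [fact24_two]; omega)
      have e : (4 : ℂ) = (2 : ℂ) ^ 2 := by norm_num
      rw [e, map_pow]
      simpa using this
    have hd : 2 ^ 2 ∣ p - 1 := (Nat.Prime.pow_dvd_iff_le_factorization Nat.prime_two hp10).2 ht
    obtain ⟨m, hm⟩ := hd
    have hpm : p = 4 * m + 1 := by omega
    refine case2a (wSys p) (qP_wSys hvp) hvp hl (wSys_mk hG hA hB) (hA1.mono hπ) (hB1.mono hπ)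
      (u := ((-((p : ℤ) ^ 3 * (1 + 6 * m + 24 * m ^ 2 + 32 * m ^ 3)) : ℤ) : ℂ)) ?_ ?_
    · rw [hpm]; push_cast; ring
    · apply val_intCast_eq_one hl'
      rw [hpm]
      push_cast
      intro hdvd
      obtain ⟨K, hK⟩ : ∃ K : ℤ, -((4 * (m : ℤ) + 1) ^ 3 * (1 + 6 * m + 24 * m ^ 2 + 32 * m ^ 3)) =
          2 * K + 1 :=
        ⟨-(2 * (32 * (m : ℤ) ^ 3 + 24 * m ^ 2 + 6 * m) * (3 * m + 12 * m ^ 2 + 16 * m ^ 3) +
          (32 * (m : ℤ) ^ 3 + 24 * m ^ 2 + 6 * m) + (3 * m + 12 * m ^ 2 + 16 * m ^ 3)) - 1, by ring⟩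
      rw [hK] at hdvd
      omega
  · -- `p ≡ 3 mod 4`
    have hπ : v (24 * (2 : ℂ) ^ s / ((p : ℂ) - 1)) ≤ v (8 : ℂ) := by
      have := val_modulus_le (l := 2) hl' (p := p) (s := s) (e := 3) hp.two_le
        (by rw [fact24_two]; omega)
      have e : (8 : ℂ) = (2 : ℂ) ^ 3 := by norm_num
      rw [e, map_pow]
      simpa using this
    have hd : ¬ 2 ^ 2 ∣ p - 1 := fun h =>
      absurd ((Nat.Prime.pow_dvd_iff_le_factorization Nat.prime_two hp10).1 h) (by omega)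
    have h8 : p % 8 = 3 ∨ p % 8 = 7 := by omega
    rcases h8 with h8 | h8
    · obtain ⟨m, hpm⟩ : ∃ m, p = 8 * m + 3 := ⟨p / 8, by omega⟩
      refine case2b (wSys p) (qP_wSys hvp) hvp hl (wSys_mk hG hA hB) (hA1.mono hπ) (hB1.mono hπ)
        (u := ((-((p : ℤ) ^ 2 * (1 + 6 * m + 8 * m ^ 2)) : ℤ) : ℂ)) ?_ ?_
      · rw [hpm]; push_cast; ring
      · apply val_intCast_eq_one hl'
        rw [hpm]
        push_cast
        intro hdvd
        obtain ⟨K, hK⟩ : ∃ K : ℤ, -((8 * (m : ℤ) + 3) ^ 2 * (1 + 6 * m + 8 * m ^ 2)) = 2 * K + 1 :=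
          ⟨-(2 * (32 * (m : ℤ) ^ 2 + 24 * m + 4) * (3 * m + 4 * m ^ 2) +
            (32 * (m : ℤ) ^ 2 + 24 * m + 4) + (3 * m + 4 * m ^ 2)) - 1, by ring⟩
        rw [hK] at hdvd
        omega
    · refine L8 hl h8 hG hA hB (hA1.mono hπ) ?_
      have := hB1.mono hπ
      simpa using this

end cases

/-! ### assembling -/

theorem prime_pow_dvd (p : ℕ) [Fact p.Prime] (hp5 : 5 ≤ p) (l : ℕ) (hl : l.Prime) (s : ℕ)
    (F : CuspForm (Gamma0 p) 2) (a : ℕ → ℤ)
    (ha : ∀ k, ModularFormClass.qCoeff F k = (a k : ℂ))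
    (hM : ∀ k, 0 < k → ((l ^ s : ℕ) : ℤ) ∣ a k - (sigmaP p k : ℤ)) :
    l ^ s ∣ eisensteinNumerator p := by
  have : Fact l.Prime := ⟨hl⟩
  have hp : p.Prime := Fact.out
  rw [Nat.Prime.pow_dvd_iff_le_factorization hl (eisensteinNumerator_ne_zero hp.two_le)]
  by_contra hcon
  push Not at hcon
  rw [fact_eisensteinNumerator hp.two_le] at hcon
  obtain ⟨V, hV⟩ := exists_val l
  obtain ⟨G, A, B, hG, hA, hB, hAB⟩ := exists_G p F a ha (l ^ s) hM
  obtain ⟨hA1, hB1⟩ := hAB V.valuation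
  rw [Nat.cast_pow] at hA1 hB1
  by_cases hlp : l = p
  · subst hlp
    exact contra_at_p hp5 hV (by omega) hG hA hB hA1 hB1
  by_cases h2 : l = 2
  · subst h2
    rw [fact12_two] at hcon
    exact contra_two hp5 (by simpa using hV) hcon hG hA hB (by simpa using hA1)
      (by simpa using hB1)
  by_cases h3 : l = 3
  · subst h3
    rw [fact12_three] at hcon
    exact contra_three hp5 (by simpa using hV) hcon hG hA hB (by simpa using hA1)
      (by simpa using hB1)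
  have h12 : (12 : ℕ).factorization l = 0 :=
    Nat.factorization_eq_zero_of_not_dvd (not_dvd_of_ne hl h2 h3 2)
  rw [h12] at hcon
  exact contra_generic hp5 hV hlp h2 h3 (by simpa using hcon) hG hA hB hA1 hB1

theorem index_Gamma0_prime (p : ℕ) [Fact p.Prime] : (Gamma0 p).index = p + 1 := by
  have : NeZero p := ⟨(Fact.out : p.Prime).ne_zero⟩
  have : Fintype (SL(2, ℤ) ⧸ Gamma0 p) := Fintype.ofFinite _
  rw [Subgroup.index, Nat.card_eq_fintype_card, card_cosets_Gamma0_prime]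

theorem cuspForm_eq_zero_of_small (p : ℕ) [Fact p.Prime] (hp : p < 5)
    (f : CuspForm (Gamma0 p) 2) : f = 0 := by
  have : NeZero p := ⟨(Fact.out : p.Prime).ne_zero⟩
  have hidx := index_Gamma0_prime p
  have key : (ModularFormClass.modularForm f : ModularForm (Gamma0 p) 2) = 0 := by
    apply ModularForm.sturm_bound_Gamma0 p
    intro n hn
    have hn0 : n = 0 := by
      rw [hidx] at hn
      omega
    subst hn0
    exact CuspFormClass.qExpansion_coeff_zero f one_pos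
      (CongruenceSubgroup.one_mem_strictPeriods_Gamma0 p)
  ext z
  have := congrArg (fun F : ModularForm (Gamma0 p) 2 => F z) key
  simpa using this

/-- THM-U -/
theorem thmU (p : ℕ) [Fact p.Prime] : ThmU p := by
  intro M hM0 F a ha hM
  rcases lt_or_ge p 5 with hp | hp
  · have hF := cuspForm_eq_zero_of_small p hp F
    have h1 := ha 1
    have h0 : ModularFormClass.qCoeff F 1 = 0 := by
      have hcoe : ((0 : CuspForm (Gamma0 p) 2) : ℍ → ℂ) = (0 : ℍ → ℂ) := rfl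
      rw [hF, ModularFormClass.qCoeff, hcoe, qExpansion_zero]
      simp
    rw [h0] at h1
    have h2 : a 1 = 0 := by exact_mod_cast h1.symm
    have h3 := hM 1 one_pos
    rw [h2, sigmaP_one] at h3
    have h4 : (M : ℤ) ∣ 1 := by simpa using h3
    have h5 : M ∣ 1 := by exact_mod_cast h4
    rw [Nat.dvd_one.1 h5]
    exact one_dvd _
  · rw [Nat.dvd_iff_prime_pow_dvd_dvd]
    intro l s hl hls
    refine prime_pow_dvd p hp l hl s F a ha (fun k hk => ?_)
    exact (Int.natCast_dvd_natCast.2 hls).trans (hM k hk)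

end Fermat.Agent.S16Aux
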