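import Fermat.Agent.S16.A_Tk
import Fermat.Agent.S23

/-!
# S16, part A2: duality between the lattice and the Hecke algebra
-/

set_option autoImplicit false

open ModularCurve CuspForm ModularFormClass

namespace Fermat.Agent.S16Aux

variable (p : ℕ) [Fact p.Prime]

omit [Fact p.Prime] in
theorem exists_int_cLin (j : ℕ) (f : CuspForm (CongruenceSubgroup.Gamma0 p) 2)
    (hf : f ∈ intLattice p 2) : ∃ m : ℤ, cLin p j f = m := by
  unfold intLattice at hf
  induction hf using Submodule.span_induction with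
  | mem x hx => exact hx j
  | zero => exact ⟨0, by simp⟩
  | add x y _ _ hx hy =>
    obtain ⟨a, ha⟩ := hx
    obtain ⟨b, hb⟩ := hy
    exact ⟨a + b, by rw [map_add, ha, hb]; push_cast; ring⟩
  | smul c x _ hx =>
    obtain ⟨a, ha⟩ := hx
    exact ⟨c * a, by rw [map_zsmul, ha]; push_cast; simp⟩

/-- integer valued `q`-coefficients on the lattice. -/
noncomputable def aInt (j : ℕ) : ↥(intLattice p 2) →ₗ[ℤ] ℤ where
  toFun f := (exists_int_cLin p j f.1 f.2).choose
  map_add' f g := by
    apply Int.cast_injective (α := ℂ)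
    rw [Int.cast_add, ← (exists_int_cLin p j f.1 f.2).choose_spec,
      ← (exists_int_cLin p j g.1 g.2).choose_spec,
      ← (exists_int_cLin p j (f + g).1 (f + g).2).choose_spec]
    exact map_add _ _ _
  map_smul' c f := by
    apply Int.cast_injective (α := ℂ)
    rw [RingHom.id_apply, smul_eq_mul, Int.cast_mul, ← (exists_int_cLin p j f.1 f.2).choose_spec,
      ← (exists_int_cLin p j (c • f).1 (c • f).2).choose_spec]
    exact (map_zsmul (cLin p j) c f.1).trans (zsmul_eq_mul _ _)

theorem aInt_spec (j : ℕ) (f : ↥(intLattice p 2)) : ((aInt p j f : ℤ) : ℂ) = cLin p j f.1 :=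
  (exists_int_cLin p j f.1 f.2).choose_spec.symm

omit [Fact p.Prime] in
theorem cLin_zero (f : CuspForm (CongruenceSubgroup.Gamma0 p) 2) : cLin p 0 f = 0 :=
  CuspFormClass.qExpansion_coeff_zero f one_pos (CongruenceSubgroup.one_mem_strictPeriods_Gamma0 p)

theorem eq_zero_of_cLin (f : CuspForm (CongruenceSubgroup.Gamma0 p) 2)
    (h : ∀ k, 0 < k → cLin p k f = 0) : f = 0 := by
  apply S23Aux.qLin_injective p 2
  rw [map_zero]
  ext k
  rcases Nat.eq_zero_or_pos k with rfl | hk
  · exact cLin_zero p f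
  · exact h k hk

theorem eq_zero_of_aInt (f : ↥(intLattice p 2)) (h : ∀ k, 0 < k → aInt p k f = 0) : f = 0 := by
  apply Subtype.ext
  apply eq_zero_of_cLin
  intro k hk
  rw [← aInt_spec, h k hk, Int.cast_zero]

/-- the map from Hecke polynomials to the lattice Hecke algebra of the statement. -/
noncomputable def phi : HeckeAlg →+* ↥(heckeLatticeAlgebra p ∅) :=
  (latticeRestrictHom p ∅).toRingHom.comp (heckeEvalForms p 2)

theorem phi_apply_coe (P : HeckeAlg) (f : ↥(intLattice p 2)) :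
    (((phi p P).1 f : ↥(intLattice p 2)) : CuspForm (CongruenceSubgroup.Gamma0 p) 2)
      = op p P f.1 := rfl

theorem heckeEvalForms_surjective : Function.Surjective (heckeEvalForms p 2) := by
  rintro ⟨t, ht⟩
  unfold heckeAlgebra at ht
  induction ht using Algebra.adjoin_induction with
  | mem x hx =>
    rcases hx with ⟨l, hl, hlN, -, rfl⟩ | ⟨q, hqN, hq, -, rfl⟩
    · exact ⟨heckeGen ⟨l, hl⟩, by
        rw [heckeEvalForms_heckeGen_of_not_dvd (ℓ := ⟨l, hl⟩) hlN]; rfl⟩
    · exact ⟨heckeGen ⟨q, hq⟩, by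
        rw [heckeEvalForms_heckeGen_of_dvd (q := ⟨q, hq⟩) hqN]; rfl⟩
  | algebraMap r => exact ⟨MvPolynomial.C r, by rw [heckeEvalForms_C]; rfl⟩
  | add x y hx hy ihx ihy =>
    obtain ⟨P, hP⟩ := ihx
    obtain ⟨Q, hQ⟩ := ihy
    exact ⟨P + Q, by rw [map_add, hP, hQ]; rfl⟩
  | mul x y hx hy ihx ihy =>
    obtain ⟨P, hP⟩ := ihx
    obtain ⟨Q, hQ⟩ := ihy
    exact ⟨P * Q, by rw [map_mul, hP, hQ]; rfl⟩

theorem phi_surjective : Function.Surjective (phi p) :=
  (latticeRestrictHom_surjective p ∅).comp (heckeEvalForms_surjective p)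

theorem phi_eq_zero_iff (P : HeckeAlg) : phi p P = 0 ↔ heckeEvalForms p 2 P = 0 := by
  have hinj := (latticeRestrictHom_bijective p ∅ (Fermat.Agent.S23.result p)).1
  constructor
  · intro h
    apply hinj
    rw [map_zero]
    exact h
  · intro h
    unfold phi
    rw [RingHom.comp_apply, h, map_zero]

/-- `a_j (T_k f) = a_{jk} f` on the lattice. -/
theorem aInt_phi {k : ℕ} {P : HeckeAlg} (hP : IsTk p k P) (f : ↥(intLattice p 2)) {j : ℕ}
    (hj : j.Coprime k) : aInt p j ((phi p P).1 f) = aInt p (j * k) f := by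
  apply Int.cast_injective (α := ℂ)
  rw [aInt_spec, aInt_spec, phi_apply_coe, hP.2 _ _ hj]

/-- the pairing `(f, t) ↦ a_1 (t f)`. -/
noncomputable def pairL : ↥(intLattice p 2) →ₗ[ℤ] ↥(heckeLatticeAlgebra p ∅) →ₗ[ℤ] ℤ :=
  LinearMap.mk₂ ℤ (fun f t => aInt p 1 (t.1 f))
    (fun f g t => by simp) (fun c f t => by simp)
    (fun f s t => by simp) (fun c f t => by simp)

theorem pairL_apply (f : ↥(intLattice p 2)) (t : ↥(heckeLatticeAlgebra p ∅)) :
    pairL p f t = aInt p 1 (t.1 f) := rfl

theorem pairL_phi {k : ℕ} {P : HeckeAlg} (hP : IsTk p k P) (f : ↥(intLattice p 2)) :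
    pairL p f (phi p P) = aInt p k f := by
  rw [pairL_apply, aInt_phi p hP f (Nat.coprime_one_left k), one_mul]

theorem pairL_injective : Function.Injective (pairL p) := by
  rw [injective_iff_map_eq_zero]
  intro f hf
  apply eq_zero_of_aInt
  intro k hk
  obtain ⟨P, hP⟩ := exists_isTk p k hk
  rw [← pairL_phi p hP, hf]
  rfl

theorem pairL_flip_injective : Function.Injective (pairL p).flip := by
  rw [injective_iff_map_eq_zero]
  intro t ht
  apply Subtype.ext
  apply LinearMap.ext
  intro f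
  apply eq_zero_of_aInt
  intro k hk
  obtain ⟨P, hP⟩ := exists_isTk p k hk
  have h1 : aInt p k (t.1 f) = pairL p (t.1 f) (phi p P) := (pairL_phi p hP _).symm
  have h2 : (phi p P).1 (t.1 f) = t.1 ((phi p P).1 f) := by
    have := congrArg (fun s : ↥(heckeLatticeAlgebra p ∅) => s.1 f) (mul_comm (phi p P) t)
    exact this
  rw [h1, pairL_apply, h2]
  exact LinearMap.congr_fun ht ((phi p P).1 f)

theorem finrank_eq : Module.finrank ℤ ↥(intLattice p 2)
    = Module.finrank ℤ ↥(heckeLatticeAlgebra p ∅) := by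
  have := intLattice.moduleFinite p
  have := intLattice.moduleFree p
  apply le_antisymm
  · have := LinearMap.finrank_le_finrank_of_injective (pairL_injective p)
    rwa [Module.finrank_linearMap, Module.finrank_self, mul_one] at this
  · have := LinearMap.finrank_le_finrank_of_injective (pairL_flip_injective p)
    rwa [Module.finrank_linearMap, Module.finrank_self, mul_one] at this

theorem pairL_surjective : Function.Surjective (pairL p) := by
  have := intLattice.moduleFinite p
  have := intLattice.moduleFree p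
  intro ψ
  have hfin : Finite ((↥(heckeLatticeAlgebra p ∅) →ₗ[ℤ] ℤ) ⧸ LinearMap.range (pairL p)) := by
    apply Submodule.finiteQuotientOfFreeOfRankEq
    rw [LinearMap.finrank_range_of_inj (pairL_injective p), Module.finrank_linearMap,
      Module.finrank_self, mul_one, finrank_eq]
  set N := Nat.card ((↥(heckeLatticeAlgebra p ∅) →ₗ[ℤ] ℤ) ⧸ LinearMap.range (pairL p)) with hN
  have hN0 : N ≠ 0 := Nat.card_ne_zero.2 ⟨⟨0⟩, hfin⟩
  have hmem : N • ψ ∈ LinearMap.range (pairL p) := by
    have := AddSubgroup.nsmul_index_mem (LinearMap.range (pairL p)).toAddSubgroup ψ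
    exact this
  obtain ⟨f, hf⟩ := hmem
  -- divide `f` by `N`
  have hNC : (N : ℂ) ≠ 0 := Nat.cast_ne_zero.2 hN0
  let g : CuspForm (CongruenceSubgroup.Gamma0 p) 2 := (N : ℂ)⁻¹ • f.1
  have hg : g ∈ intLattice p 2 := by
    apply Submodule.subset_span
    intro k
    rcases Nat.eq_zero_or_pos k with rfl | hk
    · exact ⟨0, by rw [Int.cast_zero]; exact cLin_zero p g⟩
    · obtain ⟨P, hP⟩ := exists_isTk p k hk
      refine ⟨ψ (phi p P), ?_⟩
      have h1 : aInt p k f = N * ψ (phi p P) := by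
        rw [← pairL_phi p hP, hf]
        simp
      have h2 : cLin p k g = (N : ℂ)⁻¹ * cLin p k f.1 := by
        rw [map_smul, smul_eq_mul]
      rw [← cLin_apply, h2, ← aInt_spec, h1]
      push_cast
      field_simp
  refine ⟨⟨g, hg⟩, ?_⟩
  have h3 : N • (⟨g, hg⟩ : ↥(intLattice p 2)) = f := by
    apply Subtype.ext
    show N • g = f.1
    rw [← Nat.cast_smul_eq_nsmul ℂ, smul_smul, mul_inv_cancel₀ hNC, one_smul]
  have h4 : N • pairL p ⟨g, hg⟩ = N • ψ := by
    rw [← map_nsmul, h3, hf]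
  ext t
  have h5 := LinearMap.congr_fun h4 t
  simp only [LinearMap.smul_apply, smul_eq_mul, nsmul_eq_mul] at h5
  exact mul_left_cancel₀ (Nat.cast_ne_zero.2 hN0) h5

/-- (DUAL) a ring homomorphism `TL → ZMod M` through which the Eisenstein system factors gives a
cusp form with integral coefficients congruent to `σ'` mod `M`. -/
theorem exists_form_of_hom (M : ℕ) (lam : ↥(heckeLatticeAlgebra p ∅) →+* ZMod M)
    (hlam : ∀ P, lam (phi p P) = ((eps p P : ℤ) : ZMod M)) :
    ∃ (F : CuspForm (CongruenceSubgroup.Gamma0 p) 2) (a : ℕ → ℤ),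
      (∀ k, qCoeff F k = (a k : ℂ)) ∧ ∀ k, 0 < k → (M : ℤ) ∣ a k - (sigmaP p k : ℤ) := by
  obtain ⟨ψ, hψ⟩ := Module.projective_lifting_property
    ((Int.castAddHom (ZMod M)).toIntLinearMap) (lam.toAddMonoidHom.toIntLinearMap)
    (ZMod.intCast_surjective)
  obtain ⟨F, hF⟩ := pairL_surjective p ψ
  refine ⟨F.1, fun k => aInt p k F, fun k => ?_, fun k hk => ?_⟩
  · rw [aInt_spec, cLin_apply]
  · obtain ⟨P, hP⟩ := exists_isTk p k hk
    show (M : ℤ) ∣ aInt p k F - (sigmaP p k : ℤ)
    rw [← pairL_phi p hP, hF, ← ZMod.intCast_zmod_eq_zero_iff_dvd, Int.cast_sub, sub_eq_zero]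
    have := LinearMap.congr_fun hψ (phi p P)
    have h5 : ((ψ (phi p P) : ℤ) : ZMod M) = lam (phi p P) := this
    rw [h5, hlam, hP.1]

end Fermat.Agent.S16Aux
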