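import Fermat.Agent.S16.Sigma
import Fermat.Agent.Lib.S23_Main
import Fermat.Prelude.Thm_CongruenceSubgroup_one_mem_strictPeriods_Gamma0
import Fermat.Prelude.Thm_ModularFormClass_qCoeff_heckeT
import Fermat.Prelude.Thm_ModularFormClass_qCoeff_heckeU

/-!
# S16, part A1: the Hecke polynomials `T_k`
-/

set_option autoImplicit false

open ModularCurve CuspForm ModularFormClass

namespace Fermat.Agent.S16Aux

variable (p : ℕ) [Fact p.Prime]

/-- the operator on cusp forms attached to a Hecke polynomial. -/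
noncomputable def op (P : HeckeAlg) :
    Module.End ℂ (CuspForm (CongruenceSubgroup.Gamma0 p) 2) :=
  (heckeEvalForms p 2 P : Module.End ℂ (CuspForm (CongruenceSubgroup.Gamma0 p) 2))

theorem op_mul (P Q : HeckeAlg) (f : CuspForm (CongruenceSubgroup.Gamma0 p) 2) :
    op p (P * Q) f = op p P (op p Q f) := by
  unfold op
  rw [map_mul]
  rfl

theorem op_one (f : CuspForm (CongruenceSubgroup.Gamma0 p) 2) : op p 1 f = f := by
  unfold op
  rw [map_one]
  rfl

theorem op_sub (P Q : HeckeAlg) (f : CuspForm (CongruenceSubgroup.Gamma0 p) 2) :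
    op p (P - Q) f = op p P f - op p Q f := by
  unfold op
  rw [map_sub]
  rfl

theorem op_C_mul (c : ℤ) (Q : HeckeAlg) (f : CuspForm (CongruenceSubgroup.Gamma0 p) 2) :
    op p (MvPolynomial.C c * Q) f = c • op p Q f := by
  unfold op
  rw [map_mul, heckeEvalForms_C]
  rw [← Algebra.smul_def]
  rfl

/-- the `j`-th `q`-coefficient as a linear form. -/
noncomputable def cLin (j : ℕ) : CuspForm (CongruenceSubgroup.Gamma0 p) 2 →ₗ[ℂ] ℂ :=
  (PowerSeries.coeff (R := ℂ) j) ∘ₗ S23Aux.qLin p 2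

omit [Fact p.Prime] in
theorem cLin_apply (j : ℕ) (f : CuspForm (CongruenceSubgroup.Gamma0 p) 2) :
    cLin p j f = qCoeff f j := rfl

theorem qCoeff_op_X_of_ne (l : Nat.Primes) (h : (l : ℕ) ≠ p)
    (f : CuspForm (CongruenceSubgroup.Gamma0 p) 2) (j : ℕ) :
    cLin p j (op p (MvPolynomial.X l) f) =
      cLin p (j * l) f + if (l : ℕ) ∣ j then (l : ℂ) * cLin p (j / l) f else 0 := by
  simp only [cLin_apply]
  have hnd : ¬ (l : ℕ) ∣ p := fun hd =>
    h ((Nat.prime_dvd_prime_iff_eq l.2 (Fact.out : p.Prime)).1 hd)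
  have h1 : op p (MvPolynomial.X l) f = heckeTLin 2 l.2 hnd f := by
    unfold op
    have := heckeEvalForms_heckeGen_of_not_dvd (N := p) (k := 2) hnd
    rw [heckeGen] at this
    rw [this]
    rfl
  rw [h1, coe_heckeTLin_apply,
    ModularFormClass.qCoeff_heckeT f (CongruenceSubgroup.one_mem_strictPeriods_Gamma0 p)
      l.2.ne_zero j, ModularForm.coeffHeckeT_apply]
  norm_num

theorem qCoeff_op_X_self (l : Nat.Primes) (h : (l : ℕ) = p)
    (f : CuspForm (CongruenceSubgroup.Gamma0 p) 2) (j : ℕ) :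
    cLin p j (op p (MvPolynomial.X l) f) = cLin p (j * l) f := by
  simp only [cLin_apply]
  have hd : (l : ℕ) ∣ p := h ▸ dvd_rfl
  have h1 : op p (MvPolynomial.X l) f = heckeULin 2 hd f := by
    unfold op
    have := heckeEvalForms_heckeGen_of_dvd (N := p) (k := 2) hd
    rw [heckeGen] at this
    rw [this]
    rfl
  rw [h1, coe_heckeULin_apply,
    ModularFormClass.qCoeff_heckeU f (CongruenceSubgroup.one_mem_strictPeriods_Gamma0 p)
      l.2.ne_zero j, ModularForm.coeffHeckeU_apply]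

/-- the Eisenstein evaluation. -/
noncomputable def eps : HeckeAlg →ₐ[ℤ] ℤ := MvPolynomial.aeval (eisensteinSystem p)

/-- The property defining `T_k`. -/
def IsTk (k : ℕ) (P : HeckeAlg) : Prop :=
  eps p P = sigmaP p k ∧
    ∀ (f : CuspForm (CongruenceSubgroup.Gamma0 p) 2) (j : ℕ), j.Coprime k →
      cLin p j (op p P f) = cLin p (j * k) f

theorem exists_isTk_self_pow (l : Nat.Primes) (h : (l : ℕ) = p) (r : ℕ) :
    ∃ P, IsTk p ((l : ℕ) ^ r) P := by
  refine ⟨MvPolynomial.X l ^ r, ?_, ?_⟩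
  · rw [h, sigmaP_self_pow Fact.out, map_pow, eps, MvPolynomial.aeval_X,
      eisensteinSystem_of_dvd (h ▸ dvd_rfl)]
    simp
  · intro f j hj
    clear hj
    induction r generalizing f with
    | zero => simp [op_one]
    | succ r ih =>
      rw [pow_succ, op_mul, ih, qCoeff_op_X_self p l h, pow_succ, mul_assoc]

theorem exists_isTk_prime_pow_aux (l : Nat.Primes) (h : (l : ℕ) ≠ p) (r : ℕ) :
    ∃ P Q, IsTk p ((l : ℕ) ^ r) P ∧ IsTk p ((l : ℕ) ^ (r + 1)) Q := by
  have hnd : ¬ (l : ℕ) ∣ p := fun hd =>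
    h ((Nat.prime_dvd_prime_iff_eq l.2 (Fact.out : p.Prime)).1 hd)
  have hX : IsTk p ((l : ℕ) ^ 1) (MvPolynomial.X l) := by
    refine ⟨?_, ?_⟩
    · rw [sigmaP_prime_pow Fact.out l.2 h, eps, MvPolynomial.aeval_X,
        eisensteinSystem_of_not_dvd hnd]
      simp [Finset.sum_range_succ]
    · intro f j hj
      rw [pow_one] at hj ⊢
      rw [qCoeff_op_X_of_ne p l h, if_neg, add_zero]
      intro hd
      exact l.2.one_lt.ne' (Nat.eq_one_of_dvd_coprimes hj hd dvd_rfl)
  induction r with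
  | zero =>
    refine ⟨1, MvPolynomial.X l, ⟨?_, ?_⟩, hX⟩
    · simp [sigmaP_one]
    · intro f j _
      simp [op_one]
  | succ r ih =>
    obtain ⟨P, Q, hP, hQ⟩ := ih
    refine ⟨Q, Q * MvPolynomial.X l - MvPolynomial.C ((l : ℕ) : ℤ) * P, hQ, ?_, ?_⟩
    · rw [sigmaP_prime_pow_rec Fact.out l.2 h, map_sub, map_mul, map_mul, hP.1, hQ.1]
      rw [eps, MvPolynomial.aeval_X, MvPolynomial.aeval_C, eisensteinSystem_of_not_dvd hnd]
      simp only [Algebra.algebraMap_self, RingHom.id_apply]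
      ring
    · intro f j hj
      have hj1 : j.Coprime (l : ℕ) := Nat.Coprime.coprime_dvd_right (dvd_pow_self _ (by omega)) hj
      rw [op_sub, map_sub, op_mul, op_C_mul, map_zsmul, hQ.2 _ _ (hj1.pow_right _),
        hP.2 _ _ (hj1.pow_right _), qCoeff_op_X_of_ne p l h, if_pos (Dvd.intro_left _ (pow_succ _ _).symm |>.mul_left j)]
      have e1 : j * (l : ℕ) ^ (r + 1) / (l : ℕ) = j * (l : ℕ) ^ r := by
        rw [pow_succ, ← mul_assoc, Nat.mul_div_cancel _ l.2.pos]
      have e2 : j * (l : ℕ) ^ (r + 1) * (l : ℕ) = j * (l : ℕ) ^ (r + 1 + 1) := by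
        rw [pow_succ _ (r + 1), mul_assoc]
      rw [e1, e2, zsmul_eq_mul, Int.cast_natCast]
      ring

theorem exists_isTk (k : ℕ) (hk : 0 < k) : ∃ P, IsTk p k P := by
  induction k using Nat.recOnPosPrimePosCoprime with
  | zero => omega
  | one =>
    refine ⟨1, ?_, ?_⟩
    · simp [sigmaP_one]
    · intro f j _
      simp [op_one]
  | prime_pow l r hl _ =>
    by_cases h : l = p
    · exact exists_isTk_self_pow p ⟨l, hl⟩ h r
    · obtain ⟨P, _, hP, _⟩ := exists_isTk_prime_pow_aux p ⟨l, hl⟩ h r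
      exact ⟨P, hP⟩
  | coprime a b ha hb hab iha ihb =>
    obtain ⟨P, hP⟩ := iha (by omega)
    obtain ⟨Q, hQ⟩ := ihb (by omega)
    refine ⟨P * Q, ?_, ?_⟩
    · rw [map_mul, hP.1, hQ.1, sigmaP_mul_of_coprime p hab]
      push_cast
      ring
    · intro f j hj
      rw [op_mul, hP.2 _ _ (Nat.Coprime.coprime_mul_right_right hj),
        hQ.2 _ _ (Nat.Coprime.mul_left (Nat.Coprime.coprime_mul_left_right hj) hab), mul_assoc]

end Fermat.Agent.S16Aux
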