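import Fermat.Statements.S16

/-!
# S16: shared definitions (frozen interface between the teams A, U, Lo)
-/

set_option autoImplicit false

open ModularCurve CuspForm

namespace Fermat.Agent.S16Aux

/-- `σ'(k) = ∑_{d ∣ k, p ∤ d} d`, written as `σ₁` of the prime-to-`p` part of `k`. -/
noncomputable def sigmaP (p k : ℕ) : ℕ := ArithmeticFunction.sigma 1 (ordCompl[p] k)

/-- THM-U (upper bound): a cusp form congruent to the Eisenstein series mod `M` forces
`M ∣ n`. -/
def ThmU (p : ℕ) [Fact p.Prime] : Prop :=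
  ∀ (M : ℕ), 0 < M → ∀ (F : CuspForm (CongruenceSubgroup.Gamma0 p) 2) (a : ℕ → ℤ),
    (∀ k, ModularFormClass.qCoeff F k = (a k : ℂ)) →
    (∀ k, 0 < k → (M : ℤ) ∣ a k - (sigmaP p k : ℤ)) →
    M ∣ eisensteinNumerator p

/-- THM-L (lower bound): the Eisenstein eigensystem mod `n` factors through the Hecke algebra. -/
def ThmL (p : ℕ) [Fact p.Prime] : Prop :=
  ∀ P : HeckeAlg, heckeEvalForms p 2 P = 0 →
    (eisensteinNumerator p : ℤ) ∣ MvPolynomial.aeval (eisensteinSystem p) P

end Fermat.Agent.S16Aux
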