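/-
S16 helper library (team U): (U9) the case `l = 2`, `p ≡ 7 mod 8` (formal version).
-/
import Fermat.Agent.S16.QCases

set_option autoImplicit false

namespace Fermat.Agent.S16Aux

open UpperHalfPlane ModularForm EisensteinSeries ModularFormClass PowerSeries
open scoped Manifold MatrixGroups ArithmeticFunction.sigma
open Fermat.Agent.S23Aux Fermat.Agent.DimAux

noncomputable section

variable {Γ₀ : Type*} [LinearOrderedCommGroupWithZero Γ₀] {v : Valuation ℂ Γ₀}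

lemma eight_dvd_aux (d : ℕ) : (8 : ℤ) ∣ (d : ℤ) ^ 3 - (d : ℤ) ^ 5 := by
  have := (ZMod.intCast_zmod_eq_zero_iff_dvd ((d : ℤ) ^ 3 - (d : ℤ) ^ 5) 8)
  refine this.1 ?_
  push_cast
  generalize (d : ZMod 8) = x
  revert x
  decide

lemma eight_dvd_sigma (n : ℕ) : (8 : ℤ) ∣ (σ 3 n : ℤ) - (σ 5 n : ℤ) := by
  simp only [ArithmeticFunction.sigma_apply]
  push_cast
  rw [← Finset.sum_sub_distrib]
  exact Finset.dvd_sum fun d _ => eight_dvd_aux d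

lemma exists_sc : ∃ sc : PowerSeries ℂ, (∀ {Γ₀ : Type*} [LinearOrderedCommGroupWithZero Γ₀]
    (v : Valuation ℂ Γ₀), LeV v 1 sc) ∧ sb = sa - 8 * sc := by
  choose c hc using eight_dvd_sigma
  refine ⟨(PowerSeries.mk fun n => if n = 0 then 0 else c n).map (Int.castRingHom ℂ),
    fun v => LeV.map_int _, ?_⟩
  rw [sa, sb, ← map_ofNat (PowerSeries.map (Int.castRingHom ℂ)) 8, ← map_mul, ← map_sub]
  congr 1
  have h8 : (8 : PowerSeries ℤ) = PowerSeries.C (8 : ℤ) := by simp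
  rw [h8]
  ext n
  simp only [map_sub, PowerSeries.coeff_C_mul, sigmaSeries, PowerSeries.coeff_mk]
  by_cases hn : n = 0
  · simp [hn]
  · simp only [hn, if_false]
    linarith [hc n]

/-- the remainder in the identity mod `512` -/
def R8 (x a c : PowerSeries ℂ) : PowerSeries ℂ :=
  3 * x ^ 2 + 36 * x ^ 3 + 72 * x ^ 4 - 225 * a * x - 900 * a * x ^ 2 - 189 * (a - 8 * c) * x
    - 42 * a + 196 * c - 267 * a ^ 2 - 3528 * a * c + 14112 * c ^ 2 - 12000 * a ^ 3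

theorem leV_R8 {x a c : PowerSeries ℂ} (hx : LeV v 1 x) (ha : LeV v 1 a) (hc : LeV v 1 c) :
    LeV v 1 (R8 x a c) := by
  unfold R8
  apply_rules (maxDepth := 400) [LeV.pow, LeV.add, LeV.sub, LeV.mul1, leV_ofNat]

theorem l8_identity (x a c D : PowerSeries ℂ)
    (hD : 1728 * D = (1 + 240 * a) ^ 3 - (1 - 504 * (a - 8 * c)) ^ 2) :
    C (1 / 256 : ℂ) * (3 * (1 + 8 * x) ^ 4 - 10 * (1 + 240 * a) * (1 + 8 * x) ^ 2
      + 8 * (1 - 504 * (a - 8 * c)) * (1 + 8 * x) - (1 + 240 * a) ^ 2) =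
      D + C 2 * (C (1 / 3 : ℂ) * R8 x a c) := by
  have h256 : C (1 / 256 : ℂ) * 256 = 1 := by
    rw [← map_ofNat C 256, ← map_mul]; norm_num
  have h3 : C (1 / 3 : ℂ) * 3 = 1 := by
    rw [← map_ofNat C 3, ← map_mul]; norm_num
  have h0 : (110592 : PowerSeries ℂ) ≠ 0 := by
    rw [← map_ofNat C 110592]
    intro h
    have := PowerSeries.C_injective (R := ℂ) (h.trans (map_zero C).symm)
    norm_num at this
  apply mul_left_cancel₀ h0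
  rw [map_ofNat C 2]
  have hR : R8 x a c = 3 * x ^ 2 + 36 * x ^ 3 + 72 * x ^ 4 - 225 * a * x - 900 * a * x ^ 2
    - 189 * (a - 8 * c) * x
    - 42 * a + 196 * c - 267 * a ^ 2 - 3528 * a * c + 14112 * c ^ 2 - 12000 * a ^ 3 := rfl
  linear_combination (432 * (3 * (1 + 8 * x) ^ 4 - 10 * (1 + 240 * a) * (1 + 8 * x) ^ 2
      + 8 * (1 - 504 * (a - 8 * c)) * (1 + 8 * x) - (1 + 240 * a) ^ 2)) * h256 - 64 * hD
      - (73728 * R8 x a c) * h3 - 73728 * hR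

theorem ltV_two_mul (hv2 : v (2 : ℂ) < 1) {R : PowerSeries ℂ} (hR : LeV v 1 R) :
    LtV v (C 2 * R) := by
  rw [← smul_eq_C_mul]
  exact hR.smul_lt (by simpa using hv2)

/-- `l = 2`, `p ≡ 7 mod 8` -/
theorem case2c {p : ℕ} [NeZero p] (S : WSys p) (hN : NormP S v) (hvp : v (p : ℂ) = 1)
    (hv2 : v (2 : ℂ) < 1) (hv3 : v (3 : ℂ) = 1) {A B : PowerSeries ℂ} (h : S.W 2 A B)
    (hA : LeV v (v (8 : ℂ)) (A - 1)) (hB : LeV v (v (8 : ℂ)) (B - C (-(p : ℂ)))) {t : ℂ}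
    (ht : v t ≤ 1) (hpt : (p : ℂ) + 1 = 8 * t) : False := by
  obtain ⟨x, hx, rfl⟩ := exists_eq_add_mul (μ := 8) (c := 1) (by norm_num) (by simpa using hA)
  obtain ⟨y, hy, rfl⟩ := exists_eq_add_mul (μ := 8) (by norm_num) hB
  obtain ⟨sc, hsc, hsb⟩ := exists_sc
  have hp0 : (p : ℂ) ≠ 0 := by exact_mod_cast NeZero.ne p
  have hE4 : S.W 4 E4s ((p : ℂ) ^ (4 : ℤ) • Vs p E4s) := S.lvl1 E4_mem
  have hE6 : S.W 6 E6s ((p : ℂ) ^ (6 : ℤ) • Vs p E6s) := S.lvl1 E6_mem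
  have T1 := S.cast (S.smul 3 (S.mul (S.mul (S.mul h h) h) h))
    (show (2 : ℤ) + 2 + 2 + 2 = 8 by norm_num) rfl rfl
  have T2 := S.cast (S.smul (-10) (S.mul hE4 (S.mul h h)))
    (show (4 : ℤ) + (2 + 2) = 8 by norm_num) rfl rfl
  have T3 := S.cast (S.smul 8 (S.mul hE6 h)) (show (6 : ℤ) + 2 = 8 by norm_num) rfl rfl
  have T4 := S.cast (S.smul (-1) (S.mul hE4 hE4)) (show (4 : ℤ) + 4 = 8 by norm_num) rfl rfl
  have T := S.smul (1 / 256) (S.add (S.add (S.add T1 T2) T3) T4)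
  have hD : 1728 * Ds = (1 + 240 * sa) ^ 3 - (1 - 504 * (sa - 8 * sc)) ^ 2 := by
    have := discriminant_qExpansion_smul
    rw [smul_eq_C_mul, map_ofNat] at this
    rw [this, ← hsb, ← E4s_eq, ← E6s_eq]
  have hD' : 1728 * Vs p Ds = (1 + 240 * Vs p sa) ^ 3
      - (1 - 504 * (Vs p sa - 8 * Vs p sc)) ^ 2 := by
    have := congrArg (Vs p) hD
    simp only [Vs, map_mul, map_sub, map_add, map_pow, map_one, map_ofNat] at this ⊢
    exact this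
  set yh : PowerSeries ℂ := C (1 / (p : ℂ) ^ 2) * (y - C ((p : ℂ) * t)) with hyh
  have hyhV : LeV v 1 yh := by
    apply LeV.mul1
    · apply (LeV.C _).mono
      rw [map_div₀, map_pow, hvp]; simp
    · apply hy.sub
      apply (LeV.C _).mono
      rw [map_mul, hvp, one_mul]; exact ht
  have hBy : C (-(p : ℂ)) + C 8 * y = C (p : ℂ) ^ 2 * (1 + 8 * yh) := by
    have h1 : C (p : ℂ) ^ 2 * C (1 / (p : ℂ) ^ 2) = 1 := by
      rw [← map_pow, ← map_mul, mul_one_div_cancel (pow_ne_zero 2 hp0), map_one]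
    have h2 : C (p : ℂ) + 1 = 8 * C t := by
      rw [← map_one C, ← map_add, hpt, map_mul, map_ofNat]
    rw [hyh, map_neg, map_mul, map_ofNat]
    linear_combination (-8 * (y - C (p : ℂ) * C t)) * h1 - C (p : ℂ) * h2
  have h13 : LeV v 1 (C (1 / 3 : ℂ)) := by
    apply (LeV.C _).mono
    rw [map_div₀, hv3]; simp
  have o1 : OrdV v ((1 / 256 : ℂ) • ((3 : ℂ) • ((C 1 + C 8 * x) * (C 1 + C 8 * x) * (C 1 + C 8 * x)
      * (C 1 + C 8 * x)) + (-10 : ℂ) • (E4s * ((C 1 + C 8 * x) * (C 1 + C 8 * x)))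
      + (8 : ℂ) • (E6s * (C 1 + C 8 * x)) + (-1 : ℂ) • (E4s * E4s))) 1 := by
    have e : (1 / 256 : ℂ) • ((3 : ℂ) • ((C 1 + C 8 * x) * (C 1 + C 8 * x) * (C 1 + C 8 * x)
      * (C 1 + C 8 * x)) + (-10 : ℂ) • (E4s * ((C 1 + C 8 * x) * (C 1 + C 8 * x)))
      + (8 : ℂ) • (E6s * (C 1 + C 8 * x)) + (-1 : ℂ) • (E4s * E4s)) =
        Ds + C 2 * (C (1 / 3 : ℂ) * R8 x sa sc) := by
      rw [← l8_identity x sa sc Ds hD, ← hsb, ← E4s_eq, ← E6s_eq]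
      simp only [smul_eq_C_mul, map_neg, map_ofNat, map_one]
      ring
    rw [e]
    exact ordV_discriminant.add_ltV (ltV_two_mul hv2 (h13.mul1 (leV_R8 hx leV_sa (hsc v))))
  have o2 : OrdV v ((1 / 256 : ℂ) • ((3 : ℂ) • ((C (-(p : ℂ)) + C 8 * y) * (C (-(p : ℂ)) + C 8 * y)
      * (C (-(p : ℂ)) + C 8 * y) * (C (-(p : ℂ)) + C 8 * y))
      + (-10 : ℂ) • ((p : ℂ) ^ (4 : ℤ) • Vs p E4s * ((C (-(p : ℂ)) + C 8 * y)
        * (C (-(p : ℂ)) + C 8 * y)))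
      + (8 : ℂ) • ((p : ℂ) ^ (6 : ℤ) • Vs p E6s * (C (-(p : ℂ)) + C 8 * y))
      + (-1 : ℂ) • ((p : ℂ) ^ (4 : ℤ) • Vs p E4s * ((p : ℂ) ^ (4 : ℤ) • Vs p E4s)))) (p * 1) := by
    have e : (1 / 256 : ℂ) • ((3 : ℂ) • ((C (-(p : ℂ)) + C 8 * y) * (C (-(p : ℂ)) + C 8 * y)
      * (C (-(p : ℂ)) + C 8 * y) * (C (-(p : ℂ)) + C 8 * y))
      + (-10 : ℂ) • ((p : ℂ) ^ (4 : ℤ) • Vs p E4s * ((C (-(p : ℂ)) + C 8 * y)
        * (C (-(p : ℂ)) + C 8 * y)))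
      + (8 : ℂ) • ((p : ℂ) ^ (6 : ℤ) • Vs p E6s * (C (-(p : ℂ)) + C 8 * y))
      + (-1 : ℂ) • ((p : ℂ) ^ (4 : ℤ) • Vs p E4s * ((p : ℂ) ^ (4 : ℤ) • Vs p E4s))) =
        ((p : ℂ) ^ 8) • (Vs p Ds + C 2 * (C (1 / 3 : ℂ) * R8 yh (Vs p sa) (Vs p sc))) := by
      rw [← l8_identity yh (Vs p sa) (Vs p sc) (Vs p Ds) hD', hBy,
        show (4 : ℤ) = ((4 : ℕ) : ℤ) by norm_num, show (6 : ℤ) = ((6 : ℕ) : ℤ) by norm_num,
        zpow_smul_eq, zpow_smul_eq, Vs_E4s, Vs_E6s, hsb, Vs_sub, Vs_mul, Vs_ofNat]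
      simp only [smul_eq_C_mul, map_neg, map_ofNat, map_one, map_pow]
      ring
    rw [e]
    apply OrdV.smul _ (by rw [map_pow, hvp, one_pow])
    exact (ordV_discriminant.Vs p).add_ltV
      (ltV_two_mul hv2 (h13.mul1 (leV_R8 hyhV (leV_sa.Vs p) ((hsc v).Vs p))))
  have := hN T o1 o2
  have h3 : (8 : ℤ) * ((p : ℤ) + 1) / 12 < ((p : ℤ) + 1) := by
    apply Int.ediv_lt_of_lt_mul (by norm_num)
    have : (0 : ℤ) ≤ p := Int.natCast_nonneg p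
    linarith
  push_cast at this
  linarith

end

end Fermat.Agent.S16Aux
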